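import Mathlib
import Fermat.Prelude.Def_GaloisRep_Residual

/-!
# Burnside's theorem for absolutely irreducible residual Galois representations (for S53)

Main results (all in namespace `Fermat.Agent.S53`):

* `burnside_span_eq_top_of_isAlgClosed` : a monoid acting irreducibly on a finite-dimensional
  nontrivial vector space over an algebraically closed field spans the endomorphism algebra.
* `span_eq_top_of_span_baseChange_eq_top` : descent of spanning along a field extension.
* `residual_span_range_eq_top` : for an absolutely irreducible `ρbar : ResidualGaloisRep k`,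
  `Submodule.span k (Set.range ρbar.ρ) = ⊤`.
* `residual_exists_finsupp_sum_eq` : every endomorphism of `ρbar.V` is a finite `k`-linear
  combination of the `ρbar.ρ σ`.
-/

set_option autoImplicit false

namespace Fermat.Agent.S53

open Module
open scoped TensorProduct

section Abstract

variable {K V G : Type*} [Field K] [AddCommGroup V] [Module K V] [Monoid G]

/-- **Burnside's theorem** over an algebraically closed field: a monoid acting irreducibly on a
finite-dimensional nontrivial vector space spans the whole endomorphism algebra. -/
theorem burnside_span_eq_top_of_isAlgClosed [IsAlgClosed K] [FiniteDimensional K V] [Nontrivial V]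
    (ρ : G →* Module.End K V)
    (hirr : ∀ W : Submodule K V, (∀ g, ∀ x ∈ W, ρ g x ∈ W) → W = ⊥ ∨ W = ⊤) :
    Submodule.span K (Set.range ρ) = ⊤ := by
  classical
  -- the subalgebra generated by the image
  set A : Subalgebra K (Module.End K V) := Algebra.adjoin K (Set.range ρ) with hA
  have hAspan : Subalgebra.toSubmodule A = Submodule.span K (Set.range ρ) := by
    rw [hA, Algebra.adjoin_eq_span]
    congr 1
    have : Submonoid.closure (Set.range ρ) = MonoidHom.mrange ρ := by
      rw [← MonoidHom.coe_mrange, Submonoid.closure_eq]
    rw [this, MonoidHom.coe_mrange]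
  have hmem : ∀ g, ρ g ∈ A := fun g => Algebra.subset_adjoin ⟨g, rfl⟩
  -- `V` is a simple `A`-module
  have hsimple : IsSimpleModule A V := by
    rw [isSimpleModule_iff]
    refine { exists_pair_ne := ⟨⊥, ⊤, bot_ne_top⟩, eq_bot_or_eq_top := fun N => ?_ }
    let W : Submodule K V :=
      { carrier := N
        add_mem' := fun ha hb => N.add_mem ha hb
        zero_mem' := N.zero_mem
        smul_mem' := fun c x hx => by
          have : c • x = (algebraMap K A c) • x := by
            rw [algebraMap_smul]
          rw [this]
          exact N.smul_mem _ hx }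
    have hW : ∀ g, ∀ x ∈ W, ρ g x ∈ W := fun g x hx => by
      have : ρ g x = (⟨ρ g, hmem g⟩ : A) • x := rfl
      rw [this]
      exact N.smul_mem _ hx
    rcases hirr W hW with h | h
    · left
      ext x
      have : x ∈ W ↔ x ∈ (⊥ : Submodule K V) := by rw [h]
      simpa [W] using this
    · right
      ext x
      have : x ∈ W ↔ x ∈ (⊤ : Submodule K V) := by rw [h]
      simpa [W] using this
  have hschur := IsSimpleModule.algebraMap_end_bijective_of_isAlgClosed (A := A) (V := V) K
  -- `V` is finite over `End A V`
  have hfin : Module.Finite (Module.End A V) V := by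
    obtain ⟨s, hs⟩ := Module.Finite.fg_top (R := K) (M := V)
    refine ⟨⟨s, ?_⟩⟩
    rw [eq_top_iff]
    intro x _
    have hx : x ∈ Submodule.span K (s : Set V) := by rw [hs]; trivial
    clear * - hx
    induction hx using Submodule.span_induction with
    | mem x hx => exact Submodule.subset_span hx
    | zero => exact Submodule.zero_mem _
    | add x y _ _ hx hy => exact Submodule.add_mem _ hx hy
    | smul c x _ hx =>
      have : c • x = (algebraMap K (Module.End A V) c) • x := by
        simp
      rw [this]
      exact Submodule.smul_mem _ _ hx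
  have hsurj := Module.Finite.toModuleEnd_moduleEnd_surjective (R := A) (M := V)
  rw [← hAspan, eq_top_iff]
  intro T _
  -- `T` commutes with `End A V` since the latter consists of scalars
  let f : Module.End (Module.End A V) V :=
    { toFun := T
      map_add' := T.map_add
      map_smul' := fun φ x => by
        obtain ⟨c, rfl⟩ := hschur.2 φ
        simp }
  obtain ⟨r, hr⟩ := hsurj f
  have : (r : Module.End K V) = T := by
    ext x
    have := congrArg (fun F : Module.End (Module.End A V) V => F x) hr
    exact this
  rw [← this]
  exact r.2

end Abstract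

section Descent

variable {k K V : Type*} [Field k] [Field K] [Algebra k K] [AddCommGroup V] [Module k V]
  [FiniteDimensional k V]

/-- Descent of "spanning the endomorphism algebra" along a field extension. -/
theorem span_eq_top_of_span_baseChange_eq_top (S : Set (Module.End k V))
    (h : Submodule.span K ((fun f : Module.End k V => f.baseChange K) '' S) = ⊤) :
    Submodule.span k S = ⊤ := by
  classical
  by_contra hne
  obtain ⟨φ, hφ0, hφ⟩ := Submodule.exists_le_ker_of_lt_top _ (lt_top_iff_ne_top.mpr hne)
  let b := Module.finBasis k V
  let bK := Algebra.TensorProduct.basis K b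
  let c : Matrix (Fin (finrank k V)) (Fin (finrank k V)) k :=
    fun i j => φ (LinearMap.toMatrix b b |>.symm (Matrix.single i j 1))
  have hφc : ∀ f : Module.End k V, φ f = ∑ i, ∑ j, LinearMap.toMatrix b b f i j * c i j := by
    intro f
    conv_lhs => rw [← (LinearMap.toMatrix b b).symm_apply_apply f,
      Matrix.matrix_eq_sum_single (LinearMap.toMatrix b b f)]
    simp only [map_sum]
    refine Finset.sum_congr rfl fun i _ => Finset.sum_congr rfl fun j _ => ?_
    have : Matrix.single i j (LinearMap.toMatrix b b f i j) =
        (LinearMap.toMatrix b b f i j) • Matrix.single i j (1 : k) := by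
      rw [Matrix.smul_single, smul_eq_mul, mul_one]
    rw [this, map_smul, map_smul, smul_eq_mul]
  let Φ : Module.End K (K ⊗[k] V) →ₗ[K] K :=
    { toFun := fun T => ∑ i, ∑ j, LinearMap.toMatrix bK bK T i j * algebraMap k K (c i j)
      map_add' := fun T T' => by
        simp only [map_add, Matrix.add_apply, add_mul, Finset.sum_add_distrib]
      map_smul' := fun a T => by
        simp only [map_smul, Matrix.smul_apply, smul_eq_mul, RingHom.id_apply, Finset.mul_sum,
          mul_assoc] }
  have hΦ : ∀ f : Module.End k V, Φ (f.baseChange K) = algebraMap k K (φ f) := by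
    intro f
    show ∑ i, ∑ j, LinearMap.toMatrix bK bK (f.baseChange K) i j * algebraMap k K (c i j) = _
    rw [LinearMap.toMatrix_baseChange, hφc, map_sum]
    refine Finset.sum_congr rfl fun i _ => ?_
    rw [map_sum]
    refine Finset.sum_congr rfl fun j _ => ?_
    rw [Matrix.map_apply, map_mul]
  have hΦ0 : Φ = 0 := by
    have : Submodule.span K ((fun f : Module.End k V => f.baseChange K) '' S) ≤ LinearMap.ker Φ := by
      rw [Submodule.span_le]
      rintro _ ⟨f, hf, rfl⟩
      rw [SetLike.mem_coe, LinearMap.mem_ker, hΦ]
      have : φ f = 0 := hφ (Submodule.subset_span hf)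
      rw [this, map_zero]
    rw [h, top_le_iff] at this
    exact LinearMap.ker_eq_top.mp this
  apply hφ0
  ext f
  have := hΦ f
  rw [hΦ0, LinearMap.zero_apply] at this
  have h0 : φ f = 0 := (map_eq_zero_iff _ (algebraMap k K).injective).mp this.symm
  simpa using h0

end Descent

section Residual

variable {k : Type} [Field k]

/-- **Burnside** for an absolutely irreducible residual representation: the image of Galois spans
the whole endomorphism algebra of `ρbar.V`. -/
theorem residual_span_range_eq_top (ρbar : ResidualGaloisRep k)
    (habs : ρbar.IsAbsolutelyIrreducible) :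
    Submodule.span k (Set.range ρbar.ρ) = ⊤ := by
  have : FiniteDimensional k ρbar.V := Module.finite_of_finrank_eq_succ ρbar.finrank_eq
  set K := AlgebraicClosure k
  have hfr : Module.finrank K (K ⊗[k] ρbar.V) = 2 := (ρbar.baseChange K).finrank_eq
  have : FiniteDimensional K (K ⊗[k] ρbar.V) := Module.finite_of_finrank_eq_succ hfr
  have : Nontrivial (K ⊗[k] ρbar.V) :=
    Module.nontrivial_of_finrank_pos (R := K) (by rw [hfr]; norm_num)
  have hK := burnside_span_eq_top_of_isAlgClosed (ρbar.baseChange K).ρ habs
  apply span_eq_top_of_span_baseChange_eq_top (K := K)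
  rw [← hK]
  congr 1
  ext T
  constructor
  · rintro ⟨f, ⟨σ, rfl⟩, rfl⟩
    exact ⟨σ, rfl⟩
  · rintro ⟨σ, rfl⟩
    exact ⟨ρbar.ρ σ, ⟨σ, rfl⟩, rfl⟩

/-- Every endomorphism of `ρbar.V` is a finite linear combination of Galois elements. -/
theorem residual_exists_finsupp_sum_eq (ρbar : ResidualGaloisRep k)
    (habs : ρbar.IsAbsolutelyIrreducible) (T : Module.End k ρbar.V) :
    ∃ c : (AlgebraicClosure ℚ ≃ₐ[ℚ] AlgebraicClosure ℚ) →₀ k,
      (c.sum fun σ a => a • ρbar.ρ σ) = T := by
  have hT : T ∈ Submodule.span k (Set.range ρbar.ρ) := by
    rw [residual_span_range_eq_top ρbar habs]; trivial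
  rw [← Set.image_univ, Finsupp.mem_span_image_iff_linearCombination] at hT
  obtain ⟨c, -, hc⟩ := hT
  exact ⟨c, by rw [← hc, Finsupp.linearCombination_apply]⟩

end Residual

end Fermat.Agent.S53
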