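import Fermat.Agent.S53.SubQuotLift

/-!
# S53 K2: the entries of a test lift lie in the range of its coordinate map

`entries_mem_range_of` takes the tangent-separation statement (WP-H) as an explicit hypothesis
`TangentSeparation 𝒪`.
-/

set_option autoImplicit false
set_option linter.unusedSectionVars false
set_option linter.style.haveILetI false

namespace Fermat.Agent.S53

open IsLocalRing GaloisRep

variable {𝒪 : Type} [CommRing 𝒪] [IsLocalRing 𝒪] {ρbar : ResidualGaloisRep (ResidueField 𝒪)}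
  {𝒟 : ∀ ⦃A : Type⦄ [CommRing A] [IsLocalRing A] [Algebra 𝒪 A], GaloisRepAdic A → Prop}

/-- Statement of WP-H (`exists_tangent_separating`): a proper subalgebra of an Artinian test
algebra is separated from the whole algebra by a tangent vector. -/
def TangentSeparation (𝒪 : Type) [CommRing 𝒪] [IsLocalRing 𝒪] : Prop :=
  letI := dualNumberAlgebra 𝒪
  ∀ (A : Type) [CommRing A] [IsLocalRing A] [Algebra 𝒪 A], IsArtinianTestAlgebra 𝒪 A →
    ∀ B : Subalgebra 𝒪 A, B ≠ ⊤ →
      ∃ θ : A →ₐ[𝒪] DualNumber (ResidueField 𝒪),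
        (∀ b ∈ B, TrivSqZeroExt.snd (θ b) = 0) ∧ ∃ a, TrivSqZeroExt.snd (θ a) ≠ 0

/-- Any ring homomorphism from an Artinian test algebra to a nontrivial ring is local. -/
theorem isLocalHom_of_testAlg {A C : Type} [CommRing A] [IsLocalRing A] [Algebra 𝒪 A]
    [CommRing C] [Nontrivial C] (hA : IsArtinianTestAlgebra 𝒪 A) (θ : A →+* C) :
    IsLocalHom θ := by
  refine ⟨fun a ha => ?_⟩
  by_contra hnu
  have hmem : a ∈ maximalIdeal A := hnu
  obtain ⟨n, hn⟩ := testAlg_isNilpotent hA hmem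
  have h1 : IsUnit (θ a ^ n) := ha.pow n
  rw [← map_pow, hn, map_zero] at h1
  exact not_isUnit_zero h1

/-- A ring homomorphism from an Artinian test algebra to `k[ε]` maps the maximal ideal into
`k ε`. -/
theorem fst_eq_zero_of_mem_maximalIdeal {A : Type} [CommRing A] [IsLocalRing A] [Algebra 𝒪 A]
    (hA : IsArtinianTestAlgebra 𝒪 A) (θ : A →+* DualNumber (ResidueField 𝒪)) {a : A}
    (ha : a ∈ maximalIdeal A) : TrivSqZeroExt.fst (θ a) = 0 := by
  obtain ⟨n, hn⟩ := testAlg_isNilpotent hA ha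
  have h1 : (TrivSqZeroExt.fst (θ a)) ^ n = 0 := by
    rw [← TrivSqZeroExt.fst_pow, ← map_pow, hn, map_zero, TrivSqZeroExt.fst_zero]
  exact eq_zero_of_pow_eq_zero h1

/-- **K2** (`entries_mem_range`), with WP-H as an explicit hypothesis. -/
theorem entries_mem_range_of [Finite (ResidueField 𝒪)] (hsep : TangentSeparation 𝒪)
    (h𝒟 : IsDeformationCondition 𝒪 𝒟) (F : Frame 𝒪 ρbar) {N : ℕ} (κ : Coords N)
    (hκ : κ.Separating 𝒟 F) {A : Type} [CommRing A] [IsLocalRing A] [Algebra 𝒪 A]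
    {r : Gal →* M2 A} (hr : IsTestLift 𝒟 F r) (φ : Lam 𝒪 N →ₐ[𝒪] A)
    (hφ : ∀ l, φ (MvPowerSeries.X l) = coord F κ r l) :
    ∀ g i j, r g i j ∈ φ.range := by
  classical
  have hA := hr.test
  -- the subalgebra generated by the entries and the range of `φ`
  set S : Set A := Set.range (fun p : Gal × Fin 2 × Fin 2 => r p.1 p.2.1 p.2.2) with hS
  set B' : Subalgebra 𝒪 A := Algebra.adjoin 𝒪 (S ∪ (φ.range : Set A)) with hB'
  have hentry : ∀ g i j, r g i j ∈ B' := fun g i j =>
    Algebra.subset_adjoin (Or.inl ⟨(g, i, j), rfl⟩)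
  have hrange : ∀ a ∈ φ.range, a ∈ B' := fun a ha => Algebra.subset_adjoin (Or.inr ha)
  letI : IsLocalRing B' := isLocalRing_subalgebra hA B'
  have hB't : IsArtinianTestAlgebra 𝒪 B' := isArtinianTestAlgebra_subalgebra hA B'
  have hr' : IsTestLift 𝒟 F (restrictMat r B' hentry) :=
    isTestLift_restrictMat h𝒟 F hr B' hentry
  -- the part of `B'` lying in the range of `φ`
  set B₀ : Subalgebra 𝒪 B' := φ.range.comap B'.val with hB₀
  suffices htop : B₀ = ⊤ by
    intro g i j
    have : (⟨r g i j, hentry g i j⟩ : B') ∈ B₀ := by rw [htop]; exact Algebra.mem_top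
    exact this
  by_contra hne
  letI := dualNumberAlgebra 𝒪
  obtain ⟨θ, hθB, a₀, ha₀⟩ := hsep B' hB't B₀ hne
  have hθloc : IsLocalHom (θ : B' →+* DualNumber (ResidueField 𝒪)) :=
    isLocalHom_of_testAlg hB't _
  have hr'' : IsTestLift 𝒟 F
      (mapMat (θ : B' →+* DualNumber (ResidueField 𝒪)) (restrictMat r B' hentry)) :=
    isTestLift_map' h𝒟 F (isArtinianTestAlgebra_dualNumber 𝒪) θ hθloc hr'
  -- the coordinates of the pushed-forward lift vanish
  have hcoord : ∀ l, coord F κ
      (mapMat (θ : B' →+* DualNumber (ResidueField 𝒪)) (restrictMat r B' hentry)) l = 0 := by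
    intro l
    rw [coord_map]
    have hval : ((coord F κ (restrictMat r B' hentry) l : B') : A) = coord F κ r l := by
      simp [coord]
    have hmemB₀ : coord F κ (restrictMat r B' hentry) l ∈ B₀ := by
      show ((coord F κ (restrictMat r B' hentry) l : B') : A) ∈ φ.range
      rw [hval, ← hφ l]
      exact ⟨_, rfl⟩
    have hmax : coord F κ (restrictMat r B' hentry) l ∈ maximalIdeal B' :=
      hr'.norm.lift _ _ _
    apply TrivSqZeroExt.ext
    · rw [TrivSqZeroExt.fst_zero]
      exact fst_eq_zero_of_mem_maximalIdeal hB't (θ : B' →+* DualNumber (ResidueField 𝒪)) hmax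
    · rw [TrivSqZeroExt.snd_zero]
      exact hθB _ hmemB₀
  have hsnd := hκ _ hr'' hcoord
  -- hence `snd ∘ θ` vanishes on generators of `B'`, hence everywhere
  have hall : ∀ (a : A) (ha : a ∈ B'), TrivSqZeroExt.snd (θ ⟨a, ha⟩) = 0 := by
    intro a ha
    induction ha using Algebra.adjoin_induction with
    | mem x hx =>
      rcases hx with ⟨⟨g, i, j⟩, rfl⟩ | hx
      · exact hsnd g i j
      · exact hθB _ hx
    | algebraMap c =>
      have : (⟨algebraMap 𝒪 A c, B'.algebraMap_mem c⟩ : B') = algebraMap 𝒪 B' c := rfl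
      rw [this, AlgHom.commutes]
      rfl
    | add x y hx hy ihx ihy =>
      have : (⟨x + y, B'.add_mem hx hy⟩ : B') = ⟨x, hx⟩ + ⟨y, hy⟩ := rfl
      rw [this, map_add, TrivSqZeroExt.snd_add, ihx, ihy, add_zero]
    | mul x y hx hy ihx ihy =>
      have : (⟨x * y, B'.mul_mem hx hy⟩ : B') = ⟨x, hx⟩ * ⟨y, hy⟩ := rfl
      rw [this, map_mul, TrivSqZeroExt.snd_mul, ihx, ihy]
      simp
  exact ha₀ (hall a₀.1 a₀.2)

end Fermat.Agent.S53
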