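import Fermat.Agent.S53.TangentSep
import Fermat.Agent.S53.EntriesRange

/-!
# S53 K2, hypothesis-free form: `TangentSeparation` holds, hence `entries_mem_range`.
-/

set_option autoImplicit false

namespace Fermat.Agent.S53

open IsLocalRing GaloisRep

/-- WP-H in the packaged form used by `EntriesRange.lean`. -/
theorem tangentSeparation (𝒪 : Type) [CommRing 𝒪] [IsLocalRing 𝒪] : TangentSeparation 𝒪 :=
  fun _ _ _ _ hA B hB => exists_tangent_separating hA B hB

/-- **K2**: the entries of a test lift lie in the range of its coordinate map. -/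
theorem entries_mem_range {𝒪 : Type} [CommRing 𝒪] [IsLocalRing 𝒪]
    {ρbar : ResidualGaloisRep (ResidueField 𝒪)}
    {𝒟 : ∀ ⦃A : Type⦄ [CommRing A] [IsLocalRing A] [Algebra 𝒪 A], GaloisRepAdic A → Prop}
    [Finite (ResidueField 𝒪)]
    (h𝒟 : IsDeformationCondition 𝒪 𝒟) (F : Frame 𝒪 ρbar) {N : ℕ} (κ : Coords N)
    (hκ : κ.Separating 𝒟 F) {A : Type} [CommRing A] [IsLocalRing A] [Algebra 𝒪 A]
    {r : Gal →* M2 A} (hr : IsTestLift 𝒟 F r) (φ : Lam 𝒪 N →ₐ[𝒪] A)
    (hφ : ∀ l, φ (MvPowerSeries.X l) = coord F κ r l) :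
    ∀ g i j, r g i j ∈ φ.range :=
  entries_mem_range_of (tangentSeparation 𝒪) h𝒟 F κ hκ hr φ hφ

end Fermat.Agent.S53
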