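import Mathlib
import Fermat.Prelude.Def_GaloisRep_DeformationCondition

/-!
# S53, work package E3: fibre products of Artinian test algebras

For `𝒪`-algebra homomorphisms `f : A →ₐ[𝒪] C`, `g : B →ₐ[𝒪] C` between local `𝒪`-algebras we
construct the fibre product `A ×_C B` as a subalgebra of `A × B`, show that it is a local ring, that
it is an Artinian test algebra as soon as `A` and `B` are, and that a deformation condition `𝒟`
can be checked on the two projections (this is `IsDeformationCondition.of_fibreProduct`).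

The special case `C = k` (the residue field of `𝒪`) is `fibreProdK`.
-/

set_option autoImplicit false

namespace Fermat.Agent.S53.FP

open IsLocalRing GaloisRep

variable {𝒪 : Type} [CommRing 𝒪]

section General

variable {A B C : Type} [CommRing A] [Algebra 𝒪 A] [CommRing B] [Algebra 𝒪 B]
  [CommRing C] [Algebra 𝒪 C]

/-- The fibre product `A ×_C B`, as a subalgebra of `A × B`. -/
def fibreProd (f : A →ₐ[𝒪] C) (g : B →ₐ[𝒪] C) : Subalgebra 𝒪 (A × B) :=
  AlgHom.equalizer (f.comp (AlgHom.fst 𝒪 A B)) (g.comp (AlgHom.snd 𝒪 A B))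

theorem mem_fibreProd {f : A →ₐ[𝒪] C} {g : B →ₐ[𝒪] C} {x : A × B} :
    x ∈ fibreProd f g ↔ f x.1 = g x.2 :=
  Iff.rfl

/-- First projection of the fibre product. -/
def fibreProdFst (f : A →ₐ[𝒪] C) (g : B →ₐ[𝒪] C) : fibreProd f g →ₐ[𝒪] A :=
  (AlgHom.fst 𝒪 A B).comp (fibreProd f g).val

/-- Second projection of the fibre product. -/
def fibreProdSnd (f : A →ₐ[𝒪] C) (g : B →ₐ[𝒪] C) : fibreProd f g →ₐ[𝒪] B :=
  (AlgHom.snd 𝒪 A B).comp (fibreProd f g).val

@[simp] theorem fibreProdFst_apply (f : A →ₐ[𝒪] C) (g : B →ₐ[𝒪] C) (x : fibreProd f g) :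
    fibreProdFst f g x = (x : A × B).1 := rfl

@[simp] theorem fibreProdSnd_apply (f : A →ₐ[𝒪] C) (g : B →ₐ[𝒪] C) (x : fibreProd f g) :
    fibreProdSnd f g x = (x : A × B).2 := rfl

theorem fibreProd_comm (f : A →ₐ[𝒪] C) (g : B →ₐ[𝒪] C) :
    f.comp (fibreProdFst f g) = g.comp (fibreProdSnd f g) :=
  AlgHom.ext fun x => x.2

theorem fibreProd_injective (f : A →ₐ[𝒪] C) (g : B →ₐ[𝒪] C) :
    Function.Injective (fun x : fibreProd f g => (fibreProdFst f g x, fibreProdSnd f g x)) :=
  fun _ _ h => Subtype.ext h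

theorem fibreProd_exists (f : A →ₐ[𝒪] C) (g : B →ₐ[𝒪] C) (a : A) (b : B) (h : f a = g b) :
    ∃ x : fibreProd f g, fibreProdFst f g x = a ∧ fibreProdSnd f g x = b :=
  ⟨⟨(a, b), h⟩, rfl, rfl⟩

/-- The element of the fibre product with given components. -/
def fibreProdMk (f : A →ₐ[𝒪] C) (g : B →ₐ[𝒪] C) (a : A) (b : B) (h : f a = g b) :
    fibreProd f g := ⟨(a, b), h⟩

@[simp] theorem fibreProdFst_mk (f : A →ₐ[𝒪] C) (g : B →ₐ[𝒪] C) (a : A) (b : B)
    (h : f a = g b) : fibreProdFst f g (fibreProdMk f g a b h) = a := rfl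

@[simp] theorem fibreProdSnd_mk (f : A →ₐ[𝒪] C) (g : B →ₐ[𝒪] C) (a : A) (b : B)
    (h : f a = g b) : fibreProdSnd f g (fibreProdMk f g a b h) = b := rfl

/-- The universal property of the fibre product: the algebra homomorphism induced by a compatible
pair of homomorphisms. -/
def fibreProdLift {D : Type} [CommRing D] [Algebra 𝒪 D] (f : A →ₐ[𝒪] C) (g : B →ₐ[𝒪] C)
    (u : D →ₐ[𝒪] A) (v : D →ₐ[𝒪] B) (h : f.comp u = g.comp v) : D →ₐ[𝒪] fibreProd f g :=
  (u.prod v).codRestrict (fibreProd f g) fun d => AlgHom.congr_fun h d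

@[simp] theorem fibreProdFst_lift {D : Type} [CommRing D] [Algebra 𝒪 D] (f : A →ₐ[𝒪] C)
    (g : B →ₐ[𝒪] C) (u : D →ₐ[𝒪] A) (v : D →ₐ[𝒪] B) (h : f.comp u = g.comp v) (d : D) :
    fibreProdFst f g (fibreProdLift f g u v h d) = u d := rfl

@[simp] theorem fibreProdSnd_lift {D : Type} [CommRing D] [Algebra 𝒪 D] (f : A →ₐ[𝒪] C)
    (g : B →ₐ[𝒪] C) (u : D →ₐ[𝒪] A) (v : D →ₐ[𝒪] B) (h : f.comp u = g.comp v) (d : D) :
    fibreProdSnd f g (fibreProdLift f g u v h d) = v d := rfl

/-- An element of the fibre product is a unit iff its first component is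
(for local homomorphisms `f`, `g`). -/
theorem fibreProd_isUnit_iff (f : A →ₐ[𝒪] C) (g : B →ₐ[𝒪] C)
    (_hf : IsLocalHom (f : A →+* C)) (hg : IsLocalHom (g : B →+* C)) (x : fibreProd f g) :
    IsUnit x ↔ IsUnit (x : A × B).1 := by
  constructor
  · intro hx
    exact hx.map (fibreProdFst f g)
  · intro hx
    have hx2 : IsUnit (x : A × B).2 := by
      have h1 : IsUnit (f (x : A × B).1) := hx.map f
      have h2 : IsUnit ((g : B →+* C) (x : A × B).2) := by
        have := x.2
        rw [mem_fibreProd] at this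
        simpa [← this] using h1
      exact hg.map_nonunit _ h2
    obtain ⟨u, hu⟩ := hx
    obtain ⟨v, hv⟩ := hx2
    have hmem : ((↑u⁻¹ : A), (↑v⁻¹ : B)) ∈ fibreProd f g := by
      rw [mem_fibreProd]
      have h := x.2
      rw [mem_fibreProd, ← hu, ← hv] at h
      have e1 : f (↑u⁻¹ : A) * f (u : A) = 1 := by rw [← map_mul]; simp
      have e2 : g (↑v⁻¹ : B) * g (v : B) = 1 := by rw [← map_mul]; simp
      calc f (↑u⁻¹ : A) = f ↑u⁻¹ * (g ↑v⁻¹ * g ↑v) := by rw [e2, mul_one]
        _ = f ↑u⁻¹ * (g ↑v⁻¹ * f ↑u) := by rw [h]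
        _ = (f ↑u⁻¹ * f ↑u) * g ↑v⁻¹ := by ring
        _ = g ↑v⁻¹ := by rw [e1, one_mul]
    refine IsUnit.of_mul_eq_one (⟨_, hmem⟩ : fibreProd f g) ?_
    apply Subtype.ext
    apply Prod.ext
    · show (x : A × B).1 * ↑u⁻¹ = 1
      rw [← hu]; simp
    · show (x : A × B).2 * ↑v⁻¹ = 1
      rw [← hv]; simp

theorem fibreProd_isUnit_iff_snd (f : A →ₐ[𝒪] C) (g : B →ₐ[𝒪] C)
    (hf : IsLocalHom (f : A →+* C)) (hg : IsLocalHom (g : B →+* C)) (x : fibreProd f g) :
    IsUnit x ↔ IsUnit (x : A × B).2 := by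
  rw [fibreProd_isUnit_iff f g hf hg]
  have h := x.2
  rw [mem_fibreProd] at h
  constructor
  · intro hx
    refine hg.map_nonunit _ ?_
    show IsUnit (g (x : A × B).2)
    rw [← h]; exact hx.map f
  · intro hx
    refine hf.map_nonunit _ ?_
    show IsUnit (f (x : A × B).1)
    rw [h]; exact hx.map g

/-- The fibre product of local rings along local homomorphisms is a local ring. -/
theorem fibreProd_isLocalRing [IsLocalRing A] (f : A →ₐ[𝒪] C) (g : B →ₐ[𝒪] C)
    (hf : IsLocalHom (f : A →+* C)) (hg : IsLocalHom (g : B →+* C)) :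
    IsLocalRing (fibreProd f g) := by
  have : Nontrivial (fibreProd f g) := by
    refine ⟨⟨0, 1, fun h => ?_⟩⟩
    have := congrArg (fun x : fibreProd f g => (x : A × B).1) h
    simp at this
  refine IsLocalRing.of_isUnit_or_isUnit_of_isUnit_add fun a b hab => ?_
  rw [fibreProd_isUnit_iff f g hf hg] at hab ⊢
  rw [fibreProd_isUnit_iff f g hf hg]
  have : IsUnit ((a : A × B).1 + (b : A × B).1) := hab
  exact IsLocalRing.isUnit_or_isUnit_of_isUnit_add this

theorem fibreProdFst_isLocalHom (f : A →ₐ[𝒪] C) (g : B →ₐ[𝒪] C)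
    (hf : IsLocalHom (f : A →+* C)) (hg : IsLocalHom (g : B →+* C)) :
    IsLocalHom (fibreProdFst f g : fibreProd f g →+* A) :=
  ⟨fun x hx => (fibreProd_isUnit_iff f g hf hg x).2 hx⟩

theorem fibreProdSnd_isLocalHom (f : A →ₐ[𝒪] C) (g : B →ₐ[𝒪] C)
    (hf : IsLocalHom (f : A →+* C)) (hg : IsLocalHom (g : B →+* C)) :
    IsLocalHom (fibreProdSnd f g : fibreProd f g →+* B) :=
  ⟨fun x hx => (fibreProd_isUnit_iff_snd f g hf hg x).2 hx⟩

end General

/-! ### Artinian test algebras -/

/-- A ring homomorphism from an Artinian local ring to a nontrivial ring is local. -/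
theorem isLocalHom_of_isArtinianRing {A C : Type} [CommRing A] [IsLocalRing A] [IsArtinianRing A]
    [CommRing C] [Nontrivial C] (f : A →+* C) : IsLocalHom f := by
  refine ⟨fun a ha => ?_⟩
  by_contra hna
  have hmem : a ∈ maximalIdeal A := (IsLocalRing.mem_maximalIdeal a).2 hna
  have hnil : IsNilpotent (maximalIdeal A) := by
    have h := IsArtinianRing.isNilpotent_jacobson_bot (R := A)
    rwa [IsLocalRing.jacobson_eq_maximalIdeal ⊥ bot_ne_top] at h
  obtain ⟨n, hn⟩ := hnil
  have han : a ^ n = 0 := by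
    have : a ^ n ∈ maximalIdeal A ^ n := Ideal.pow_mem_pow hmem n
    rw [hn] at this
    simpa using this
  have : IsUnit (f a ^ n) := ha.pow n
  rw [← map_pow, han, map_zero] at this
  exact not_isUnit_zero this

section Test

variable {A B C : Type} [CommRing A] [IsLocalRing A] [Algebra 𝒪 A]
  [CommRing B] [IsLocalRing B] [Algebra 𝒪 B] [CommRing C] [Nontrivial C] [Algebra 𝒪 C]

/-- Algebra homomorphisms out of an Artinian test algebra are local. -/
theorem isLocalHom_of_isArtinianTestAlgebra (hA : IsArtinianTestAlgebra 𝒪 A) (f : A →ₐ[𝒪] C) :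
    IsLocalHom (f : A →+* C) :=
  have := hA.isArtinian
  isLocalHom_of_isArtinianRing (f : A →+* C)

/-- An Artinian test algebra is an Artinian `𝒪`-module. -/
theorem isArtinian_of_isArtinianTestAlgebra (hA : IsArtinianTestAlgebra 𝒪 A) :
    IsArtinian 𝒪 A := by
  have := hA.isLocalHom
  have := hA.isArtinian
  have : IsLocalRing 𝒪 := RingHom.domain_isLocalRing (algebraMap 𝒪 A)
  have h1 := IsLocalRing.length_restrictScalars 𝒪 A A
  have h2 : Module.length A A ≠ ⊤ := Module.length_ne_top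
  have h3 : Module.length (ResidueField 𝒪) (ResidueField A) ≠ ⊤ := by
    rw [Module.length_ne_top_iff, isFiniteLength_iff_isNoetherian_isArtinian]
    have hs : Function.Surjective (Algebra.linearMap (ResidueField 𝒪) (ResidueField A)) := by
      intro x
      obtain ⟨c, hc⟩ := hA.residue_surjective x
      refine ⟨residue 𝒪 c, ?_⟩
      rw [← hc]
      rfl
    have : Module.Finite (ResidueField 𝒪) (ResidueField A) :=
      Module.Finite.of_surjective _ hs
    exact ⟨inferInstance, inferInstance⟩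
  have h4 : Module.length 𝒪 A ≠ ⊤ := by
    rw [h1]
    exact WithTop.mul_ne_top h2 h3
  rw [Module.length_ne_top_iff, isFiniteLength_iff_isNoetherian_isArtinian] at h4
  exact h4.2

/-- Any subalgebra of a product of two Artinian test algebras is an Artinian ring. -/
theorem isArtinianRing_subalgebra_prod (hA : IsArtinianTestAlgebra 𝒪 A)
    (hB : IsArtinianTestAlgebra 𝒪 B) (P : Subalgebra 𝒪 (A × B)) : IsArtinianRing P := by
  have := isArtinian_of_isArtinianTestAlgebra hA
  have := isArtinian_of_isArtinianTestAlgebra hB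
  have h : IsArtinian 𝒪 P := isArtinian_of_injective P.val.toLinearMap Subtype.val_injective
  exact isArtinian_of_tower 𝒪 h

/-- The local ring structure on the fibre product of two Artinian test algebras. -/
theorem fibreProd_isLocalRing' (hA : IsArtinianTestAlgebra 𝒪 A) (hB : IsArtinianTestAlgebra 𝒪 B)
    (f : A →ₐ[𝒪] C) (g : B →ₐ[𝒪] C) : IsLocalRing (fibreProd f g) :=
  fibreProd_isLocalRing f g (isLocalHom_of_isArtinianTestAlgebra hA f)
    (isLocalHom_of_isArtinianTestAlgebra hB g)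

/-- The fibre product of two Artinian test algebras is an Artinian test algebra. -/
theorem fibreProd_isArtinianTestAlgebra (hA : IsArtinianTestAlgebra 𝒪 A)
    (hB : IsArtinianTestAlgebra 𝒪 B) (f : A →ₐ[𝒪] C) (g : B →ₐ[𝒪] C) :
    @IsArtinianTestAlgebra 𝒪 _ (fibreProd f g) _ (fibreProd_isLocalRing' hA hB f g) _ := by
  have := fibreProd_isLocalRing' hA hB f g
  have hf := isLocalHom_of_isArtinianTestAlgebra hA f
  have hg := isLocalHom_of_isArtinianTestAlgebra hB g
  refine ⟨⟨fun c hc => ?_⟩, fun x => ?_, isArtinianRing_subalgebra_prod hA hB _⟩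
  · have h1 : IsUnit (algebraMap 𝒪 A c) := by
      have := hc.map (fibreProdFst f g)
      simpa using this
    exact hA.isLocalHom.map_nonunit c h1
  · obtain ⟨p, rfl⟩ := IsLocalRing.residue_surjective x
    obtain ⟨c, hc⟩ := hA.residue_surjective (residue A (fibreProdFst f g p))
    refine ⟨c, ?_⟩
    have hc' : residue A (algebraMap 𝒪 A c) = residue A (fibreProdFst f g p) := hc
    show residue _ (algebraMap 𝒪 (fibreProd f g) c) = residue _ p
    rw [← sub_eq_zero, ← map_sub, IsLocalRing.residue_eq_zero_iff, IsLocalRing.mem_maximalIdeal,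
      mem_nonunits_iff, fibreProd_isUnit_iff f g hf hg]
    rw [← sub_eq_zero, ← map_sub, IsLocalRing.residue_eq_zero_iff, IsLocalRing.mem_maximalIdeal,
      mem_nonunits_iff] at hc'
    simpa using hc'

/-- A deformation condition can be checked on the two projections of a fibre product of
Artinian test algebras: this is `IsDeformationCondition.of_fibreProduct` for the concrete fibre
product `fibreProd f g`. -/
theorem of_fibreProd
    {𝒟 : ∀ ⦃A : Type⦄ [CommRing A] [IsLocalRing A] [Algebra 𝒪 A], GaloisRepAdic A → Prop}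
    (h𝒟 : IsDeformationCondition 𝒪 𝒟)
    (hA : IsArtinianTestAlgebra 𝒪 A) (hB : IsArtinianTestAlgebra 𝒪 B)
    (hlocC : IsLocalRing C) (hC : IsArtinianTestAlgebra 𝒪 C) (f : A →ₐ[𝒪] C) (g : B →ₐ[𝒪] C)
    (hloc : IsLocalRing (fibreProd f g))
    (hpA : IsLocalHom (fibreProdFst f g : fibreProd f g →+* A))
    (hpB : IsLocalHom (fibreProdSnd f g : fibreProd f g →+* B))
    (ρ : GaloisRepAdic (fibreProd f g))
    (h1 : 𝒟 (ρ.baseChangeAlong (fibreProdFst f g : fibreProd f g →+* A) hpA))
    (h2 : 𝒟 (ρ.baseChangeAlong (fibreProdSnd f g : fibreProd f g →+* B) hpB)) : 𝒟 ρ := by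
  have hP : IsArtinianTestAlgebra 𝒪 (fibreProd f g) := by
    have h := fibreProd_isArtinianTestAlgebra hA hB f g
    exact h
  exact h𝒟.of_fibreProduct hA hB hC hP f g (fibreProdFst f g) (fibreProdSnd f g) hpA hpB
    (fibreProd_comm f g) (fibreProd_injective f g) (fibreProd_exists f g) h1 h2

end Test

/-! ### The special case `C = k`, the residue field of `𝒪` -/

section OverK

variable [IsLocalRing 𝒪] {A B : Type} [CommRing A] [IsLocalRing A] [Algebra 𝒪 A]
  [CommRing B] [IsLocalRing B] [Algebra 𝒪 B]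

/-- The residue field of `𝒪` is an Artinian test algebra. -/
theorem residueField_isArtinianTestAlgebra : IsArtinianTestAlgebra 𝒪 (ResidueField 𝒪) := by
  refine ⟨?_, ?_, inferInstance⟩
  · show IsLocalHom (residue 𝒪)
    infer_instance
  · intro x
    obtain ⟨y, rfl⟩ := IsLocalRing.residue_surjective x
    obtain ⟨c, rfl⟩ := IsLocalRing.residue_surjective y
    exact ⟨c, rfl⟩

/-- For an Artinian test algebra `A`, the residue field of `A` is identified with `k`. -/
noncomputable def resEquiv (hA : IsArtinianTestAlgebra 𝒪 A) :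
    ResidueField 𝒪 ≃+* ResidueField A :=
  haveI := hA.isLocalHom
  RingEquiv.ofBijective (ResidueField.map (algebraMap 𝒪 A))
    ⟨(ResidueField.map (algebraMap 𝒪 A)).injective, fun x => by
      obtain ⟨c, hc⟩ := hA.residue_surjective x
      exact ⟨residue 𝒪 c, by rw [ResidueField.map_residue]; exact hc⟩⟩

theorem resEquiv_residue (hA : IsArtinianTestAlgebra 𝒪 A) (c : 𝒪) :
    resEquiv hA (residue 𝒪 c) = residue A (algebraMap 𝒪 A c) := by
  have := hA.isLocalHom
  exact ResidueField.map_residue (algebraMap 𝒪 A) c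

/-- The canonical `𝒪`-algebra homomorphism from an Artinian test algebra to `k`. -/
noncomputable def toK (hA : IsArtinianTestAlgebra 𝒪 A) : A →ₐ[𝒪] ResidueField 𝒪 where
  toRingHom := ((resEquiv hA).symm : ResidueField A →+* ResidueField 𝒪).comp (residue A)
  commutes' c := by
    show (resEquiv hA).symm (residue A (algebraMap 𝒪 A c)) = residue 𝒪 c
    rw [RingEquiv.symm_apply_eq, resEquiv_residue]

theorem toK_apply (hA : IsArtinianTestAlgebra 𝒪 A) (a : A) :
    toK hA a = (resEquiv hA).symm (residue A a) := rfl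

theorem toK_surjective (hA : IsArtinianTestAlgebra 𝒪 A) : Function.Surjective (toK hA) :=
  fun x => ⟨algebraMap 𝒪 A (Function.surjInv IsLocalRing.residue_surjective x), by
    rw [AlgHom.commutes]
    exact Function.surjInv_eq IsLocalRing.residue_surjective x⟩

theorem toK_eq_zero_iff (hA : IsArtinianTestAlgebra 𝒪 A) (a : A) :
    toK hA a = 0 ↔ a ∈ maximalIdeal A := by
  rw [toK_apply, RingEquiv.map_eq_zero_iff, IsLocalRing.residue_eq_zero_iff]

/-- If `a ≡ c` modulo the maximal ideal (with `c ∈ 𝒪`), then the image of `a` in `k` is the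
residue class of `c`. -/
theorem toK_eq_residue_of_sub_mem (hA : IsArtinianTestAlgebra 𝒪 A) {a : A} {c : 𝒪}
    (h : a - algebraMap 𝒪 A c ∈ maximalIdeal A) : toK hA a = residue 𝒪 c := by
  have h0 := (toK_eq_zero_iff hA _).2 h
  rw [map_sub, AlgHom.commutes, sub_eq_zero] at h0
  exact h0

/-- The fibre product `A ×_k B` of two Artinian test algebras over the residue field. -/
noncomputable def fibreProdK (hA : IsArtinianTestAlgebra 𝒪 A) (hB : IsArtinianTestAlgebra 𝒪 B) :
    Subalgebra 𝒪 (A × B) :=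
  fibreProd (toK hA) (toK hB)

theorem mem_fibreProdK_iff (hA : IsArtinianTestAlgebra 𝒪 A) (hB : IsArtinianTestAlgebra 𝒪 B)
    (x : A × B) : x ∈ fibreProdK hA hB ↔ toK hA x.1 = toK hB x.2 := Iff.rfl

/-- A pair of elements congruent to the same element of `𝒪` lies in the fibre product. -/
theorem mem_fibreProdK_of_sub_mem (hA : IsArtinianTestAlgebra 𝒪 A)
    (hB : IsArtinianTestAlgebra 𝒪 B) {a : A} {b : B} {c : 𝒪}
    (ha : a - algebraMap 𝒪 A c ∈ maximalIdeal A) (hb : b - algebraMap 𝒪 B c ∈ maximalIdeal B) :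
    (a, b) ∈ fibreProdK hA hB := by
  rw [mem_fibreProdK_iff, toK_eq_residue_of_sub_mem hA ha, toK_eq_residue_of_sub_mem hB hb]

/-- The fibre product over `k` is a local ring. -/
theorem fibreProdK_isLocalRing (hA : IsArtinianTestAlgebra 𝒪 A)
    (hB : IsArtinianTestAlgebra 𝒪 B) : IsLocalRing (fibreProdK hA hB) :=
  fibreProd_isLocalRing' hA hB _ _

/-- The fibre product over `k` is an Artinian test algebra. -/
theorem fibreProdK_isArtinianTestAlgebra (hA : IsArtinianTestAlgebra 𝒪 A)
    (hB : IsArtinianTestAlgebra 𝒪 B) :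
    @IsArtinianTestAlgebra 𝒪 _ (fibreProdK hA hB) _ (fibreProdK_isLocalRing hA hB) _ :=
  fibreProd_isArtinianTestAlgebra hA hB _ _

/-- First projection `A ×_k B → A`. -/
noncomputable def fibreProdKFst (hA : IsArtinianTestAlgebra 𝒪 A)
    (hB : IsArtinianTestAlgebra 𝒪 B) : fibreProdK hA hB →ₐ[𝒪] A :=
  fibreProdFst _ _

/-- Second projection `A ×_k B → B`. -/
noncomputable def fibreProdKSnd (hA : IsArtinianTestAlgebra 𝒪 A)
    (hB : IsArtinianTestAlgebra 𝒪 B) : fibreProdK hA hB →ₐ[𝒪] B :=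
  fibreProdSnd _ _

@[simp] theorem fibreProdKFst_apply (hA : IsArtinianTestAlgebra 𝒪 A)
    (hB : IsArtinianTestAlgebra 𝒪 B) (x : fibreProdK hA hB) :
    fibreProdKFst hA hB x = (x : A × B).1 := rfl

@[simp] theorem fibreProdKSnd_apply (hA : IsArtinianTestAlgebra 𝒪 A)
    (hB : IsArtinianTestAlgebra 𝒪 B) (x : fibreProdK hA hB) :
    fibreProdKSnd hA hB x = (x : A × B).2 := rfl

theorem fibreProdKFst_surjective (hA : IsArtinianTestAlgebra 𝒪 A)
    (hB : IsArtinianTestAlgebra 𝒪 B) : Function.Surjective (fibreProdKFst hA hB) := by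
  intro a
  obtain ⟨b, hb⟩ := toK_surjective hB (toK hA a)
  exact ⟨⟨(a, b), hb.symm⟩, rfl⟩

theorem fibreProdKSnd_surjective (hA : IsArtinianTestAlgebra 𝒪 A)
    (hB : IsArtinianTestAlgebra 𝒪 B) : Function.Surjective (fibreProdKSnd hA hB) := by
  intro b
  obtain ⟨a, ha⟩ := toK_surjective hA (toK hB b)
  exact ⟨⟨(a, b), ha⟩, rfl⟩

theorem fibreProdKFst_isLocalHom (hA : IsArtinianTestAlgebra 𝒪 A)
    (hB : IsArtinianTestAlgebra 𝒪 B) :
    IsLocalHom (fibreProdKFst hA hB : fibreProdK hA hB →+* A) :=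
  fibreProdFst_isLocalHom _ _ (isLocalHom_of_isArtinianTestAlgebra hA _)
    (isLocalHom_of_isArtinianTestAlgebra hB _)

theorem fibreProdKSnd_isLocalHom (hA : IsArtinianTestAlgebra 𝒪 A)
    (hB : IsArtinianTestAlgebra 𝒪 B) :
    IsLocalHom (fibreProdKSnd hA hB : fibreProdK hA hB →+* B) :=
  fibreProdSnd_isLocalHom _ _ (isLocalHom_of_isArtinianTestAlgebra hA _)
    (isLocalHom_of_isArtinianTestAlgebra hB _)

/-- The two projections of `A ×_k B` are jointly injective. -/
theorem fibreProdK_ext (hA : IsArtinianTestAlgebra 𝒪 A) (hB : IsArtinianTestAlgebra 𝒪 B)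
    {x y : fibreProdK hA hB} (h1 : fibreProdKFst hA hB x = fibreProdKFst hA hB y)
    (h2 : fibreProdKSnd hA hB x = fibreProdKSnd hA hB y) : x = y :=
  Subtype.ext (Prod.ext h1 h2)

/-- An element of `A ×_k B` lies in the maximal ideal iff its first component does. -/
theorem fibreProdK_mem_maximalIdeal_iff (hA : IsArtinianTestAlgebra 𝒪 A)
    (hB : IsArtinianTestAlgebra 𝒪 B) (x : fibreProdK hA hB) :
    x ∈ @maximalIdeal (fibreProdK hA hB) _ (fibreProdK_isLocalRing hA hB) ↔
      (x : A × B).1 ∈ maximalIdeal A := by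
  have := fibreProdK_isLocalRing hA hB
  rw [IsLocalRing.mem_maximalIdeal, IsLocalRing.mem_maximalIdeal, mem_nonunits_iff,
    mem_nonunits_iff]
  exact not_congr (fibreProd_isUnit_iff _ _ (isLocalHom_of_isArtinianTestAlgebra hA _)
    (isLocalHom_of_isArtinianTestAlgebra hB _) x)

/-- A deformation condition can be checked on the two projections of `A ×_k B`: this is
`IsDeformationCondition.of_fibreProduct` with `C := k`. -/
theorem of_fibreProdK
    {𝒟 : ∀ ⦃A : Type⦄ [CommRing A] [IsLocalRing A] [Algebra 𝒪 A], GaloisRepAdic A → Prop}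
    (h𝒟 : IsDeformationCondition 𝒪 𝒟)
    (hA : IsArtinianTestAlgebra 𝒪 A) (hB : IsArtinianTestAlgebra 𝒪 B)
    (hloc : IsLocalRing (fibreProdK hA hB))
    (hpA : IsLocalHom (fibreProdKFst hA hB : fibreProdK hA hB →+* A))
    (hpB : IsLocalHom (fibreProdKSnd hA hB : fibreProdK hA hB →+* B))
    (ρ : GaloisRepAdic (fibreProdK hA hB))
    (h1 : 𝒟 (ρ.baseChangeAlong (fibreProdKFst hA hB : fibreProdK hA hB →+* A) hpA))
    (h2 : 𝒟 (ρ.baseChangeAlong (fibreProdKSnd hA hB : fibreProdK hA hB →+* B) hpB)) : 𝒟 ρ :=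
  of_fibreProd h𝒟 hA hB inferInstance residueField_isArtinianTestAlgebra (toK hA) (toK hB)
    hloc hpA hpB ρ h1 h2

end OverK

end Fermat.Agent.S53.FP
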