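import Fermat.Agent.S53.Defs

set_option autoImplicit false

/-!
# Glue layer between `GaloisRepAdic` and matrix representations (S53, step 7)

Builds on `Fermat.Agent.S53.Defs` (`Gal`, `M2`, `MatCont`, `ofMat`, `mapMat`).
-/

namespace Fermat.Agent.S53

open IsLocalRing

section Coord

variable {A : Type} [CommRing A] {V : Type} [AddCommGroup V] [Module A V]
  {ι : Type} [Fintype ι]

/-- Membership in `I • ⊤` can be tested on coordinates with respect to a finite basis. -/
theorem mem_smul_top_iff_repr (b : Module.Basis ι A V) (I : Ideal A) (x : V) :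
    x ∈ I • (⊤ : Submodule A V) ↔ ∀ i, b.repr x i ∈ I := by
  constructor
  · intro hx
    refine Submodule.smul_induction_on hx ?_ ?_
    · intro a ha w _ i
      rw [map_smul, Finsupp.smul_apply, smul_eq_mul]
      exact I.mul_mem_right _ ha
    · intro x y hx hy i
      rw [map_add, Finsupp.add_apply]
      exact I.add_mem (hx i) (hy i)
  · intro h
    rw [← b.sum_repr x]
    exact Submodule.sum_mem _ fun i _ =>
      Submodule.smul_mem_smul (h i) Submodule.mem_top

end Coord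

variable {A : Type} [CommRing A] [IsLocalRing A]

/-- The matrix representation attached to a Galois representation and a basis. -/
noncomputable def toMat (ρ : GaloisRepAdic A) (b : Module.Basis (Fin 2) A ρ.V) : Gal →* M2 A :=
  ((LinearMap.toMatrixAlgEquiv b : Module.End A ρ.V ≃ₐ[A] M2 A) : Module.End A ρ.V →* M2 A).comp ρ.ρ

@[simp] theorem toMat_apply (ρ : GaloisRepAdic A) (b : Module.Basis (Fin 2) A ρ.V) (σ : Gal) :
    toMat ρ b σ = LinearMap.toMatrix b b (ρ.ρ σ) := rfl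

theorem matCont_toMat (ρ : GaloisRepAdic A) (b : Module.Basis (Fin 2) A ρ.V) :
    MatCont (toMat ρ b) := by
  intro n
  obtain ⟨L, hL, h⟩ := ρ.isAdicContinuous n
  refine ⟨L, hL, fun σ hσ i j => ?_⟩
  have h1 := (mem_smul_top_iff_repr b _ _).mp (h σ hσ (b j)) i
  rw [toMat_apply, Matrix.sub_apply, LinearMap.toMatrix_apply, Matrix.one_apply]
  rw [map_sub, Finsupp.sub_apply, b.repr_self, Finsupp.single_apply] at h1
  simpa [eq_comm] using h1

/-- A basis of the underlying module of a `GaloisRepAdic`. -/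
noncomputable def someBasis (ρ : GaloisRepAdic A) : Module.Basis (Fin 2) A ρ.V :=
  Module.finBasisOfFinrankEq A ρ.V ρ.finrank_eq

theorem toMat_ofMat_basisFun (r : Gal →* M2 A) (hr : MatCont r) :
    toMat (ofMat r hr) (Pi.basisFun A (Fin 2)) = r := by
  ext σ : 1
  change LinearMap.toMatrix (Pi.basisFun A (Fin 2)) (Pi.basisFun A (Fin 2))
    (Matrix.toLin' (r σ)) = r σ
  rw [LinearMap.toMatrix_eq_toMatrix', LinearMap.toMatrix'_toLin']

/-- Two representations are equivalent iff their matrices in given bases are conjugate. -/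
theorem isEquiv_iff_toMat (ρ ρ' : GaloisRepAdic A) (b : Module.Basis (Fin 2) A ρ.V)
    (b' : Module.Basis (Fin 2) A ρ'.V) :
    ρ.IsEquiv ρ' ↔ ∃ g : (M2 A)ˣ, ∀ σ, (g : M2 A) * toMat ρ b σ = toMat ρ' b' σ * g := by
  constructor
  · rintro ⟨e⟩
    have hinv : LinearMap.toMatrix b b' (e.toLinearEquiv : ρ.V →ₗ[A] ρ'.V) *
        LinearMap.toMatrix b' b (e.toLinearEquiv.symm : ρ'.V →ₗ[A] ρ.V) = 1 := by
      rw [← LinearMap.toMatrix_comp b' b b', LinearEquiv.comp_coe, LinearEquiv.symm_trans_self,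
        LinearEquiv.refl_toLinearMap, LinearMap.toMatrix_id]
    have hinv' : LinearMap.toMatrix b' b (e.toLinearEquiv.symm : ρ'.V →ₗ[A] ρ.V) *
        LinearMap.toMatrix b b' (e.toLinearEquiv : ρ.V →ₗ[A] ρ'.V) = 1 := by
      rw [← LinearMap.toMatrix_comp b b' b, LinearEquiv.comp_coe, LinearEquiv.self_trans_symm,
        LinearEquiv.refl_toLinearMap, LinearMap.toMatrix_id]
    refine ⟨⟨_, _, hinv, hinv'⟩, fun σ => ?_⟩
    change LinearMap.toMatrix b b' (e.toLinearEquiv : ρ.V →ₗ[A] ρ'.V) * toMat ρ b σ =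
      toMat ρ' b' σ * LinearMap.toMatrix b b' (e.toLinearEquiv : ρ.V →ₗ[A] ρ'.V)
    rw [toMat_apply, toMat_apply, ← LinearMap.toMatrix_comp b b b', ← LinearMap.toMatrix_comp b b' b']
    congr 1
    ext x
    exact e.map_apply σ x
  · rintro ⟨g, hg⟩
    have h1 : Matrix.toLin b' b (↑g⁻¹ : M2 A) ∘ₗ Matrix.toLin b b' (g : M2 A) = LinearMap.id := by
      rw [← Matrix.toLin_mul b b' b, Units.inv_mul, Matrix.toLin_one]
    have h2 : Matrix.toLin b b' (g : M2 A) ∘ₗ Matrix.toLin b' b (↑g⁻¹ : M2 A) = LinearMap.id := by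
      rw [← Matrix.toLin_mul b' b b', Units.mul_inv, Matrix.toLin_one]
    refine ⟨⟨LinearEquiv.ofLinearMap (Matrix.toLin b b' (g : M2 A)) (Matrix.toLin b' b (↑g⁻¹ : M2 A))
      h2 h1, fun σ x => ?_⟩⟩
    change Matrix.toLin b b' (g : M2 A) (ρ.ρ σ x) = ρ'.ρ σ (Matrix.toLin b b' (g : M2 A) x)
    have e1 : ρ.ρ σ = Matrix.toLin b b (toMat ρ b σ) := by
      rw [toMat_apply, Matrix.toLin_toMatrix]
    have e2 : ρ'.ρ σ = Matrix.toLin b' b' (toMat ρ' b' σ) := by
      rw [toMat_apply, Matrix.toLin_toMatrix]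
    rw [e1, e2, ← LinearMap.comp_apply, ← LinearMap.comp_apply, ← Matrix.toLin_mul b b b',
      ← Matrix.toLin_mul b b' b', hg σ]

theorem isEquiv_ofMat_toMat (ρ : GaloisRepAdic A) (b : Module.Basis (Fin 2) A ρ.V) :
    ρ.IsEquiv (ofMat (toMat ρ b) (matCont_toMat ρ b)) := by
  rw [isEquiv_iff_toMat ρ _ b (Pi.basisFun A (Fin 2)), toMat_ofMat_basisFun]
  exact ⟨1, fun σ => by simp⟩

/-- Every Galois representation is equivalent to one given by matrices. -/
theorem exists_ofMat_isEquiv (ρ : GaloisRepAdic A) :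
    ∃ (r : Gal →* M2 A) (hr : MatCont r), ρ.IsEquiv (ofMat r hr) :=
  ⟨_, _, isEquiv_ofMat_toMat ρ (someBasis ρ)⟩

theorem isEquiv_ofMat_iff {r r' : Gal →* M2 A} {hr : MatCont r} {hr' : MatCont r'} :
    (ofMat r hr).IsEquiv (ofMat r' hr') ↔
      ∃ g : (M2 A)ˣ, ∀ σ, (g : M2 A) * r σ = r' σ * g := by
  rw [isEquiv_iff_toMat _ _ (Pi.basisFun A (Fin 2)) (Pi.basisFun A (Fin 2)),
    toMat_ofMat_basisFun, toMat_ofMat_basisFun]

theorem IsEquiv.refl (ρ : GaloisRepAdic A) : ρ.IsEquiv ρ := ⟨GaloisRepAdic.Equiv.refl ρ⟩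

theorem IsEquiv.symm {ρ ρ' : GaloisRepAdic A} (h : ρ.IsEquiv ρ') : ρ'.IsEquiv ρ :=
  let ⟨e⟩ := h; ⟨e.symm⟩

theorem IsEquiv.trans {ρ ρ' ρ'' : GaloisRepAdic A} (h : ρ.IsEquiv ρ') (h' : ρ'.IsEquiv ρ'') :
    ρ.IsEquiv ρ'' :=
  let ⟨e⟩ := h; let ⟨e'⟩ := h'; ⟨e.trans e'⟩

theorem IsEquiv.baseChangeAlong {B : Type} [CommRing B] [IsLocalRing B] (φ : A →+* B)
    (hφ : IsLocalHom φ) {ρ ρ' : GaloisRepAdic A} (h : ρ.IsEquiv ρ') :
    (ρ.baseChangeAlong φ hφ).IsEquiv (ρ'.baseChangeAlong φ hφ) :=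
  let ⟨e⟩ := h; ⟨e.baseChangeAlong φ hφ⟩

section BaseChange

variable {B : Type} [CommRing B] [IsLocalRing B]

/-- The base-changed basis of the base-changed representation. -/
noncomputable def baseChangeBasis (φ : A →+* B) (hφ : IsLocalHom φ) (ρ : GaloisRepAdic A)
    (b : Module.Basis (Fin 2) A ρ.V) : Module.Basis (Fin 2) B (ρ.baseChangeAlong φ hφ).V :=
  letI : Algebra A B := φ.toAlgebra
  Algebra.TensorProduct.basis B b

theorem toMat_baseChangeAlong (φ : A →+* B) (hφ : IsLocalHom φ) (ρ : GaloisRepAdic A)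
    (b : Module.Basis (Fin 2) A ρ.V) :
    toMat (ρ.baseChangeAlong φ hφ) (baseChangeBasis φ hφ ρ b) = mapMat φ (toMat ρ b) := by
  let _ : Algebra A B := φ.toAlgebra
  ext σ : 1
  exact LinearMap.toMatrix_baseChange B (ρ.ρ σ) b b

theorem baseChangeAlong_ofMat_isEquiv (φ : A →+* B) (hφ : IsLocalHom φ) (r : Gal →* M2 A)
    (hr : MatCont r) :
    ((ofMat r hr).baseChangeAlong φ hφ).IsEquiv
      (ofMat (mapMat φ r) (matCont_mapMat φ hφ hr)) := by
  refine (isEquiv_iff_toMat _ _ (baseChangeBasis φ hφ (ofMat r hr) (Pi.basisFun A (Fin 2)))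
    (Pi.basisFun B (Fin 2))).mpr ⟨1, fun σ => ?_⟩
  rw [Units.val_one, one_mul, mul_one, toMat_baseChangeAlong, toMat_ofMat_basisFun,
    toMat_ofMat_basisFun]

end BaseChange

/-! ### Residual representations in matrix form -/

section Residual

variable {k : Type} [Field k]

/-- The matrix representation attached to a residual representation and a basis. -/
noncomputable def toMatRes (ρ : ResidualGaloisRep k) (b : Module.Basis (Fin 2) k ρ.V) :
    Gal →* M2 k :=
  ((LinearMap.toMatrixAlgEquiv b : Module.End k ρ.V ≃ₐ[k] M2 k) : Module.End k ρ.V →* M2 k).comp ρ.ρ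

@[simp] theorem toMatRes_apply (ρ : ResidualGaloisRep k) (b : Module.Basis (Fin 2) k ρ.V)
    (σ : Gal) : toMatRes ρ b σ = LinearMap.toMatrix b b (ρ.ρ σ) := rfl

/-- A basis of the underlying space of a residual representation. -/
noncomputable def someBasisRes (ρ : ResidualGaloisRep k) : Module.Basis (Fin 2) k ρ.V :=
  Module.finBasisOfFinrankEq k ρ.V ρ.finrank_eq

theorem toMatRes_factorsThroughFiniteLevel (ρ : ResidualGaloisRep k)
    (b : Module.Basis (Fin 2) k ρ.V) : GaloisFactorsThroughFiniteLevel (toMatRes ρ b) := by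
  obtain ⟨L, hL, h⟩ := ρ.factorsThroughFiniteLevel
  refine ⟨L, hL, fun σ hσ => ?_⟩
  rw [toMatRes_apply, h σ hσ]
  exact LinearMap.toMatrix_one b

/-- Two residual representations are equivalent iff their matrices in given bases are
conjugate. -/
theorem isEquivRes_iff_toMatRes (ρ ρ' : ResidualGaloisRep k) (b : Module.Basis (Fin 2) k ρ.V)
    (b' : Module.Basis (Fin 2) k ρ'.V) :
    ρ.IsEquiv ρ' ↔ ∃ g : (M2 k)ˣ, ∀ σ, (g : M2 k) * toMatRes ρ b σ = toMatRes ρ' b' σ * g := by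
  constructor
  · rintro ⟨e⟩
    have hinv : LinearMap.toMatrix b b' (e.toLinearEquiv : ρ.V →ₗ[k] ρ'.V) *
        LinearMap.toMatrix b' b (e.toLinearEquiv.symm : ρ'.V →ₗ[k] ρ.V) = 1 := by
      rw [← LinearMap.toMatrix_comp b' b b', LinearEquiv.comp_coe, LinearEquiv.symm_trans_self,
        LinearEquiv.refl_toLinearMap, LinearMap.toMatrix_id]
    have hinv' : LinearMap.toMatrix b' b (e.toLinearEquiv.symm : ρ'.V →ₗ[k] ρ.V) *
        LinearMap.toMatrix b b' (e.toLinearEquiv : ρ.V →ₗ[k] ρ'.V) = 1 := by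
      rw [← LinearMap.toMatrix_comp b b' b, LinearEquiv.comp_coe, LinearEquiv.self_trans_symm,
        LinearEquiv.refl_toLinearMap, LinearMap.toMatrix_id]
    refine ⟨⟨_, _, hinv, hinv'⟩, fun σ => ?_⟩
    change LinearMap.toMatrix b b' (e.toLinearEquiv : ρ.V →ₗ[k] ρ'.V) * toMatRes ρ b σ =
      toMatRes ρ' b' σ * LinearMap.toMatrix b b' (e.toLinearEquiv : ρ.V →ₗ[k] ρ'.V)
    rw [toMatRes_apply, toMatRes_apply, ← LinearMap.toMatrix_comp b b b',
      ← LinearMap.toMatrix_comp b b' b']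
    congr 1
    ext x
    exact e.map_apply σ x
  · rintro ⟨g, hg⟩
    have h1 : Matrix.toLin b' b (↑g⁻¹ : M2 k) ∘ₗ Matrix.toLin b b' (g : M2 k) = LinearMap.id := by
      rw [← Matrix.toLin_mul b b' b, Units.inv_mul, Matrix.toLin_one]
    have h2 : Matrix.toLin b b' (g : M2 k) ∘ₗ Matrix.toLin b' b (↑g⁻¹ : M2 k) = LinearMap.id := by
      rw [← Matrix.toLin_mul b' b b', Units.mul_inv, Matrix.toLin_one]
    refine ⟨⟨LinearEquiv.ofLinearMap (Matrix.toLin b b' (g : M2 k))
      (Matrix.toLin b' b (↑g⁻¹ : M2 k)) h2 h1, fun σ x => ?_⟩⟩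
    change Matrix.toLin b b' (g : M2 k) (ρ.ρ σ x) = ρ'.ρ σ (Matrix.toLin b b' (g : M2 k) x)
    have e1 : ρ.ρ σ = Matrix.toLin b b (toMatRes ρ b σ) := by
      rw [toMatRes_apply, Matrix.toLin_toMatrix]
    have e2 : ρ'.ρ σ = Matrix.toLin b' b' (toMatRes ρ' b' σ) := by
      rw [toMatRes_apply, Matrix.toLin_toMatrix]
    rw [e1, e2, ← LinearMap.comp_apply, ← LinearMap.comp_apply, ← Matrix.toLin_mul b b b',
      ← Matrix.toLin_mul b b' b', hg σ]

/-- The base-changed basis of `ρ.baseChange k'`. -/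
noncomputable def baseChangeBasisRes (k' : Type) [Field k'] [Algebra k k']
    (ρ : ResidualGaloisRep k) (b : Module.Basis (Fin 2) k ρ.V) :
    Module.Basis (Fin 2) k' (ρ.baseChange k').V :=
  Algebra.TensorProduct.basis k' b

theorem toMatRes_baseChange (k' : Type) [Field k'] [Algebra k k']
    (ρ : ResidualGaloisRep k) (b : Module.Basis (Fin 2) k ρ.V) :
    toMatRes (ρ.baseChange k') (baseChangeBasisRes k' ρ b) =
      mapMat (algebraMap k k') (toMatRes ρ b) := by
  ext σ : 1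
  exact LinearMap.toMatrix_baseChange k' (ρ.ρ σ) b b

/-- The base-changed basis of `ρ.baseChangeAlong ψ`. -/
noncomputable def baseChangeAlongBasisRes {k' : Type} [Field k'] (ψ : k →+* k')
    (ρ : ResidualGaloisRep k) (b : Module.Basis (Fin 2) k ρ.V) :
    Module.Basis (Fin 2) k' (ρ.baseChangeAlong ψ).V :=
  letI : Algebra k k' := ψ.toAlgebra
  Algebra.TensorProduct.basis k' b

theorem toMatRes_baseChangeAlong {k' : Type} [Field k'] (ψ : k →+* k')
    (ρ : ResidualGaloisRep k) (b : Module.Basis (Fin 2) k ρ.V) :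
    toMatRes (ρ.baseChangeAlong ψ) (baseChangeAlongBasisRes ψ ρ b) = mapMat ψ (toMatRes ρ b) := by
  let _ : Algebra k k' := ψ.toAlgebra
  ext σ : 1
  exact LinearMap.toMatrix_baseChange k' (ρ.ρ σ) b b

/-- The basis of the residual representation induced by a basis. -/
noncomputable def residualBasis (ρ : GaloisRepAdic A) (b : Module.Basis (Fin 2) A ρ.V) :
    Module.Basis (Fin 2) (ResidueField A) ρ.residual.V :=
  Algebra.TensorProduct.basis (ResidueField A) b

theorem toMatRes_residual (ρ : GaloisRepAdic A) (b : Module.Basis (Fin 2) A ρ.V) :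
    toMatRes ρ.residual (residualBasis ρ b) = mapMat (residue A) (toMat ρ b) := by
  ext σ : 1
  exact LinearMap.toMatrix_baseChange (ResidueField A) (ρ.ρ σ) b b

/-- Matrix criterion for "the residual representation of `ρ` is `ρbar` (base changed along
`ψ`)". -/
theorem residual_isEquiv_baseChangeAlong_iff {k₀ : Type} [Field k₀]
    (ψ : k₀ →+* ResidueField A) (ρbar : ResidualGaloisRep k₀)
    (bbar : Module.Basis (Fin 2) k₀ ρbar.V) (ρ : GaloisRepAdic A)
    (b : Module.Basis (Fin 2) A ρ.V) :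
    ρ.residual.IsEquiv (ρbar.baseChangeAlong ψ) ↔
      ∃ g : (M2 (ResidueField A))ˣ, ∀ σ,
        (g : M2 (ResidueField A)) * (toMat ρ b σ).map (residue A) =
          (toMatRes ρbar bbar σ).map ψ * g := by
  rw [isEquivRes_iff_toMatRes _ _ (residualBasis ρ b) (baseChangeAlongBasisRes ψ ρbar bbar),
    toMatRes_residual, toMatRes_baseChangeAlong]
  rfl

/-- Conjugate of a matrix representation by an invertible matrix. -/
noncomputable def conjRep (g : (M2 A)ˣ) (r : Gal →* M2 A) : Gal →* M2 A where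
  toFun σ := (g : M2 A) * r σ * (↑g⁻¹ : M2 A)
  map_one' := by rw [map_one, mul_one, Units.mul_inv]
  map_mul' σ τ := by
    rw [map_mul]
    simp only [mul_assoc, Units.inv_mul_cancel_left]

omit [IsLocalRing A] in
@[simp] theorem conjRep_apply (g : (M2 A)ˣ) (r : Gal →* M2 A) (σ : Gal) :
    conjRep g r σ = (g : M2 A) * r σ * (↑g⁻¹ : M2 A) := rfl

omit [IsLocalRing A] in
theorem matrix_mul_mem_of_forall_mem (I : Ideal A) (M N P : M2 A) (h : ∀ i j, N i j ∈ I) :
    ∀ i j, (M * N * P) i j ∈ I := by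
  intro i j
  rw [Matrix.mul_apply]
  refine Ideal.sum_mem _ fun l _ => Ideal.mul_mem_right _ _ ?_
  rw [Matrix.mul_apply]
  exact Ideal.sum_mem _ fun l' _ => Ideal.mul_mem_left _ _ (h _ _)

theorem matCont_conjRep (g : (M2 A)ˣ) {r : Gal →* M2 A} (hr : MatCont r) :
    MatCont (conjRep g r) := by
  intro n
  obtain ⟨L, hL, h⟩ := hr n
  refine ⟨L, hL, fun σ hσ => ?_⟩
  have : conjRep g r σ - 1 = (g : M2 A) * (r σ - 1) * (↑g⁻¹ : M2 A) := by
    rw [conjRep_apply, mul_sub, sub_mul, mul_one, Units.mul_inv]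
  rw [this]
  exact matrix_mul_mem_of_forall_mem _ _ _ _ (h σ hσ)

theorem isEquiv_ofMat_conjRep (g : (M2 A)ˣ) {r : Gal →* M2 A} (hr : MatCont r) :
    (ofMat r hr).IsEquiv (ofMat (conjRep g r) (matCont_conjRep g hr)) := by
  rw [isEquiv_ofMat_iff]
  refine ⟨g, fun σ => ?_⟩
  rw [conjRep_apply, mul_assoc, mul_assoc, Units.inv_mul, mul_one]

theorem matCont_of_factorsThroughFiniteLevel {r : Gal →* M2 A}
    (h : GaloisFactorsThroughFiniteLevel r) : MatCont r := by
  intro n
  obtain ⟨L, hL, h1⟩ := h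
  refine ⟨L, hL, fun σ hσ i j => ?_⟩
  rw [h1 σ hσ, sub_self]
  exact Ideal.zero_mem _

/-- Invertible matrices lift along the residue map of a local ring. -/
theorem exists_unit_map_residue_eq (g : (M2 (ResidueField A))ˣ) :
    ∃ g' : (M2 A)ˣ, (g' : M2 A).map (residue A) = (g : M2 (ResidueField A)) := by
  have hsurj := IsLocalRing.residue_surjective (R := A)
  choose f hf using hsurj
  let M : M2 A := Matrix.of fun i j => f ((g : M2 (ResidueField A)) i j)
  have hM : M.map (residue A) = (g : M2 (ResidueField A)) := by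
    ext i j
    simp [M, hf]
  have hdet : IsUnit M.det := by
    have h1 : residue A M.det = (g : M2 (ResidueField A)).det := by
      rw [RingHom.map_det, RingHom.mapMatrix_apply, hM]
    have h2 : IsUnit (g : M2 (ResidueField A)).det :=
      (Matrix.isUnit_iff_isUnit_det _).mp g.isUnit
    rw [← h1] at h2
    exact (isUnit_map_iff (residue A) _).mp h2
  obtain ⟨u, hu⟩ := (Matrix.isUnit_iff_isUnit_det M).mpr hdet
  exact ⟨u, by rw [hu, hM]⟩

/-- If the residual representation of `ρ` is `ρbar` (base changed along `ψ`), then `ρ` is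
equivalent to a matrix representation reducing *entrywise* to the matrix of `ρbar` in a given
basis. -/
theorem exists_ofMat_isEquiv_of_residual {k₀ : Type} [Field k₀]
    (ψ : k₀ →+* ResidueField A) (ρbar : ResidualGaloisRep k₀)
    (bbar : Module.Basis (Fin 2) k₀ ρbar.V) (ρ : GaloisRepAdic A)
    (h : ρ.residual.IsEquiv (ρbar.baseChangeAlong ψ)) :
    ∃ (r : Gal →* M2 A) (hr : MatCont r), ρ.IsEquiv (ofMat r hr) ∧
      ∀ σ, (r σ).map (residue A) = (toMatRes ρbar bbar σ).map ψ := by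
  obtain ⟨gbar, hg⟩ :=
    (residual_isEquiv_baseChangeAlong_iff ψ ρbar bbar ρ (someBasis ρ)).mp h
  obtain ⟨g, hgg⟩ := exists_unit_map_residue_eq gbar
  have hginv : (↑g⁻¹ : M2 A).map (residue A) = (↑gbar⁻¹ : M2 (ResidueField A)) := by
    have h1 : (g : M2 A).map (residue A) * (↑g⁻¹ : M2 A).map (residue A) = 1 := by
      rw [← Matrix.map_mul, Units.mul_inv, Matrix.map_one _ (map_zero _) (map_one _)]
    rw [hgg] at h1
    exact (Units.inv_eq_of_mul_eq_one_right h1).symm
  refine ⟨conjRep g (toMat ρ (someBasis ρ)), matCont_conjRep g (matCont_toMat ρ _),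
    IsEquiv.trans (isEquiv_ofMat_toMat ρ (someBasis ρ)) (isEquiv_ofMat_conjRep g _), fun σ => ?_⟩
  rw [conjRep_apply, Matrix.map_mul, Matrix.map_mul, hgg, hginv, hg σ, mul_assoc,
    Units.mul_inv, mul_one]

theorem residual_ofMat_isEquiv {k₀ : Type} [Field k₀]
    (ψ : k₀ →+* ResidueField A) (ρbar : ResidualGaloisRep k₀)
    (bbar : Module.Basis (Fin 2) k₀ ρbar.V) (r : Gal →* M2 A) (hr : MatCont r)
    (h : ∀ σ, (r σ).map (residue A) = (toMatRes ρbar bbar σ).map ψ) :
    (ofMat r hr).residual.IsEquiv (ρbar.baseChangeAlong ψ) := by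
  refine (residual_isEquiv_baseChangeAlong_iff ψ ρbar bbar _ (Pi.basisFun A (Fin 2))).mpr
    ⟨1, fun σ => ?_⟩
  rw [Units.val_one, one_mul, mul_one, toMat_ofMat_basisFun, h σ]

end Residual

/-! ### Deformation conditions and equivalence -/

section Condition

variable {𝒪 : Type} [CommRing 𝒪] [IsLocalRing 𝒪]
  {𝒟 : ∀ ⦃A : Type⦄ [CommRing A] [IsLocalRing A] [Algebra 𝒪 A], GaloisRepAdic A → Prop}

omit [IsLocalRing 𝒪] in
/-- A deformation condition is invariant under equivalence over complete Noetherian local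
`𝒪`-algebras (not only over Artinian test algebras). -/
theorem of_isEquiv_complete (h𝒟 : GaloisRep.IsDeformationCondition 𝒪 𝒟)
    {A : Type} [CommRing A] [IsLocalRing A] [IsNoetherianRing A]
    [IsAdicComplete (maximalIdeal A) A] [Algebra 𝒪 A]
    (hloc : IsLocalHom (algebraMap 𝒪 A))
    (hsurj : Function.Surjective (IsLocalRing.residue A ∘ algebraMap 𝒪 A))
    {ρ ρ' : GaloisRepAdic A} (he : ρ.IsEquiv ρ') (h : 𝒟 ρ) : 𝒟 ρ' := by
  refine (h𝒟.iff_forall_surjective hloc hsurj ρ').mpr ?_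
  intro B _ _ _ hB q hq hqs
  have h1 : 𝒟 (ρ.baseChangeAlong (q : A →+* B) hq) :=
    (h𝒟.iff_forall_surjective hloc hsurj ρ).mp h hB q hq hqs
  have h2 : (ρ.baseChangeAlong (q : A →+* B) hq).IsEquiv (ρ'.baseChangeAlong (q : A →+* B) hq) :=
    IsEquiv.baseChangeAlong (q : A →+* B) hq he
  exact h𝒟.of_isEquiv hB h2 h1

/-- `ofResidualGaloisRep ρbar` in matrix form. -/
theorem isEquiv_ofResidualGaloisRep {k : Type} [Field k] (ρbar : ResidualGaloisRep k)
    (b : Module.Basis (Fin 2) k ρbar.V) :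
    (GaloisRepAdic.ofResidualGaloisRep ρbar).IsEquiv
      (ofMat (toMatRes ρbar b)
        (matCont_of_factorsThroughFiniteLevel (toMatRes_factorsThroughFiniteLevel ρbar b))) := by
  refine (isEquiv_iff_toMat _ _ (show Module.Basis (Fin 2) k
    (GaloisRepAdic.ofResidualGaloisRep ρbar).V from b) (Pi.basisFun k (Fin 2))).mpr
    ⟨1, fun σ => ?_⟩
  rw [Units.val_one, one_mul, mul_one, toMat_ofMat_basisFun]
  rfl

end Condition

/-! ### Frames: entrywise lifts of `ρbar` -/

section FrameGlue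

variable {𝒪 : Type} [CommRing 𝒪] [IsLocalRing 𝒪] {ρbar : ResidualGaloisRep (ResidueField 𝒪)}
  [Algebra 𝒪 A] [IsLocalHom (algebraMap 𝒪 A)]

/-- The `lift` field of `IsNormLift` rephrased: `r` reduces entrywise to the matrix of `ρbar`
in the basis of the frame. -/
theorem lift_iff_map_residue (F : Frame 𝒪 ρbar) (r : Gal →* M2 A) :
    (∀ g i j, r g i j - algebraMap 𝒪 A (F.c g i j) ∈ maximalIdeal A) ↔
      ∀ σ, (r σ).map (residue A) =
        (toMatRes ρbar F.b σ).map (ResidueField.map (algebraMap 𝒪 A)) := by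
  have key : ∀ g i j, (r g i j - algebraMap 𝒪 A (F.c g i j) ∈ maximalIdeal A ↔
      residue A (r g i j) =
        ResidueField.map (algebraMap 𝒪 A) (toMatRes ρbar F.b g i j)) := by
    intro g i j
    rw [toMatRes_apply, ← F.hc g i j, ResidueField.map_residue, ← sub_eq_zero, ← map_sub,
      residue_eq_zero_iff]
  constructor
  · intro h σ
    ext i j
    exact (key σ i j).mp (h σ i j)
  · intro h g i j
    exact (key g i j).mpr (congrFun (congrFun (h g) i) j)

/-- Every deformation of `ρbar` is equivalent to a matrix representation lifting the frame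
entrywise. -/
theorem exists_lift_of_residual_isEquiv (F : Frame 𝒪 ρbar) (ρ : GaloisRepAdic A)
    (h : ρ.residual.IsEquiv (ρbar.baseChangeAlong (ResidueField.map (algebraMap 𝒪 A)))) :
    ∃ (r : Gal →* M2 A) (hr : MatCont r), ρ.IsEquiv (ofMat r hr) ∧
      ∀ g i j, r g i j - algebraMap 𝒪 A (F.c g i j) ∈ maximalIdeal A := by
  obtain ⟨r, hr, he, hres⟩ := exists_ofMat_isEquiv_of_residual _ ρbar F.b ρ h
  exact ⟨r, hr, he, (lift_iff_map_residue F r).mpr hres⟩

/-- A matrix representation lifting the frame entrywise is a deformation of `ρbar`. -/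
theorem residual_isEquiv_of_lift (F : Frame 𝒪 ρbar) (r : Gal →* M2 A) (hr : MatCont r)
    (h : ∀ g i j, r g i j - algebraMap 𝒪 A (F.c g i j) ∈ maximalIdeal A) :
    (ofMat r hr).residual.IsEquiv
      (ρbar.baseChangeAlong (ResidueField.map (algebraMap 𝒪 A))) :=
  residual_ofMat_isEquiv _ ρbar F.b r hr ((lift_iff_map_residue F r).mp h)

end FrameGlue

/-! ### Variants with the exact signatures of the S53 work-package list -/

section PlanSignatures

variable {𝒪 : Type} [CommRing 𝒪] [IsLocalRing 𝒪] {ρbar : ResidualGaloisRep (ResidueField 𝒪)}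

theorem exists_ofMat (ρ : GaloisRepAdic A) :
    ∃ (r : Gal →* M2 A) (hr : MatCont r), ρ.IsEquiv (ofMat r hr) :=
  exists_ofMat_isEquiv ρ

theorem isEquiv_ofMat_iff_isUnit {r r' : Gal →* M2 A} {hr : MatCont r} {hr' : MatCont r'} :
    (ofMat r hr).IsEquiv (ofMat r' hr') ↔
      ∃ Q : M2 A, IsUnit Q ∧ ∀ σ, Q * r σ = r' σ * Q := by
  rw [isEquiv_ofMat_iff]
  constructor
  · rintro ⟨g, hg⟩
    exact ⟨g, g.isUnit, hg⟩
  · rintro ⟨Q, ⟨g, rfl⟩, hg⟩
    exact ⟨g, hg⟩

theorem baseChangeAlong_ofMat {B : Type} [CommRing B] [IsLocalRing B] (φ : A →+* B)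
    (hφ : IsLocalHom φ) {r : Gal →* M2 A} (hr : MatCont r) :
    ((ofMat r hr).baseChangeAlong φ hφ).IsEquiv (ofMat (mapMat φ r) (matCont_mapMat φ hφ hr)) :=
  baseChangeAlong_ofMat_isEquiv φ hφ r hr

theorem residual_ofMat_isEquiv_frame [Algebra 𝒪 A] (F : Frame 𝒪 ρbar)
    (hloc : IsLocalHom (algebraMap 𝒪 A)) {r : Gal →* M2 A} (hr : MatCont r)
    (hl : ∀ g i j, r g i j - algebraMap 𝒪 A (F.c g i j) ∈ maximalIdeal A) :
    (ofMat r hr).residual.IsEquiv
      (ρbar.baseChangeAlong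
        (@IsLocalRing.ResidueField.map _ _ _ _ _ _ (algebraMap 𝒪 A) hloc)) :=
  haveI := hloc
  residual_isEquiv_of_lift F r hr hl

theorem exists_ofMat_lift [Algebra 𝒪 A] (F : Frame 𝒪 ρbar)
    (hloc : IsLocalHom (algebraMap 𝒪 A)) (ρA : GaloisRepAdic A)
    (hres : ρA.residual.IsEquiv
      (ρbar.baseChangeAlong
        (@IsLocalRing.ResidueField.map _ _ _ _ _ _ (algebraMap 𝒪 A) hloc))) :
    ∃ (r : Gal →* M2 A) (hr : MatCont r),
      (∀ g i j, r g i j - algebraMap 𝒪 A (F.c g i j) ∈ maximalIdeal A) ∧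
        ρA.IsEquiv (ofMat r hr) := by
  have := hloc
  obtain ⟨r, hr, he, hl⟩ := exists_lift_of_residual_isEquiv F ρA hres
  exact ⟨r, hr, hl, he⟩

end PlanSignatures

end Fermat.Agent.S53
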