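import Fermat.Agent.S53.TestDefs
import Fermat.Agent.S53.MatGlue
import Fermat.Agent.S53.FibreProd

/-!
# S53, work package K3a: the product of two test lifts

Given two test lifts `r`, `r'` over Artinian test algebras `A`, `A'`, the pair `(r, r')` is a test
lift over the fibre product `A ×_k A'`.
-/

set_option autoImplicit false

noncomputable section

namespace Fermat.Agent.S53

open IsLocalRing GaloisRep Fermat.Agent.S53.FP

namespace PL

/-- Over an Artinian local ring, an adically continuous matrix representation factors through a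
finite level. -/
theorem factorsThroughFiniteLevel_of_matCont {A : Type} [CommRing A] [IsLocalRing A]
    [IsArtinianRing A] {r : Gal →* M2 A} (hr : MatCont r) : GaloisFactorsThroughFiniteLevel r := by
  have hnil : IsNilpotent (maximalIdeal A) := by
    have h := IsArtinianRing.isNilpotent_jacobson_bot (R := A)
    rwa [IsLocalRing.jacobson_eq_maximalIdeal ⊥ bot_ne_top] at h
  obtain ⟨n, hn⟩ := hnil
  obtain ⟨L, hL, h⟩ := hr n
  refine ⟨L, hL, fun σ hσ => ?_⟩
  ext i j
  have h1 := h σ hσ i j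
  rw [hn] at h1
  have h2 : (r σ - 1) i j = 0 := by simpa using h1
  rw [Matrix.sub_apply, sub_eq_zero] at h2
  exact h2

variable {𝒪 : Type} [CommRing 𝒪] [IsLocalRing 𝒪] {ρbar : ResidualGaloisRep (ResidueField 𝒪)}
  {A A' : Type} [CommRing A] [IsLocalRing A] [Algebra 𝒪 A]
  [CommRing A'] [IsLocalRing A'] [Algebra 𝒪 A']

/-- Two matrices over `A ×_k A'` with the same images in `A` and `A'` are equal. -/
theorem fibreProdK_matrix_ext (hA : IsArtinianTestAlgebra 𝒪 A) (hA' : IsArtinianTestAlgebra 𝒪 A')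
    {M N : M2 (fibreProdK hA hA')}
    (h1 : M.map (fibreProdKFst hA hA') = N.map (fibreProdKFst hA hA'))
    (h2 : M.map (fibreProdKSnd hA hA') = N.map (fibreProdKSnd hA hA')) : M = N := by
  ext i j : 1
  refine fibreProdK_ext hA hA' ?_ ?_
  · have := congrFun (congrFun h1 i) j
    simpa using this
  · have := congrFun (congrFun h2 i) j
    simpa using this

/-- The matrix over `A ×_k A'` with given components. -/
def prodMat (F : Frame 𝒪 ρbar) (hA : IsArtinianTestAlgebra 𝒪 A)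
    (hA' : IsArtinianTestAlgebra 𝒪 A') (r : Gal →* M2 A) (r' : Gal →* M2 A')
    (hl : ∀ g i j, r g i j - algebraMap 𝒪 A (F.c g i j) ∈ maximalIdeal A)
    (hl' : ∀ g i j, r' g i j - algebraMap 𝒪 A' (F.c g i j) ∈ maximalIdeal A') (σ : Gal) :
    M2 (fibreProdK hA hA') :=
  Matrix.of fun i j =>
    ⟨(r σ i j, r' σ i j), mem_fibreProdK_of_sub_mem hA hA' (hl σ i j) (hl' σ i j)⟩

theorem prodMat_map_fst (F : Frame 𝒪 ρbar) (hA : IsArtinianTestAlgebra 𝒪 A)
    (hA' : IsArtinianTestAlgebra 𝒪 A') (r : Gal →* M2 A) (r' : Gal →* M2 A')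
    (hl : ∀ g i j, r g i j - algebraMap 𝒪 A (F.c g i j) ∈ maximalIdeal A)
    (hl' : ∀ g i j, r' g i j - algebraMap 𝒪 A' (F.c g i j) ∈ maximalIdeal A') (σ : Gal) :
    (prodMat F hA hA' r r' hl hl' σ).map (fibreProdKFst hA hA') = r σ := by
  ext i j
  rfl

theorem prodMat_map_snd (F : Frame 𝒪 ρbar) (hA : IsArtinianTestAlgebra 𝒪 A)
    (hA' : IsArtinianTestAlgebra 𝒪 A') (r : Gal →* M2 A) (r' : Gal →* M2 A')
    (hl : ∀ g i j, r g i j - algebraMap 𝒪 A (F.c g i j) ∈ maximalIdeal A)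
    (hl' : ∀ g i j, r' g i j - algebraMap 𝒪 A' (F.c g i j) ∈ maximalIdeal A') (σ : Gal) :
    (prodMat F hA hA' r r' hl hl' σ).map (fibreProdKSnd hA hA') = r' σ := by
  ext i j
  rfl

/-- The product representation `(r, r') : Gal →* M₂(A ×_k A')`. -/
def prodRep (F : Frame 𝒪 ρbar) (hA : IsArtinianTestAlgebra 𝒪 A)
    (hA' : IsArtinianTestAlgebra 𝒪 A') (r : Gal →* M2 A) (r' : Gal →* M2 A')
    (hl : ∀ g i j, r g i j - algebraMap 𝒪 A (F.c g i j) ∈ maximalIdeal A)
    (hl' : ∀ g i j, r' g i j - algebraMap 𝒪 A' (F.c g i j) ∈ maximalIdeal A') :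
    Gal →* M2 (fibreProdK hA hA') where
  toFun := prodMat F hA hA' r r' hl hl'
  map_one' := by
    refine fibreProdK_matrix_ext hA hA' ?_ ?_
    · rw [prodMat_map_fst, map_one]
      exact ((fibreProdKFst hA hA' : fibreProdK hA hA' →+* A).mapMatrix.map_one).symm
    · rw [prodMat_map_snd, map_one]
      exact ((fibreProdKSnd hA hA' : fibreProdK hA hA' →+* A').mapMatrix.map_one).symm
  map_mul' σ τ := by
    refine fibreProdK_matrix_ext hA hA' ?_ ?_
    · rw [prodMat_map_fst, map_mul]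
      have := (fibreProdKFst hA hA' : fibreProdK hA hA' →+* A).mapMatrix.map_mul
        (prodMat F hA hA' r r' hl hl' σ) (prodMat F hA hA' r r' hl hl' τ)
      refine Eq.trans ?_ this.symm
      show _ = (prodMat F hA hA' r r' hl hl' σ).map (fibreProdKFst hA hA') *
        (prodMat F hA hA' r r' hl hl' τ).map (fibreProdKFst hA hA')
      rw [prodMat_map_fst, prodMat_map_fst]
    · rw [prodMat_map_snd, map_mul]
      have := (fibreProdKSnd hA hA' : fibreProdK hA hA' →+* A').mapMatrix.map_mul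
        (prodMat F hA hA' r r' hl hl' σ) (prodMat F hA hA' r r' hl hl' τ)
      refine Eq.trans ?_ this.symm
      show _ = (prodMat F hA hA' r r' hl hl' σ).map (fibreProdKSnd hA hA') *
        (prodMat F hA hA' r r' hl hl' τ).map (fibreProdKSnd hA hA')
      rw [prodMat_map_snd, prodMat_map_snd]

theorem mapMat_fst_prodRep (F : Frame 𝒪 ρbar) (hA : IsArtinianTestAlgebra 𝒪 A)
    (hA' : IsArtinianTestAlgebra 𝒪 A') (r : Gal →* M2 A) (r' : Gal →* M2 A')
    (hl : ∀ g i j, r g i j - algebraMap 𝒪 A (F.c g i j) ∈ maximalIdeal A)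
    (hl' : ∀ g i j, r' g i j - algebraMap 𝒪 A' (F.c g i j) ∈ maximalIdeal A') :
    mapMat (fibreProdKFst hA hA' : fibreProdK hA hA' →+* A) (prodRep F hA hA' r r' hl hl') = r := by
  ext σ i j
  rfl

theorem mapMat_snd_prodRep (F : Frame 𝒪 ρbar) (hA : IsArtinianTestAlgebra 𝒪 A)
    (hA' : IsArtinianTestAlgebra 𝒪 A') (r : Gal →* M2 A) (r' : Gal →* M2 A')
    (hl : ∀ g i j, r g i j - algebraMap 𝒪 A (F.c g i j) ∈ maximalIdeal A)
    (hl' : ∀ g i j, r' g i j - algebraMap 𝒪 A' (F.c g i j) ∈ maximalIdeal A') :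
    mapMat (fibreProdKSnd hA hA' : fibreProdK hA hA' →+* A') (prodRep F hA hA' r r' hl hl')
      = r' := by
  ext σ i j
  rfl

omit [IsLocalRing 𝒪] in
/-- Transport of the condition `𝒟` along an equality of matrix representations. -/
theorem type_congr {𝒟 : ∀ ⦃A : Type⦄ [CommRing A] [IsLocalRing A] [Algebra 𝒪 A],
    GaloisRepAdic A → Prop} {r₁ r₂ : Gal →* M2 A} (e : r₁ = r₂) (h₁ : MatCont r₁)
    (h₂ : MatCont r₂) (h : 𝒟 (ofMat r₂ h₂)) : 𝒟 (ofMat r₁ h₁) := by
  subst e
  exact h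

/-- The product of two normalized lifts is a normalized lift over `A ×_k A'`. -/
theorem isNormLift_prodRep (F : Frame 𝒪 ρbar) (hA : IsArtinianTestAlgebra 𝒪 A)
    (hA' : IsArtinianTestAlgebra 𝒪 A') {r : Gal →* M2 A} {r' : Gal →* M2 A'}
    (hr : IsNormLift F r) (hr' : IsNormLift F r') :
    @IsNormLift 𝒪 _ _ ρbar F (fibreProdK hA hA') _ (fibreProdK_isLocalRing hA hA') _
      (prodRep F hA hA' r r' hr.lift hr'.lift) := by
  have hloc := fibreProdK_isLocalRing hA hA'
  have hAart := hA.isArtinian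
  have hA'art := hA'.isArtinian
  have key : ∀ (x : Gal →₀ 𝒪) (i j : Fin 2) (c : 𝒪), linExt x r i j = algebraMap 𝒪 A c →
      linExt x r' i j = algebraMap 𝒪 A' c →
      linExt x (prodRep F hA hA' r r' hr.lift hr'.lift) i j
        = algebraMap 𝒪 (fibreProdK hA hA') c := by
    intro x i j c h1 h2
    refine fibreProdK_ext hA hA' ?_ ?_
    · rw [← linExt_map (fibreProdKFst hA hA') x (prodRep F hA hA' r r' hr.lift hr'.lift) i j,
        AlgHom.commutes, ← h1]
      rfl
    · rw [← linExt_map (fibreProdKSnd hA hA') x (prodRep F hA hA' r r' hr.lift hr'.lift) i j,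
        AlgHom.commutes, ← h2]
      rfl
  refine ⟨?_, ?_, ?_, ?_, ?_⟩
  · obtain ⟨L, hL, h⟩ := factorsThroughFiniteLevel_of_matCont hr.cont
    obtain ⟨L', hL', h'⟩ := factorsThroughFiniteLevel_of_matCont hr'.cont
    refine matCont_of_factorsThroughFiniteLevel ⟨L ⊔ L', inferInstance, fun σ hσ => ?_⟩
    have e1 : r σ = 1 := h σ fun x hx => hσ x ((le_sup_left : L ≤ L ⊔ L') hx)
    have e2 : r' σ = 1 := h' σ fun x hx => hσ x ((le_sup_right : L' ≤ L ⊔ L') hx)
    refine fibreProdK_matrix_ext hA hA' ?_ ?_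
    · refine Eq.trans (prodMat_map_fst F hA hA' r r' hr.lift hr'.lift σ) ?_
      rw [e1]
      exact ((fibreProdKFst hA hA' : fibreProdK hA hA' →+* A).mapMatrix.map_one).symm
    · refine Eq.trans (prodMat_map_snd F hA hA' r r' hr.lift hr'.lift σ) ?_
      rw [e2]
      exact ((fibreProdKSnd hA hA' : fibreProdK hA hA' →+* A').mapMatrix.map_one).symm
  · intro g i j
    rw [fibreProdK_mem_maximalIdeal_iff]
    exact hr.lift g i j
  · have := key F.x 1 0 0 (by rw [hr.x10, map_zero]) (by rw [hr'.x10, map_zero])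
    rw [this, map_zero]
  · have := key F.y 0 0 0 (by rw [hr.y00, map_zero]) (by rw [hr'.y00, map_zero])
    rw [this, map_zero]
  · have := key F.y 1 0 1 (by rw [hr.y10, map_one]) (by rw [hr'.y10, map_one])
    rw [this, map_one]

variable {𝒟 : ∀ ⦃A : Type⦄ [CommRing A] [IsLocalRing A] [Algebra 𝒪 A], GaloisRepAdic A → Prop}

/-- The product of two test lifts is a test lift over `A ×_k A'`. -/
theorem isTestLift_prodRep (h𝒟 : IsDeformationCondition 𝒪 𝒟) (F : Frame 𝒪 ρbar)
    {r : Gal →* M2 A} {r' : Gal →* M2 A'} (hr : IsTestLift 𝒟 F r) (hr' : IsTestLift 𝒟 F r') :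
    @IsTestLift 𝒪 _ _ ρbar 𝒟 F (fibreProdK hr.test hr'.test) _
      (fibreProdK_isLocalRing hr.test hr'.test) _
      (prodRep F hr.test hr'.test r r' hr.norm.lift hr'.norm.lift) := by
  have hloc := fibreProdK_isLocalRing hr.test hr'.test
  have hnorm := isNormLift_prodRep F hr.test hr'.test hr.norm hr'.norm
  refine ⟨fibreProdK_isArtinianTestAlgebra hr.test hr'.test, hnorm, ?_⟩
  have hpA := fibreProdKFst_isLocalHom hr.test hr'.test
  have hpB := fibreProdKSnd_isLocalHom hr.test hr'.test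
  refine of_fibreProdK h𝒟 hr.test hr'.test hloc hpA hpB _ ?_ ?_
  · refine h𝒟.of_isEquiv hr.test (IsEquiv.symm (baseChangeAlong_ofMat _ hpA hnorm.cont)) ?_
    exact type_congr (mapMat_fst_prodRep F hr.test hr'.test r r' hr.norm.lift hr'.norm.lift)
      _ hr.norm.cont hr.type
  · refine h𝒟.of_isEquiv hr'.test (IsEquiv.symm (baseChangeAlong_ofMat _ hpB hnorm.cont)) ?_
    exact type_congr (mapMat_snd_prodRep F hr.test hr'.test r r' hr.norm.lift hr'.norm.lift)
      _ hr'.norm.cont hr'.type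

end PL

open Fermat.Agent.S53.PL

variable {𝒪 : Type} [CommRing 𝒪] [IsLocalRing 𝒪] {ρbar : ResidualGaloisRep (ResidueField 𝒪)}
  {A A' : Type} [CommRing A] [IsLocalRing A] [Algebra 𝒪 A]
  [CommRing A'] [IsLocalRing A'] [Algebra 𝒪 A']
  {𝒟 : ∀ ⦃A : Type⦄ [CommRing A] [IsLocalRing A] [Algebra 𝒪 A], GaloisRepAdic A → Prop}

/-- **K3a.** The product of two test lifts: a test lift over a local `𝒪`-algebra `P` with jointly
injective projections to `A` and `A'` inducing the two given lifts. -/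
theorem exists_testLift_prod (h𝒟 : IsDeformationCondition 𝒪 𝒟) (F : Frame 𝒪 ρbar)
    {r : Gal →* M2 A} {r' : Gal →* M2 A'} (hr : IsTestLift 𝒟 F r) (hr' : IsTestLift 𝒟 F r') :
    ∃ (P : Type) (_ : CommRing P) (_ : IsLocalRing P) (_ : Algebra 𝒪 P) (rP : Gal →* M2 P)
      (p : P →ₐ[𝒪] A) (p' : P →ₐ[𝒪] A'),
      IsTestLift 𝒟 F rP ∧ mapMat (p : P →+* A) rP = r ∧ mapMat (p' : P →+* A') rP = r' ∧
        (∀ x, p x = 0 → p' x = 0 → x = 0) :=
  ⟨fibreProdK hr.test hr'.test, inferInstance, fibreProdK_isLocalRing hr.test hr'.test,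
    inferInstance, prodRep F hr.test hr'.test r r' hr.norm.lift hr'.norm.lift,
    fibreProdKFst hr.test hr'.test, fibreProdKSnd hr.test hr'.test,
    isTestLift_prodRep h𝒟 F hr hr',
    mapMat_fst_prodRep F hr.test hr'.test r r' hr.norm.lift hr'.norm.lift,
    mapMat_snd_prodRep F hr.test hr'.test r r' hr.norm.lift hr'.norm.lift,
    fun x h1 h2 => fibreProdK_ext hr.test hr'.test (by rw [h1, map_zero]) (by rw [h2, map_zero])⟩

/-- A strengthening of `exists_testLift_prod`: the projections are moreover local and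
surjective. -/
theorem exists_testLift_prod' (h𝒟 : IsDeformationCondition 𝒪 𝒟) (F : Frame 𝒪 ρbar)
    {r : Gal →* M2 A} {r' : Gal →* M2 A'} (hr : IsTestLift 𝒟 F r) (hr' : IsTestLift 𝒟 F r') :
    ∃ (P : Type) (_ : CommRing P) (_ : IsLocalRing P) (_ : Algebra 𝒪 P) (rP : Gal →* M2 P)
      (p : P →ₐ[𝒪] A) (p' : P →ₐ[𝒪] A'),
      IsTestLift 𝒟 F rP ∧ mapMat (p : P →+* A) rP = r ∧ mapMat (p' : P →+* A') rP = r' ∧
        (∀ x, p x = 0 → p' x = 0 → x = 0) ∧
        IsLocalHom (p : P →+* A) ∧ IsLocalHom (p' : P →+* A') ∧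
        Function.Surjective p ∧ Function.Surjective p' :=
  ⟨fibreProdK hr.test hr'.test, inferInstance, fibreProdK_isLocalRing hr.test hr'.test,
    inferInstance, prodRep F hr.test hr'.test r r' hr.norm.lift hr'.norm.lift,
    fibreProdKFst hr.test hr'.test, fibreProdKSnd hr.test hr'.test,
    isTestLift_prodRep h𝒟 F hr hr',
    mapMat_fst_prodRep F hr.test hr'.test r r' hr.norm.lift hr'.norm.lift,
    mapMat_snd_prodRep F hr.test hr'.test r r' hr.norm.lift hr'.norm.lift,
    fun x h1 h2 => fibreProdK_ext hr.test hr'.test (by rw [h1, map_zero]) (by rw [h2, map_zero]),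
    fibreProdKFst_isLocalHom hr.test hr'.test, fibreProdKSnd_isLocalHom hr.test hr'.test,
    fibreProdKFst_surjective hr.test hr'.test, fibreProdKSnd_surjective hr.test hr'.test⟩

end Fermat.Agent.S53
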