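import Fermat.Agent.S53.Defs

/-!
# S53: test lifts, coordinates, admissible ideals, the ideal `J` and the ring `R = Λ/J`
-/

set_option autoImplicit false

noncomputable section

namespace Fermat.Agent.S53

open IsLocalRing GaloisRep

variable {𝒪 : Type} [CommRing 𝒪] [IsLocalRing 𝒪] {ρbar : ResidualGaloisRep (ResidueField 𝒪)}

/-- A test lift: a normalized lift of type `𝒟` over an Artinian test algebra. -/
structure IsTestLift
    (𝒟 : ∀ ⦃A : Type⦄ [CommRing A] [IsLocalRing A] [Algebra 𝒪 A], GaloisRepAdic A → Prop)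
    (F : Frame 𝒪 ρbar) {A : Type} [CommRing A] [IsLocalRing A] [Algebra 𝒪 A]
    (r : Gal →* M2 A) : Prop where
  test : IsArtinianTestAlgebra 𝒪 A
  norm : IsNormLift F r
  type : 𝒟 (ofMat r norm.cont)

/-- Coordinates: finitely many matrix positions `(g_l, i_l, j_l)`. -/
structure Coords (N : ℕ) where
  g : Fin N → Gal
  i : Fin N → Fin 2
  j : Fin N → Fin 2

/-- The `l`-th coordinate of a lift `r`: `r(g_l)_{i_l j_l} - c(g_l)_{i_l j_l}`, an element of the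
maximal ideal. -/
def coord (F : Frame 𝒪 ρbar) {N : ℕ} (κ : Coords N) {A : Type} [CommRing A] [Algebra 𝒪 A]
    (r : Gal → M2 A) (l : Fin N) : A :=
  r (κ.g l) (κ.i l) (κ.j l) - algebraMap 𝒪 A (F.c (κ.g l) (κ.i l) (κ.j l))

theorem coord_map (F : Frame 𝒪 ρbar) {N : ℕ} (κ : Coords N) {A B : Type} [CommRing A]
    [Algebra 𝒪 A] [CommRing B] [Algebra 𝒪 B] (φ : A →ₐ[𝒪] B) (r : Gal →* M2 A) (l : Fin N) :
    coord F κ (mapMat (φ : A →+* B) r) l = φ (coord F κ r l) := by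
  simp [coord]

/-- The `𝒪`-algebra structure on `k[ε]` used by `GaloisRep.TangentFinite`. -/
@[reducible] def dualNumberAlgebra (𝒪 : Type) [CommRing 𝒪] [IsLocalRing 𝒪] :
    Algebra 𝒪 (DualNumber (ResidueField 𝒪)) :=
  ((algebraMap (ResidueField 𝒪) (DualNumber (ResidueField 𝒪))).comp
    (algebraMap 𝒪 (ResidueField 𝒪))).toAlgebra

/-- The coordinates `κ` separate tangent vectors: a test lift to `k[ε]` all of whose coordinates
vanish has all its entries in `k`. -/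
def Coords.Separating
    (𝒟 : ∀ ⦃A : Type⦄ [CommRing A] [IsLocalRing A] [Algebra 𝒪 A], GaloisRepAdic A → Prop)
    (F : Frame 𝒪 ρbar) {N : ℕ} (κ : Coords N) : Prop :=
  letI := dualNumberAlgebra 𝒪
  ∀ r : Gal →* M2 (DualNumber (ResidueField 𝒪)), IsTestLift 𝒟 F r →
    (∀ l, coord F κ r l = 0) → ∀ g i j, TrivSqZeroExt.snd (r g i j) = 0

/-- The power series ring `Λ = 𝒪⟦X_0, …, X_{N-1}⟧`. -/
abbrev Lam (𝒪 : Type) [CommRing 𝒪] (N : ℕ) : Type := MvPowerSeries (Fin N) 𝒪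

/-- `𝔞` is admissible if it is the kernel of the coordinate map of some test lift. -/
def Adm (𝒟 : ∀ ⦃A : Type⦄ [CommRing A] [IsLocalRing A] [Algebra 𝒪 A], GaloisRepAdic A → Prop)
    (F : Frame 𝒪 ρbar) {N : ℕ} (κ : Coords N) (𝔞 : Ideal (Lam 𝒪 N)) : Prop :=
  ∃ (A : Type) (_ : CommRing A) (_ : IsLocalRing A) (_ : Algebra 𝒪 A) (r : Gal →* M2 A)
    (φ : Lam 𝒪 N →ₐ[𝒪] A),
    IsTestLift 𝒟 F r ∧ (∀ l, φ (MvPowerSeries.X l) = coord F κ r l) ∧
      RingHom.ker (φ : Lam 𝒪 N →+* A) = 𝔞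

/-- The ideal `J`: the intersection of all admissible ideals. -/
def Jideal (𝒟 : ∀ ⦃A : Type⦄ [CommRing A] [IsLocalRing A] [Algebra 𝒪 A], GaloisRepAdic A → Prop)
    (F : Frame 𝒪 ρbar) {N : ℕ} (κ : Coords N) : Ideal (Lam 𝒪 N) :=
  sInf {𝔞 | Adm 𝒟 F κ 𝔞}

/-- Universal entries: a family of power series mapping to the matrix entries of every test
lift under its coordinate map. -/
def IsUnivEntries
    (𝒟 : ∀ ⦃A : Type⦄ [CommRing A] [IsLocalRing A] [Algebra 𝒪 A], GaloisRepAdic A → Prop)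
    (F : Frame 𝒪 ρbar) {N : ℕ} (κ : Coords N) (G : Gal → M2 (Lam 𝒪 N)) : Prop :=
  ∀ (A : Type) [CommRing A] [IsLocalRing A] [Algebra 𝒪 A] (r : Gal →* M2 A)
    (φ : Lam 𝒪 N →ₐ[𝒪] A), IsTestLift 𝒟 F r → (∀ l, φ (MvPowerSeries.X l) = coord F κ r l) →
    ∀ g i j, φ (G g i j) = r g i j

end Fermat.Agent.S53
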