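import Mathlib
import Fermat.Agent.S53.TestDefs
import Fermat.Agent.S53.MatGlue

/-!
# S53, K3d: the trivial test lift over the residue field

The residue field `k = ResidueField 𝒪` is an Artinian test algebra, and the matrix form of
`ρbar` in the basis of a frame is a test lift over `k`.
-/

set_option autoImplicit false

namespace Fermat.Agent.S53

open IsLocalRing GaloisRep

variable {𝒪 : Type} [CommRing 𝒪] [IsLocalRing 𝒪] {ρbar : ResidualGaloisRep (ResidueField 𝒪)}

/-- The residue field of `𝒪` is an Artinian test algebra. -/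
theorem trivLift_isArtinianTestAlgebra (𝒪 : Type) [CommRing 𝒪] [IsLocalRing 𝒪] :
    IsArtinianTestAlgebra 𝒪 (ResidueField 𝒪) where
  isLocalHom := by
    rw [IsLocalRing.ResidueField.algebraMap_eq]
    infer_instance
  residue_surjective := by
    intro x
    obtain ⟨y, rfl⟩ := IsLocalRing.residue_surjective x
    obtain ⟨z, rfl⟩ := IsLocalRing.residue_surjective y
    exact ⟨z, rfl⟩
  isArtinian := inferInstance

/-- The matrix entries of `ρbar` in the frame basis are the residues of the frame matrices. -/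
theorem trivLift_apply (F : Frame 𝒪 ρbar) (g : Gal) (i j : Fin 2) :
    toMatRes ρbar F.b g i j = algebraMap 𝒪 (ResidueField 𝒪) (F.c g i j) := by
  rw [toMatRes_apply, ← F.hc g i j, IsLocalRing.ResidueField.algebraMap_eq]

/-- `linExt` of the trivial lift is the residue of `linExt` of the frame matrices. -/
theorem trivLift_linExt (F : Frame 𝒪 ρbar) (x : Gal →₀ 𝒪) (i j : Fin 2) :
    linExt x (fun g => toMatRes ρbar F.b g) i j = residue 𝒪 (linExt x F.c i j) := by
  have h := linExt_map (Algebra.ofId 𝒪 (ResidueField 𝒪)) x F.c i j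
  have h2 : (fun g => (F.c g).map (Algebra.ofId 𝒪 (ResidueField 𝒪))) =
      fun g => toMatRes ρbar F.b g := by
    funext g
    ext i j
    rw [Matrix.map_apply, trivLift_apply]
    rfl
  rw [h2] at h
  rw [h]
  rfl

/-- The matrix form of `ρbar` in the frame basis is a normalized lift over `k`. -/
theorem trivLift_isNormLift (F : Frame 𝒪 ρbar) : IsNormLift F (toMatRes ρbar F.b) where
  cont := matCont_of_factorsThroughFiniteLevel (toMatRes_factorsThroughFiniteLevel ρbar F.b)
  lift := fun g i j => by
    rw [trivLift_apply, sub_self]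
    exact Ideal.zero_mem _
  x10 := by
    have h := trivLift_linExt F F.x 1 0
    rw [(IsLocalRing.residue_eq_zero_iff _).mpr F.hx10] at h
    exact h
  y00 := by
    have h := trivLift_linExt F F.y 0 0
    rw [(IsLocalRing.residue_eq_zero_iff _).mpr F.hy00] at h
    exact h
  y10 := by
    have h := trivLift_linExt F F.y 1 0
    have h1 : residue 𝒪 (linExt F.y F.c 1 0) = 1 := by
      have := (IsLocalRing.residue_eq_zero_iff _).mpr F.hy10
      rwa [map_sub, map_one, sub_eq_zero] at this
    rw [h1] at h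
    exact h

/-- **K3d.** The trivial lift over the residue field is a test lift. -/
theorem exists_testLift_residue
    {𝒟 : ∀ ⦃A : Type⦄ [CommRing A] [IsLocalRing A] [Algebra 𝒪 A], GaloisRepAdic A → Prop}
    (h𝒟 : IsDeformationCondition 𝒪 𝒟) (F : Frame 𝒪 ρbar)
    (hbar : 𝒟 (GaloisRepAdic.ofResidualGaloisRep ρbar)) :
    ∃ r : Gal →* M2 (ResidueField 𝒪), IsTestLift 𝒟 F r :=
  ⟨toMatRes ρbar F.b,
    { test := trivLift_isArtinianTestAlgebra 𝒪
      norm := trivLift_isNormLift F
      type := h𝒟.of_isEquiv (trivLift_isArtinianTestAlgebra 𝒪)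
        (isEquiv_ofResidualGaloisRep ρbar F.b) hbar }⟩

/-- The trivial test lift, by name (useful for `adm_maximalIdeal`). -/
theorem isTestLift_toMatRes
    {𝒟 : ∀ ⦃A : Type⦄ [CommRing A] [IsLocalRing A] [Algebra 𝒪 A], GaloisRepAdic A → Prop}
    (h𝒟 : IsDeformationCondition 𝒪 𝒟) (F : Frame 𝒪 ρbar)
    (hbar : 𝒟 (GaloisRepAdic.ofResidualGaloisRep ρbar)) :
    IsTestLift 𝒟 F (toMatRes ρbar F.b) :=
  { test := trivLift_isArtinianTestAlgebra 𝒪
    norm := trivLift_isNormLift F
    type := h𝒟.of_isEquiv (trivLift_isArtinianTestAlgebra 𝒪)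
      (isEquiv_ofResidualGaloisRep ρbar F.b) hbar }

/-- All coordinates of the trivial lift vanish. -/
theorem coord_toMatRes (F : Frame 𝒪 ρbar) {N : ℕ} (κ : Coords N) (l : Fin N) :
    coord F κ (toMatRes ρbar F.b) l = 0 := by
  unfold coord
  rw [trivLift_apply, sub_self]

end Fermat.Agent.S53
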