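import Fermat.Agent.S53.AdmSup
import Fermat.Agent.S53.ProdLift
import Fermat.Agent.S53.TrivLift
import Fermat.Agent.S53.EntriesRangeFinal

/-!
# S53, package K4 (first half, backup version): `𝔪` is admissible, admissible ideals are closed
under intersection, compatibility of entries, and the hypothesis-free lattice axioms

* `adm_maximalIdeal_of_trivLift`: the maximal ideal of `Λ` is admissible (trivial lift over `k`);
* `Adm.inf_of_prod`: admissible ideals are closed under `⊓` (product of test lifts, K3a);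
* `entriesCompat_of_range`: K4 `EntriesCompat` from K2 `EntriesRange` and K3a;
* `admAxioms_of_separating`: `Core.AdmAxioms 𝔪 (Adm 𝒟 F κ)` for separating coordinates;
* `exists_univEntries_of_separating`: universal entries exist (K5 without hypotheses).
-/

set_option autoImplicit false
set_option linter.unusedSectionVars false
set_option linter.style.haveILetI false

noncomputable section

namespace Fermat.Agent.S53

open IsLocalRing GaloisRep

variable {𝒪 : Type} [CommRing 𝒪] [IsLocalRing 𝒪] {ρbar : ResidualGaloisRep (ResidueField 𝒪)}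
  {𝒟 : ∀ ⦃A : Type⦄ [CommRing A] [IsLocalRing A] [Algebra 𝒪 A], GaloisRepAdic A → Prop}
  {F : Frame 𝒪 ρbar} {N : ℕ} {κ : Coords N}

/-- The `𝒪`-algebra homomorphism `Λ → k`, `f ↦ f(0) mod 𝔪_𝒪`. -/
def constResidue (𝒪 : Type) [CommRing 𝒪] [IsLocalRing 𝒪] (N : ℕ) :
    Lam 𝒪 N →ₐ[𝒪] ResidueField 𝒪 :=
  { (residue 𝒪).comp (MvPowerSeries.constantCoeff (σ := Fin N) (R := 𝒪)) with
    commutes' := fun c => by
      show residue 𝒪 (MvPowerSeries.constantCoeff (algebraMap 𝒪 (Lam 𝒪 N) c)) = _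
      rw [← MvPowerSeries.c_eq_algebraMap, MvPowerSeries.constantCoeff_C,
        IsLocalRing.ResidueField.algebraMap_eq] }

theorem constResidue_apply (f : Lam 𝒪 N) :
    constResidue 𝒪 N f = residue 𝒪 (MvPowerSeries.constantCoeff f) := rfl

theorem ker_constResidue :
    RingHom.ker (constResidue 𝒪 N : Lam 𝒪 N →+* ResidueField 𝒪) = maximalIdeal (Lam 𝒪 N) := by
  ext f
  rw [RingHom.mem_ker, mem_maximalIdeal_mvPowerSeries_iff]
  show residue 𝒪 (MvPowerSeries.constantCoeff f) = 0 ↔ _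
  rw [IsLocalRing.residue_eq_zero_iff]

/-- The maximal ideal of `Λ` is admissible: it is the kernel of the coordinate map of the
trivial lift over the residue field. -/
theorem adm_maximalIdeal_of_trivLift (h𝒟 : IsDeformationCondition 𝒪 𝒟)
    (hbar : 𝒟 (GaloisRepAdic.ofResidualGaloisRep ρbar)) :
    Adm 𝒟 F κ (maximalIdeal (Lam 𝒪 N)) := by
  refine ⟨ResidueField 𝒪, inferInstance, inferInstance, inferInstance, toMatRes ρbar F.b,
    constResidue 𝒪 N, isTestLift_toMatRes h𝒟 F hbar, fun l => ?_, ker_constResidue⟩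
  rw [coord_toMatRes, constResidue_apply, MvPowerSeries.constantCoeff_X, map_zero]

section Prod

variable {A A' : Type} [CommRing A] [IsLocalRing A] [Algebra 𝒪 A]
  [CommRing A'] [IsLocalRing A'] [Algebra 𝒪 A']

/-- Two coordinate maps are the two projections of the coordinate map of the product lift. -/
theorem exists_prod_coordMap (h𝒟 : IsDeformationCondition 𝒪 𝒟)
    {r : Gal →* M2 A} {r' : Gal →* M2 A'} (hr : IsTestLift 𝒟 F r) (hr' : IsTestLift 𝒟 F r')
    (φ : Lam 𝒪 N →ₐ[𝒪] A) (hφ : ∀ l, φ (MvPowerSeries.X l) = coord F κ r l)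
    (φ' : Lam 𝒪 N →ₐ[𝒪] A') (hφ' : ∀ l, φ' (MvPowerSeries.X l) = coord F κ r' l) :
    ∃ (P : Type) (_ : CommRing P) (_ : IsLocalRing P) (_ : Algebra 𝒪 P) (rP : Gal →* M2 P)
      (p : P →ₐ[𝒪] A) (p' : P →ₐ[𝒪] A') (φP : Lam 𝒪 N →ₐ[𝒪] P),
      IsTestLift 𝒟 F rP ∧ mapMat (p : P →+* A) rP = r ∧ mapMat (p' : P →+* A') rP = r' ∧
        (∀ x, p x = 0 → p' x = 0 → x = 0) ∧
        (∀ l, φP (MvPowerSeries.X l) = coord F κ rP l) ∧
        p.comp φP = φ ∧ p'.comp φP = φ' := by
  obtain ⟨P, _, _, _, rP, p, p', hrP, hp, hp', hinj⟩ := exists_testLift_prod h𝒟 F hr hr'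
  haveI := hrP.test.isArtinian
  haveI := hr.test.isArtinian
  haveI := hr'.test.isArtinian
  have hc : ∀ l, coord F κ rP l ∈ maximalIdeal P := fun l => coord_mem_maximalIdeal hrP.norm l
  refine ⟨P, inferInstance, inferInstance, inferInstance, rP, p, p',
    evalHom (maximalIdeal P) (coord F κ rP) hc, hrP, hp, hp', hinj,
    fun l => evalHom_X _ _ hc l, ?_, ?_⟩
  · refine algHom_ext_of_X (maximalIdeal A) _ _ (fun l => ?_) (fun l => ?_)
    · rw [AlgHom.comp_apply, evalHom_X, ← coord_map, hp]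
      exact coord_mem_maximalIdeal hr.norm l
    · rw [AlgHom.comp_apply, evalHom_X, ← coord_map, hp, hφ l]
  · refine algHom_ext_of_X (maximalIdeal A') _ _ (fun l => ?_) (fun l => ?_)
    · rw [AlgHom.comp_apply, evalHom_X, ← coord_map, hp']
      exact coord_mem_maximalIdeal hr'.norm l
    · rw [AlgHom.comp_apply, evalHom_X, ← coord_map, hp', hφ' l]

end Prod

/-- Admissible ideals are closed under intersection. -/
theorem Adm.inf_of_prod (h𝒟 : IsDeformationCondition 𝒪 𝒟) {𝔞 𝔟 : Ideal (Lam 𝒪 N)}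
    (h𝔞 : Adm 𝒟 F κ 𝔞) (h𝔟 : Adm 𝒟 F κ 𝔟) : Adm 𝒟 F κ (𝔞 ⊓ 𝔟) := by
  obtain ⟨A, _, _, _, r, φ, hr, hφ, rfl⟩ := h𝔞
  obtain ⟨A', _, _, _, r', φ', hr', hφ', rfl⟩ := h𝔟
  obtain ⟨P, _, _, _, rP, p, p', φP, hrP, hp, hp', hinj, hφP, hpφ, hpφ'⟩ :=
    exists_prod_coordMap h𝒟 hr hr' φ hφ φ' hφ'
  refine ⟨P, inferInstance, inferInstance, inferInstance, rP, φP, hrP, hφP, ?_⟩
  ext x
  rw [Ideal.mem_inf, RingHom.mem_ker, RingHom.mem_ker, RingHom.mem_ker]
  have h1 : φ x = p (φP x) := by rw [← hpφ]; rfl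
  have h2 : φ' x = p' (φP x) := by rw [← hpφ']; rfl
  constructor
  · intro hx
    have hx' : φP x = 0 := hx
    exact ⟨by show φ x = 0; rw [h1, hx', map_zero], by show φ' x = 0; rw [h2, hx', map_zero]⟩
  · rintro ⟨hx1, hx2⟩
    have hx1' : φ x = 0 := hx1
    have hx2' : φ' x = 0 := hx2
    exact hinj _ (h1 ▸ hx1') (h2 ▸ hx2')

/-- K4 `entries_compat`: power series computing the entries of a test lift also compute the
entries of every test lift whose coordinate map has a bigger kernel. -/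
theorem entriesCompat_of_range (h𝒟 : IsDeformationCondition 𝒪 𝒟)
    (hrange : EntriesRange 𝒟 F κ) : EntriesCompat 𝒟 F κ := by
  intro A _ _ _ r φ A' _ _ _ r' φ' hr hφ hr' hφ' hker f hf g i j
  obtain ⟨P, _, _, _, rP, p, p', φP, hrP, hp, hp', hinj, hφP, hpφ, hpφ'⟩ :=
    exists_prod_coordMap h𝒟 hr hr' φ hφ φ' hφ'
  obtain ⟨x, hx⟩ := hrange P rP φP hrP hφP g i j
  have hx' : φP x = rP g i j := hx
  have h1 : φ x = r g i j := by
    rw [← hpφ, AlgHom.comp_apply, hx', ← hp]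
    rfl
  have h2 : φ' x = r' g i j := by
    rw [← hpφ', AlgHom.comp_apply, hx', ← hp']
    rfl
  have h3 : x - f g i j ∈ RingHom.ker (φ : Lam 𝒪 N →+* A) := by
    rw [RingHom.mem_ker]
    show φ (x - f g i j) = 0
    rw [map_sub, h1, hf, sub_self]
  have h4 := hker h3
  rw [RingHom.mem_ker] at h4
  have h5 : φ' (x - f g i j) = 0 := h4
  rw [map_sub, sub_eq_zero] at h5
  rw [← h5, h2]

section Final

variable [IsNoetherianRing 𝒪] [Finite (ResidueField 𝒪)]

/-- K2 in the packaged form `EntriesRange`. -/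
theorem entriesRange_of_separating (h𝒟 : IsDeformationCondition 𝒪 𝒟) (hκ : κ.Separating 𝒟 F) :
    EntriesRange 𝒟 F κ :=
  fun _ _ _ _ _ φ hr hφ => entries_mem_range h𝒟 F κ hκ hr φ hφ

/-- The lattice axioms for admissible ideals hold for separating coordinates. -/
theorem admAxioms_of_separating (h𝒟 : IsDeformationCondition 𝒪 𝒟)
    (hbar : 𝒟 (GaloisRepAdic.ofResidualGaloisRep ρbar)) (hκ : κ.Separating 𝒟 F) :
    Core.AdmAxioms (maximalIdeal (Lam 𝒪 N)) (Adm 𝒟 F κ) :=
  admAxioms h𝒟 (entriesRange_of_separating h𝒟 hκ) (adm_maximalIdeal_of_trivLift h𝒟 hbar)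
    (fun _ _ h𝔞 h𝔟 => h𝔞.inf_of_prod h𝒟 h𝔟)

/-- **K5 without hypotheses**: universal entries exist for separating coordinates. -/
theorem exists_univEntries_of_separating [IsAdicComplete (maximalIdeal 𝒪) 𝒪]
    (h𝒟 : IsDeformationCondition 𝒪 𝒟)
    (hbar : 𝒟 (GaloisRepAdic.ofResidualGaloisRep ρbar)) (hκ : κ.Separating 𝒟 F) :
    ∃ G : Gal → M2 (Lam 𝒪 N), IsUnivEntries 𝒟 F κ G :=
  exists_univEntries_of (admAxioms_of_separating h𝒟 hbar hκ)
    (entriesRange_of_separating h𝒟 hκ)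
    (entriesCompat_of_range h𝒟 (entriesRange_of_separating h𝒟 hκ))

end Final

end Fermat.Agent.S53
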