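import Mathlib
import Fermat.Prelude.Def_GaloisRep_DeformationRingData
import Fermat.Prelude.Def_GaloisRep_DeformationCondition

/-!
# S53: shared definitions (matrix form of Galois representations, frames, normalized lifts)
-/

set_option autoImplicit false

namespace Fermat.Agent.S53

open IsLocalRing

/-- The absolute Galois group of `ℚ`. -/
abbrev Gal : Type := AlgebraicClosure ℚ ≃ₐ[ℚ] AlgebraicClosure ℚ

/-- `2 × 2` matrices. -/
abbrev M2 (A : Type) : Type := Matrix (Fin 2) (Fin 2) A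

/-- Adic continuity of a matrix representation, entrywise. -/
def MatCont {A : Type} [CommRing A] [IsLocalRing A] (r : Gal →* M2 A) : Prop :=
  ∀ n : ℕ, ∃ L : IntermediateField ℚ (AlgebraicClosure ℚ), FiniteDimensional ℚ L ∧
    ∀ σ : Gal, (∀ x ∈ L, σ x = x) → ∀ i j, (r σ - 1) i j ∈ maximalIdeal A ^ n

/-- A vector all of whose coordinates lie in an ideal `I` lies in `I • ⊤`. -/
theorem mem_smul_top_of_forall_mem {A : Type} [CommRing A] (I : Ideal A) (v : Fin 2 → A)
    (hv : ∀ i, v i ∈ I) : v ∈ I • (⊤ : Submodule A (Fin 2 → A)) := by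
  have : v = ∑ i, v i • (Pi.single i (1 : A) : Fin 2 → A) := by
    ext j
    simp [Finset.sum_apply, Pi.single_apply]
  rw [this]
  exact Submodule.sum_mem _ fun i _ => Submodule.smul_mem_smul (hv i) Submodule.mem_top

/-- The `GaloisRepAdic` attached to a continuous matrix representation. -/
noncomputable def ofMat {A : Type} [CommRing A] [IsLocalRing A] (r : Gal →* M2 A)
    (hr : MatCont r) : GaloisRepAdic A where
  V := Fin 2 → A
  finrank_eq := by simp
  ρ := (Matrix.toLinAlgEquiv' : M2 A ≃ₐ[A] _).toAlgHom.toRingHom.toMonoidHom.comp r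
  isAdicContinuous := by
    intro n
    obtain ⟨L, hL, h⟩ := hr n
    refine ⟨L, hL, fun σ hσ v => ?_⟩
    apply mem_smul_top_of_forall_mem
    intro i
    have hv : ((Matrix.toLinAlgEquiv' : M2 A ≃ₐ[A] _).toAlgHom.toRingHom.toMonoidHom.comp r) σ v - v
        = (r σ - 1).mulVec v := by
      simp [Matrix.sub_mulVec, Matrix.toLinAlgEquiv'_apply]
    rw [hv]
    simp only [Matrix.mulVec, dotProduct]
    exact Ideal.sum_mem _ fun j _ => Ideal.mul_mem_right _ _ (h σ hσ i j)

@[simp] theorem ofMat_V {A : Type} [CommRing A] [IsLocalRing A] (r : Gal →* M2 A)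
    (hr : MatCont r) : (ofMat r hr).V = (Fin 2 → A) := rfl

theorem ofMat_ρ_apply {A : Type} [CommRing A] [IsLocalRing A] (r : Gal →* M2 A)
    (hr : MatCont r) (σ : Gal) (v : Fin 2 → A) :
    (ofMat r hr).ρ σ v = (r σ).mulVec v := rfl

/-- Push a matrix representation forward along a ring homomorphism. -/
noncomputable def mapMat {A B : Type} [CommRing A] [CommRing B] (φ : A →+* B) (r : Gal →* M2 A) :
    Gal →* M2 B :=
  (φ.mapMatrix : M2 A →+* M2 B).toMonoidHom.comp r

@[simp] theorem mapMat_apply {A B : Type} [CommRing A] [CommRing B] (φ : A →+* B)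
    (r : Gal →* M2 A) (σ : Gal) (i j : Fin 2) : mapMat φ r σ i j = φ (r σ i j) := rfl

theorem matCont_mapMat {A B : Type} [CommRing A] [IsLocalRing A] [CommRing B] [IsLocalRing B]
    (φ : A →+* B) (hφ : IsLocalHom φ) {r : Gal →* M2 A} (hr : MatCont r) :
    MatCont (mapMat φ r) := by
  intro n
  obtain ⟨L, hL, h⟩ := hr n
  refine ⟨L, hL, fun σ hσ i j => ?_⟩
  have hmap : (maximalIdeal A ^ n).map φ ≤ maximalIdeal B ^ n := by
    rw [Ideal.map_pow]
    exact Ideal.pow_right_mono (Ideal.map_le_iff_le_comap.mpr fun a ha =>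
      Ideal.mem_comap.mpr (haveI := hφ; map_nonunit φ a ha)) n
  have : (mapMat φ r σ - 1) i j = φ ((r σ - 1) i j) := by
    by_cases hij : i = j
    · subst hij; simp [Matrix.sub_apply]
    · simp [Matrix.sub_apply, Matrix.one_apply_ne hij]
  rw [this]
  exact hmap (Ideal.mem_map_of_mem φ (h σ hσ i j))

section Frame

variable (𝒪 : Type) [CommRing 𝒪] [IsLocalRing 𝒪]

/-- The `𝒪`-linear extension of a family of matrices to formal `𝒪`-combinations of group
elements. Only linearity is ever used. -/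
noncomputable def linExt {𝒪 : Type} [CommRing 𝒪] {A : Type} [CommRing A] [Algebra 𝒪 A]
    (x : Gal →₀ 𝒪) (r : Gal → M2 A) : M2 A :=
  x.sum fun g a => a • r g

theorem linExt_apply {𝒪 : Type} [CommRing 𝒪] {A : Type} [CommRing A] [Algebra 𝒪 A]
    (x : Gal →₀ 𝒪) (r : Gal → M2 A) (i j : Fin 2) :
    linExt x r i j = x.sum fun g a => a • r g i j := by
  unfold linExt
  rw [Finsupp.sum, Finsupp.sum, Matrix.sum_apply]
  rfl

theorem linExt_map {𝒪 : Type} [CommRing 𝒪] {A B : Type} [CommRing A] [Algebra 𝒪 A]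
    [CommRing B] [Algebra 𝒪 B] (φ : A →ₐ[𝒪] B) (x : Gal →₀ 𝒪) (r : Gal → M2 A) (i j : Fin 2) :
    linExt x (fun g => (r g).map φ) i j = φ (linExt x r i j) := by
  rw [linExt_apply, linExt_apply, Finsupp.sum, Finsupp.sum, map_sum]
  refine Finset.sum_congr rfl fun g _ => ?_
  simp [Algebra.smul_def]

/-- A frame for `ρbar`: a basis of `ρbar.V`, a set-theoretic lift `c` to `𝒪` of the matrix of
`ρbar` in that basis, and two formal combinations `x`, `y` of group elements with coefficients in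
`𝒪` such that `ρbar(x) = E₁₁` and `ρbar(y) = E₂₁`. -/
structure Frame (ρbar : ResidualGaloisRep (ResidueField 𝒪)) where
  b : Module.Basis (Fin 2) (ResidueField 𝒪) ρbar.V
  c : Gal → M2 𝒪
  hc : ∀ g i j, residue 𝒪 (c g i j) = LinearMap.toMatrix b b (ρbar.ρ g) i j
  x : Gal →₀ 𝒪
  y : Gal →₀ 𝒪
  hx00 : linExt x c 0 0 - 1 ∈ maximalIdeal 𝒪
  hx01 : linExt x c 0 1 ∈ maximalIdeal 𝒪
  hx10 : linExt x c 1 0 ∈ maximalIdeal 𝒪
  hx11 : linExt x c 1 1 ∈ maximalIdeal 𝒪
  hy00 : linExt y c 0 0 ∈ maximalIdeal 𝒪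
  hy01 : linExt y c 0 1 ∈ maximalIdeal 𝒪
  hy10 : linExt y c 1 0 - 1 ∈ maximalIdeal 𝒪
  hy11 : linExt y c 1 1 ∈ maximalIdeal 𝒪

variable {𝒪} {ρbar : ResidualGaloisRep (ResidueField 𝒪)}

/-- `r` is a normalized lift (w.r.t. the frame `F`) over the local `𝒪`-algebra `A`:
continuous, reducing entrywise to `ρbar`, with `r(x) e₁ ∈ A e₁` and `r(y) e₁ = e₂`. -/
structure IsNormLift (F : Frame 𝒪 ρbar) {A : Type} [CommRing A] [IsLocalRing A] [Algebra 𝒪 A]
    (r : Gal →* M2 A) : Prop where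
  cont : MatCont r
  lift : ∀ g i j, r g i j - algebraMap 𝒪 A (F.c g i j) ∈ maximalIdeal A
  x10 : linExt F.x r 1 0 = 0
  y00 : linExt F.y r 0 0 = 0
  y10 : linExt F.y r 1 0 = 1

end Frame

end Fermat.Agent.S53
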