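import Mathlib
import Fermat.Agent.S53.Defs

/-!
# S53, work package B: normalization of matrix lifts (pure `2 × 2` matrix algebra)
-/

set_option autoImplicit false

namespace Fermat.Agent.S53

open IsLocalRing

section LinExt

variable {𝒪 : Type} [CommRing 𝒪] {A : Type} [CommRing A] [Algebra 𝒪 A]

theorem linExt_conj (x : Gal →₀ 𝒪) (r : Gal → M2 A) (M N : M2 A) :
    linExt x (fun g => M * r g * N) = M * linExt x r * N := by
  unfold linExt
  rw [Finsupp.sum, Finsupp.sum, Finset.mul_sum, Finset.sum_mul]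
  refine Finset.sum_congr rfl fun g _ => ?_
  rw [Matrix.mul_smul, Matrix.smul_mul]

theorem linExt_intertwine (x : Gal →₀ 𝒪) (r r' : Gal → M2 A) (Q : M2 A)
    (h : ∀ σ, Q * r σ = r' σ * Q) : Q * linExt x r = linExt x r' * Q := by
  unfold linExt
  rw [Finsupp.sum, Finsupp.sum, Finset.mul_sum, Finset.sum_mul]
  refine Finset.sum_congr rfl fun g _ => ?_
  rw [Matrix.mul_smul, Matrix.smul_mul, h]

theorem linExt_sub_algebraMap_mem (I : Ideal A) (x : Gal →₀ 𝒪) (r : Gal → M2 A) (c : Gal → M2 𝒪)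
    (hl : ∀ g i j, r g i j - algebraMap 𝒪 A (c g i j) ∈ I) (i j : Fin 2) :
    linExt x r i j - algebraMap 𝒪 A (linExt x c i j) ∈ I := by
  rw [linExt_apply, linExt_apply, Finsupp.sum, Finsupp.sum, map_sum, ← Finset.sum_sub_distrib]
  refine Ideal.sum_mem _ fun g _ => ?_
  have : x g • r g i j - algebraMap 𝒪 A (x g • c g i j) =
      algebraMap 𝒪 A (x g) * (r g i j - algebraMap 𝒪 A (c g i j)) := by
    rw [Algebra.smul_def, smul_eq_mul, map_mul]
    ring
  rw [this]
  exact Ideal.mul_mem_left _ _ (hl g i j)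

end LinExt

section Frame

variable {𝒪 : Type} [CommRing 𝒪] [IsLocalRing 𝒪] {ρbar : ResidualGaloisRep (ResidueField 𝒪)}
variable {A : Type} [CommRing A] [IsLocalRing A] [Algebra 𝒪 A]

theorem algebraMap_mem_maximalIdeal (hloc : IsLocalHom (algebraMap 𝒪 A)) {a : 𝒪}
    (ha : a ∈ maximalIdeal 𝒪) : algebraMap 𝒪 A a ∈ maximalIdeal A := by
  rw [mem_maximalIdeal, mem_nonunits_iff] at ha ⊢
  exact fun h => ha (hloc.map_nonunit a h)

/-- Entrywise congruences of `linExt F.x r` and `linExt F.y r` for a lift `r` of `ρbar`. -/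
theorem Frame.linExt_x_mem (F : Frame 𝒪 ρbar) (hloc : IsLocalHom (algebraMap 𝒪 A))
    {r : Gal → M2 A} (hl : ∀ g i j, r g i j - algebraMap 𝒪 A (F.c g i j) ∈ maximalIdeal A) :
    linExt F.x r 0 0 - 1 ∈ maximalIdeal A ∧ linExt F.x r 0 1 ∈ maximalIdeal A ∧
      linExt F.x r 1 0 ∈ maximalIdeal A ∧ linExt F.x r 1 1 ∈ maximalIdeal A := by
  have h := linExt_sub_algebraMap_mem (maximalIdeal A) F.x r F.c hl
  have e00 := algebraMap_mem_maximalIdeal hloc F.hx00
  have e01 := algebraMap_mem_maximalIdeal hloc F.hx01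
  have e10 := algebraMap_mem_maximalIdeal hloc F.hx10
  have e11 := algebraMap_mem_maximalIdeal hloc F.hx11
  rw [map_sub, map_one] at e00
  refine ⟨?_, ?_, ?_, ?_⟩
  · simpa using Ideal.add_mem _ (h 0 0) e00
  · simpa using Ideal.add_mem _ (h 0 1) e01
  · simpa using Ideal.add_mem _ (h 1 0) e10
  · simpa using Ideal.add_mem _ (h 1 1) e11

theorem Frame.linExt_y_mem (F : Frame 𝒪 ρbar) (hloc : IsLocalHom (algebraMap 𝒪 A))
    {r : Gal → M2 A} (hl : ∀ g i j, r g i j - algebraMap 𝒪 A (F.c g i j) ∈ maximalIdeal A) :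
    linExt F.y r 0 0 ∈ maximalIdeal A ∧ linExt F.y r 0 1 ∈ maximalIdeal A ∧
      linExt F.y r 1 0 - 1 ∈ maximalIdeal A ∧ linExt F.y r 1 1 ∈ maximalIdeal A := by
  have h := linExt_sub_algebraMap_mem (maximalIdeal A) F.y r F.c hl
  have e00 := algebraMap_mem_maximalIdeal hloc F.hy00
  have e01 := algebraMap_mem_maximalIdeal hloc F.hy01
  have e10 := algebraMap_mem_maximalIdeal hloc F.hy10
  have e11 := algebraMap_mem_maximalIdeal hloc F.hy11
  rw [map_sub, map_one] at e10
  refine ⟨?_, ?_, ?_, ?_⟩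
  · simpa using Ideal.add_mem _ (h 0 0) e00
  · simpa using Ideal.add_mem _ (h 0 1) e01
  · simpa using Ideal.add_mem _ (h 1 0) e10
  · simpa using Ideal.add_mem _ (h 1 1) e11

/-- Rigidity: an intertwiner between two normalized lifts is a scalar, hence the two normalized
lifts are equal. -/
theorem IsNormLift.eq_of_conj (F : Frame 𝒪 ρbar) (hloc : IsLocalHom (algebraMap 𝒪 A))
    {r r' : Gal →* M2 A} (hr : IsNormLift F r) (hr' : IsNormLift F r') (Q : M2 A)
    (hQ : IsUnit Q) (h : ∀ σ, Q * r σ = r' σ * Q) : r = r' := by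
  have hX := linExt_intertwine F.x r r' Q h
  have hY := linExt_intertwine F.y r r' Q h
  obtain ⟨hx00, -, -, -⟩ := F.linExt_x_mem hloc hr.lift
  obtain ⟨-, -, -, hx11'⟩ := F.linExt_x_mem hloc hr'.lift
  -- column 0, row 1 of `Q X = X' Q`
  have h10 := congrFun (congrFun hX 1) 0
  rw [Matrix.mul_apply, Matrix.mul_apply, Fin.sum_univ_two, Fin.sum_univ_two, hr.x10, hr'.x10,
    mul_zero, add_zero, zero_mul, zero_add] at h10
  have hunit : IsUnit (linExt F.x r 0 0 - linExt F.x r' 1 1) := by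
    have h1 : linExt F.x r 0 0 - linExt F.x r' 1 1 - 1 ∈ maximalIdeal A := by
      have := Ideal.sub_mem _ hx00 hx11'
      convert this using 1
      ring
    by_contra hnu
    have h2 : linExt F.x r 0 0 - linExt F.x r' 1 1 ∈ maximalIdeal A := hnu
    have := Ideal.sub_mem _ h2 h1
    rw [sub_sub_cancel] at this
    exact (maximalIdeal.isMaximal A).ne_top ((Ideal.eq_top_iff_one _).mpr this)
  have hQ10 : Q 1 0 = 0 := by
    have : (linExt F.x r 0 0 - linExt F.x r' 1 1) * Q 1 0 = 0 := by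
      rw [sub_mul, sub_eq_zero, mul_comm, h10]
    exact (hunit.mul_right_eq_zero).mp this
  -- column 0 of `Q Y = Y' Q`
  have k00 := congrFun (congrFun hY 0) 0
  have k10 := congrFun (congrFun hY 1) 0
  rw [Matrix.mul_apply, Matrix.mul_apply, Fin.sum_univ_two, Fin.sum_univ_two, hr.y00, hr.y10,
    hr'.y00, hQ10, mul_zero, zero_add, mul_one, zero_mul, mul_zero, add_zero] at k00
  rw [Matrix.mul_apply, Matrix.mul_apply, Fin.sum_univ_two, Fin.sum_univ_two, hr.y00, hr.y10,
    hr'.y10, hQ10, mul_zero, zero_add, mul_one, one_mul, mul_zero, add_zero] at k10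
  -- so `Q` is the scalar matrix `Q 0 0`
  have hQs : Q = Q 0 0 • (1 : M2 A) := by
    ext i j
    fin_cases i <;> fin_cases j <;> simp [hQ10, k00, k10]
  have hdet : IsUnit (Q 0 0) := by
    have hd := (Matrix.isUnit_iff_isUnit_det Q).mp hQ
    rw [Matrix.det_fin_two, hQ10, k00, k10] at hd
    simp only [mul_zero, sub_zero] at hd
    exact isUnit_of_mul_isUnit_left hd
  refine MonoidHom.ext fun σ => ?_
  have hσ := h σ
  rw [hQs, Matrix.smul_mul, Matrix.mul_smul, one_mul, mul_one] at hσ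
  exact hdet.smul_left_cancel.mp hσ

theorem mul_mul_apply_mem {A : Type} [CommRing A] (I : Ideal A) (N M N' : M2 A)
    (hM : ∀ i j, M i j ∈ I) (i j : Fin 2) : (N * M * N') i j ∈ I := by
  rw [Matrix.mul_apply]
  refine Ideal.sum_mem _ fun k _ => Ideal.mul_mem_right _ _ ?_
  rw [Matrix.mul_apply]
  exact Ideal.sum_mem _ fun l _ => Ideal.mul_mem_left _ _ (hM l k)

theorem isUnit_of_sub_one_mem {a : A} (h : a - 1 ∈ maximalIdeal A) : IsUnit a := by
  by_contra hnu
  have h2 : a ∈ maximalIdeal A := hnu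
  have := Ideal.sub_mem _ h2 h
  rw [sub_sub_cancel] at this
  exact (maximalIdeal.isMaximal A).ne_top ((Ideal.eq_top_iff_one _).mpr this)

section TwoByTwo

variable {B : Type} [CommRing B]

theorem two_mul_inv (v0 v1 w0 w1 u : B) (hu : (v0 * w1 - w0 * v1) * u = 1) :
    (!![v0, w0; v1, w1] : M2 B) * !![u * w1, -(u * w0); -(u * v1), u * v0] = 1 := by
  ext i j
  fin_cases i <;> fin_cases j <;>
    simp [Matrix.mul_apply, Fin.sum_univ_two]
  · linear_combination hu
  · ring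
  · ring
  · linear_combination hu

theorem two_inv_mul (v0 v1 w0 w1 u : B) (hu : (v0 * w1 - w0 * v1) * u = 1) :
    (!![u * w1, -(u * w0); -(u * v1), u * v0] : M2 B) * !![v0, w0; v1, w1] = 1 := by
  ext i j
  fin_cases i <;> fin_cases j <;>
    simp [Matrix.mul_apply, Fin.sum_univ_two]
  · linear_combination hu
  · ring
  · ring
  · linear_combination hu

theorem two_conj_apply_one_zero (M : M2 B) (v0 v1 w0 w1 u : B) :
    ((!![u * w1, -(u * w0); -(u * v1), u * v0] : M2 B) * M * !![v0, w0; v1, w1]) 1 0 =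
      u * (v0 * (M 1 0 * v0 + M 1 1 * v1) - v1 * (M 0 0 * v0 + M 0 1 * v1)) := by
  rw [Matrix.mul_apply, Fin.sum_univ_two, Matrix.mul_apply, Matrix.mul_apply, Fin.sum_univ_two,
    Fin.sum_univ_two]
  simp
  ring

theorem two_conj_apply_zero_zero (M : M2 B) (v0 v1 w0 w1 u : B) :
    ((!![u * w1, -(u * w0); -(u * v1), u * v0] : M2 B) * M * !![v0, w0; v1, w1]) 0 0 =
      u * (w1 * (M 0 0 * v0 + M 0 1 * v1) - w0 * (M 1 0 * v0 + M 1 1 * v1)) := by
  rw [Matrix.mul_apply, Fin.sum_univ_two, Matrix.mul_apply, Matrix.mul_apply, Fin.sum_univ_two,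
    Fin.sum_univ_two]
  simp
  ring

end TwoByTwo

/-- The algebraic heart of the normalization: given `X ≡ E₁₁` and `Y ≡ E₂₁` modulo the maximal
ideal of a Henselian local ring, there is a change of basis `P ≡ 1` such that `P⁻¹ X P e₁ ∈ A e₁`
and `P⁻¹ Y P e₁ = e₂`. -/
theorem exists_basis_change
    (hens : ∀ f : Polynomial A, f.Monic → ∀ a₀ : A, f.eval a₀ ∈ maximalIdeal A →
      IsUnit (f.derivative.eval a₀) → ∃ a : A, f.IsRoot a ∧ a - a₀ ∈ maximalIdeal A)
    (X Y : M2 A)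
    (ha : X 0 0 - 1 ∈ maximalIdeal A) (hb : X 0 1 ∈ maximalIdeal A)
    (hcm : X 1 0 ∈ maximalIdeal A) (hd : X 1 1 ∈ maximalIdeal A)
    (hy00 : Y 0 0 ∈ maximalIdeal A) (hy01 : Y 0 1 ∈ maximalIdeal A)
    (hy10 : Y 1 0 - 1 ∈ maximalIdeal A) (hy11 : Y 1 1 ∈ maximalIdeal A) :
    ∃ P Pinv : M2 A, P * Pinv = 1 ∧ Pinv * P = 1 ∧ (∀ i j, (P - 1) i j ∈ maximalIdeal A) ∧
      (∀ i j, (Pinv - 1) i j ∈ maximalIdeal A) ∧
      (Pinv * X * P) 1 0 = 0 ∧ (Pinv * Y * P) 0 0 = 0 ∧ (Pinv * Y * P) 1 0 = 1 := by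
  classical
  obtain ⟨a, hadef⟩ : ∃ a, a = X 0 0 := ⟨_, rfl⟩
  obtain ⟨b, hbdef⟩ : ∃ b, b = X 0 1 := ⟨_, rfl⟩
  obtain ⟨c, hcdef⟩ : ∃ c, c = X 1 0 := ⟨_, rfl⟩
  obtain ⟨d, hddef⟩ : ∃ d, d = X 1 1 := ⟨_, rfl⟩
  rw [← hadef] at ha
  rw [← hbdef] at hb
  rw [← hcdef] at hcm
  rw [← hddef] at hd
  -- Hensel root of the characteristic polynomial near `1`
  obtain ⟨f, hfdef⟩ : ∃ f : Polynomial A, f = Polynomial.X ^ 2 +
      (Polynomial.C (-(a + d)) * Polynomial.X + Polynomial.C (a * d - b * c)) := ⟨_, rfl⟩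
  have hfmonic : f.Monic := by
    rw [hfdef]
    refine Polynomial.monic_X_pow_add ?_
    refine lt_of_le_of_lt (Polynomial.degree_add_le _ _) ?_
    refine max_lt ?_ ?_
    · exact lt_of_le_of_lt (Polynomial.degree_C_mul_X_le _) (by norm_num)
    · exact lt_of_le_of_lt Polynomial.degree_C_le (by norm_num)
  have hfeval : ∀ t, f.eval t = t ^ 2 - (a + d) * t + (a * d - b * c) := by
    intro t
    rw [hfdef]
    simp only [Polynomial.eval_add, Polynomial.eval_mul,
      Polynomial.eval_pow, Polynomial.eval_X, Polynomial.eval_C]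
    ring
  have hf1 : f.eval 1 ∈ maximalIdeal A := by
    have : f.eval 1 = (a - 1) * (d - 1) - b * c := by
      rw [hfeval]; ring
    rw [this]
    exact Ideal.sub_mem _ (Ideal.mul_mem_right _ _ ha) (Ideal.mul_mem_right _ _ hb)
  have hf1' : IsUnit (f.derivative.eval 1) := by
    have : f.derivative.eval 1 = 2 - (a + d) := by
      rw [hfdef]
      simp only [Polynomial.derivative_add, Polynomial.derivative_mul,
        Polynomial.derivative_X_pow, Polynomial.derivative_C,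
        Polynomial.derivative_X, Polynomial.eval_add, Polynomial.eval_mul,
        Polynomial.eval_pow, Polynomial.eval_X, Polynomial.eval_C]
      simp
      ring
    rw [this]
    refine isUnit_of_sub_one_mem ?_
    have : (2 : A) - (a + d) - 1 = -((a - 1) + d) := by ring
    rw [this]
    exact Ideal.neg_mem_iff _ |>.mpr (Ideal.add_mem _ ha hd)
  obtain ⟨lam, hlam, hlam1⟩ := hens f hfmonic 1 hf1 hf1'
  have hroot : lam ^ 2 - (a + d) * lam + (a * d - b * c) = 0 := by
    rw [← hfeval]; exact hlam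
  -- eigenvector `v` and second basis vector `w = Y v`
  obtain ⟨mu, hmu⟩ : ∃ mu, mu = a + d - lam := ⟨_, rfl⟩
  have hmum : mu ∈ maximalIdeal A := by
    have : mu = (a - 1) + d - (lam - 1) := by rw [hmu]; ring
    rw [this]
    exact Ideal.sub_mem _ (Ideal.add_mem _ ha hd) hlam1
  obtain ⟨v0, hv0⟩ : ∃ v0, v0 = a - mu := ⟨_, rfl⟩
  have hv0m : v0 - 1 ∈ maximalIdeal A := by
    have : v0 - 1 = (a - 1) - mu := by rw [hv0]; ring
    rw [this]
    exact Ideal.sub_mem _ ha hmum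
  obtain ⟨w0, hw0⟩ : ∃ w0, w0 = Y 0 0 * v0 + Y 0 1 * c := ⟨_, rfl⟩
  obtain ⟨w1, hw1⟩ : ∃ w1, w1 = Y 1 0 * v0 + Y 1 1 * c := ⟨_, rfl⟩
  have hw0m : w0 ∈ maximalIdeal A := by
    rw [hw0]
    exact Ideal.add_mem _ (Ideal.mul_mem_right _ _ hy00) (Ideal.mul_mem_right _ _ hy01)
  have hw1m : w1 - 1 ∈ maximalIdeal A := by
    have : w1 - 1 = (Y 1 0 - 1) * v0 + (v0 - 1) + Y 1 1 * c := by rw [hw1]; ring
    rw [this]
    exact Ideal.add_mem _ (Ideal.add_mem _ (Ideal.mul_mem_right _ _ hy10) hv0m)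
      (Ideal.mul_mem_right _ _ hy11)
  have hdetm : v0 * w1 - w0 * c - 1 ∈ maximalIdeal A := by
    have : v0 * w1 - w0 * c - 1 = (v0 - 1) * w1 + (w1 - 1) - w0 * c := by ring
    rw [this]
    exact Ideal.sub_mem _ (Ideal.add_mem _ (Ideal.mul_mem_right _ _ hv0m) hw1m)
      (Ideal.mul_mem_right _ _ hw0m)
  obtain ⟨u, hu⟩ := (isUnit_of_sub_one_mem hdetm).exists_right_inv
  have hum : u - 1 ∈ maximalIdeal A := by
    have : u - 1 = -((v0 * w1 - w0 * c - 1) * u) := by
      have h1 : (v0 * w1 - w0 * c - 1) * u = 1 - u := by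
        rw [sub_mul, hu, one_mul]
      rw [h1]; ring
    rw [this]
    exact (Ideal.neg_mem_iff _).mpr (Ideal.mul_mem_right _ _ hdetm)
  refine ⟨!![v0, w0; c, w1], !![u * w1, -(u * w0); -(u * c), u * v0],
    two_mul_inv v0 c w0 w1 u hu, two_inv_mul v0 c w0 w1 u hu, ?_, ?_, ?_, ?_, ?_⟩
  · intro i j
    fin_cases i <;> fin_cases j
    · simpa using hv0m
    · simpa using hw0m
    · simpa using hcm
    · simpa using hw1m
  · intro i j
    fin_cases i <;> fin_cases j
    · have : u * w1 - 1 = (u - 1) * w1 + (w1 - 1) := by ring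
      simpa [this] using Ideal.add_mem _ (Ideal.mul_mem_right _ _ hum) hw1m
    · simpa using Ideal.mul_mem_left _ u hw0m
    · simpa using Ideal.mul_mem_left _ u hcm
    · have : u * v0 - 1 = (u - 1) * v0 + (v0 - 1) := by ring
      simpa [this] using Ideal.add_mem _ (Ideal.mul_mem_right _ _ hum) hv0m
  · rw [two_conj_apply_one_zero, ← hadef, ← hbdef, ← hcdef, ← hddef]
    have : v0 * (c * v0 + d * c) - c * (a * v0 + b * c) = 0 := by
      rw [hv0, hmu]
      linear_combination c * hroot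
    rw [this, mul_zero]
  · rw [two_conj_apply_zero_zero, ← hw0, ← hw1]
    ring
  · rw [two_conj_apply_one_zero, ← hw0, ← hw1]
    linear_combination hu

/-- Existence of the normalized form, assuming Hensel's lemma for monic polynomials. -/
theorem exists_normLift_conj_of_hensel (F : Frame 𝒪 ρbar) (hloc : IsLocalHom (algebraMap 𝒪 A))
    (hens : ∀ f : Polynomial A, f.Monic → ∀ a₀ : A, f.eval a₀ ∈ maximalIdeal A →
      IsUnit (f.derivative.eval a₀) → ∃ a : A, f.IsRoot a ∧ a - a₀ ∈ maximalIdeal A)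
    {r : Gal →* M2 A} (hc : MatCont r)
    (hl : ∀ g i j, r g i j - algebraMap 𝒪 A (F.c g i j) ∈ maximalIdeal A) :
    ∃ (P : M2 A) (r' : Gal →* M2 A), IsUnit P ∧ IsNormLift F r' ∧ ∀ σ, P * r' σ = r σ * P := by
  classical
  obtain ⟨ha, hb, hcm, hd⟩ := F.linExt_x_mem hloc hl
  obtain ⟨hy00, hy01, hy10, hy11⟩ := F.linExt_y_mem hloc hl
  obtain ⟨P, Pinv, hPP, hPP', hP1, hPinv1, hx10, hy00', hy10'⟩ :=
    exists_basis_change hens (linExt F.x r) (linExt F.y r) ha hb hcm hd hy00 hy01 hy10 hy11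
  let r' : Gal →* M2 A :=
    { toFun := fun σ => Pinv * r σ * P
      map_one' := by rw [map_one, mul_one, hPP']
      map_mul' := fun σ τ => by
        rw [map_mul]
        calc Pinv * (r σ * r τ) * P = Pinv * r σ * 1 * r τ * P := by
              rw [mul_one]; simp only [mul_assoc]
          _ = Pinv * r σ * P * (Pinv * r τ * P) := by rw [← hPP]; simp only [mul_assoc] }
  have hr'apply : ∀ σ, r' σ = Pinv * r σ * P := fun σ => rfl
  have hr'fun : (r' : Gal → M2 A) = fun g => Pinv * r g * P := rfl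
  refine ⟨P, r', ⟨⟨P, Pinv, hPP, hPP'⟩, rfl⟩, ?_, ?_⟩
  · refine ⟨?_, ?_, ?_, ?_, ?_⟩
    · -- continuity
      intro n
      obtain ⟨L, hL, h⟩ := hc n
      refine ⟨L, hL, fun σ hσ i j => ?_⟩
      have : r' σ - 1 = Pinv * (r σ - 1) * P := by
        rw [hr'apply, mul_sub, sub_mul, mul_one, hPP']
      rw [this]
      exact mul_mul_apply_mem _ _ _ _ (h σ hσ) i j
    · -- lift
      intro g i j
      have key : r' g - r g = (Pinv - 1) * r g * P + r g * (P - 1) := by
        rw [hr'apply]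
        noncomm_ring
      have hmem : (r' g - r g) i j ∈ maximalIdeal A := by
        rw [key, Matrix.add_apply]
        refine Ideal.add_mem _ ?_ ?_
        · rw [Matrix.mul_apply]
          refine Ideal.sum_mem _ fun k _ => Ideal.mul_mem_right _ _ ?_
          rw [Matrix.mul_apply]
          exact Ideal.sum_mem _ fun l _ => Ideal.mul_mem_right _ _ (hPinv1 i l)
        · rw [Matrix.mul_apply]
          exact Ideal.sum_mem _ fun k _ => Ideal.mul_mem_left _ _ (hP1 k j)
      have := Ideal.add_mem _ hmem (hl g i j)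
      rw [Matrix.sub_apply] at this
      convert this using 1
      ring
    · rw [hr'fun, linExt_conj]; exact hx10
    · rw [hr'fun, linExt_conj]; exact hy00'
    · rw [hr'fun, linExt_conj]; exact hy10'
  · intro σ
    rw [hr'apply, ← mul_assoc, ← mul_assoc, hPP, one_mul]

/-- Existence of the normalized form over a complete local ring. -/
theorem exists_normLift_conj (F : Frame 𝒪 ρbar) (hloc : IsLocalHom (algebraMap 𝒪 A))
    [IsAdicComplete (maximalIdeal A) A]
    {r : Gal →* M2 A} (hc : MatCont r)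
    (hl : ∀ g i j, r g i j - algebraMap 𝒪 A (F.c g i j) ∈ maximalIdeal A) :
    ∃ (P : M2 A) (r' : Gal →* M2 A), IsUnit P ∧ IsNormLift F r' ∧ ∀ σ, P * r' σ = r σ * P := by
  refine exists_normLift_conj_of_hensel F hloc ?_ hc hl
  intro f hf a₀ h₁ h₂
  refine HenselianRing.is_henselian (I := maximalIdeal A) f hf a₀ h₁ ?_
  exact h₂.map (Ideal.Quotient.mk (maximalIdeal A))

end Frame

end Fermat.Agent.S53
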