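import Mathlib
import Fermat.Agent.S53.TestDefs
import Fermat.Agent.S53.Normalize
import Fermat.Agent.S53.MatGlue

/-!
# S53, package K1: separating coordinates from `TangentFinite`

The set of test lifts over the dual numbers `k[ε]` injects into the finite quotient of
`GaloisRep.TangentFinite` (rigidity of normalized lifts), hence is finite; choosing for each such
lift one matrix position whose `ε`-component is non-zero (if there is one) yields finitely many
coordinates that separate tangent vectors.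
-/

set_option autoImplicit false
set_option linter.style.haveILetI false

noncomputable section

namespace Fermat.Agent.S53

open IsLocalRing GaloisRep

variable {𝒪 : Type} [CommRing 𝒪] [IsLocalRing 𝒪] {ρbar : ResidualGaloisRep (ResidueField 𝒪)}
  {𝒟 : ∀ ⦃A : Type⦄ [CommRing A] [IsLocalRing A] [Algebra 𝒪 A], GaloisRepAdic A → Prop}

/-- The two ring homomorphisms `k → ResidueField k[ε]` (the one induced by the structure map
`𝒪 → k[ε]` and the one used in `GaloisRep.TangentFinite`) agree. -/
theorem residueFieldMap_dualNumber_eq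
    (hloc : IsLocalHom (@algebraMap 𝒪 (DualNumber (ResidueField 𝒪)) _ _ (dualNumberAlgebra 𝒪))) :
    (@IsLocalRing.ResidueField.map _ _ _ _ _ _
        (@algebraMap 𝒪 (DualNumber (ResidueField 𝒪)) _ _ (dualNumberAlgebra 𝒪)) hloc) =
      (IsLocalRing.residue (DualNumber (ResidueField 𝒪))).comp
        (algebraMap (ResidueField 𝒪) (DualNumber (ResidueField 𝒪))) := by
  refine RingHom.ext fun x => ?_
  obtain ⟨y, rfl⟩ := IsLocalRing.residue_surjective x
  rw [IsLocalRing.ResidueField.map_residue]
  rfl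

/-- The residual representation of a test lift over `k[ε]` is `ρbar`, in the exact form used
in `GaloisRep.TangentFinite`. -/
theorem IsTestLift.residual_isEquiv_dualNumber (F : Frame 𝒪 ρbar)
    {r : Gal →* M2 (DualNumber (ResidueField 𝒪))}
    (hr : letI := dualNumberAlgebra 𝒪; IsTestLift 𝒟 F r) :
    letI := dualNumberAlgebra 𝒪
    (ofMat r hr.norm.cont).residual.IsEquiv
      (@ResidualGaloisRep.baseChange (ResidueField 𝒪) _
        (ResidueField (DualNumber (ResidueField 𝒪))) _
        (((IsLocalRing.residue (DualNumber (ResidueField 𝒪))).comp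
          (algebraMap (ResidueField 𝒪) (DualNumber (ResidueField 𝒪)))).toAlgebra) ρbar) := by
  letI := dualNumberAlgebra 𝒪
  have hloc : IsLocalHom (algebraMap 𝒪 (DualNumber (ResidueField 𝒪))) := hr.test.isLocalHom
  have h := residual_ofMat_isEquiv_frame F hloc hr.norm.cont hr.norm.lift
  rw [residueFieldMap_dualNumber_eq hloc] at h
  exact h

/-- Under `TangentFinite`, there are only finitely many test lifts over the dual numbers. -/
theorem finite_testLift_dualNumber (F : Frame 𝒪 ρbar) (hfin : TangentFinite 𝒪 ρbar 𝒟) :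
    letI := dualNumberAlgebra 𝒪
    Finite {r : Gal →* M2 (DualNumber (ResidueField 𝒪)) // IsTestLift 𝒟 F r} := by
  letI := dualNumberAlgebra 𝒪
  unfold TangentFinite at hfin
  haveI := hfin
  refine Finite.of_injective
    (β := Quotient (⟨fun ρ ρ' : {ρ : GaloisRepAdic (DualNumber (ResidueField 𝒪)) //
      𝒟 ρ ∧ ρ.residual.IsEquiv (@ResidualGaloisRep.baseChange (ResidueField 𝒪) _
        (ResidueField (DualNumber (ResidueField 𝒪))) _
        (((IsLocalRing.residue (DualNumber (ResidueField 𝒪))).comp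
          (algebraMap (ResidueField 𝒪) (DualNumber (ResidueField 𝒪)))).toAlgebra) ρbar) } =>
      ρ.1.IsEquiv ρ'.1, ⟨fun ρ => ⟨GaloisRepAdic.Equiv.refl ρ.1⟩,
        fun ⟨e⟩ => ⟨e.symm⟩, fun ⟨e⟩ ⟨e'⟩ => ⟨e.trans e'⟩⟩⟩ : Setoid _))
    (fun r => Quotient.mk _
      ⟨ofMat r.1 r.2.norm.cont, r.2.type, IsTestLift.residual_isEquiv_dualNumber F r.2⟩) ?_
  intro r r' h
  have h' := Quotient.exact h
  have h'' : (ofMat r.1 r.2.norm.cont).IsEquiv (ofMat r'.1 r'.2.norm.cont) := h'
  obtain ⟨Q, hQ, hQr⟩ := isEquiv_ofMat_iff_isUnit.mp h''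
  exact Subtype.ext (IsNormLift.eq_of_conj F r.2.test.isLocalHom r.2.norm r'.2.norm Q hQ hQr)

/-- **K1 (core form, no hypotheses on `𝒟`).** If the tangent space is finite, there are finitely
many matrix positions separating tangent vectors. -/
theorem exists_separating_coords_of_tangentFinite (F : Frame 𝒪 ρbar)
    (hfin : TangentFinite 𝒪 ρbar 𝒟) : ∃ (N : ℕ) (κ : Coords N), κ.Separating 𝒟 F := by
  classical
  letI := dualNumberAlgebra 𝒪
  haveI := finite_testLift_dualNumber F hfin
  have hch : ∀ t : {r : Gal →* M2 (DualNumber (ResidueField 𝒪)) // IsTestLift 𝒟 F r},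
      ∃ p : Gal × Fin 2 × Fin 2,
        (∃ g i j, TrivSqZeroExt.snd (t.1 g i j) ≠ 0) →
          TrivSqZeroExt.snd (t.1 p.1 p.2.1 p.2.2) ≠ 0 := by
    intro t
    by_cases h : ∃ g i j, TrivSqZeroExt.snd (t.1 g i j) ≠ 0
    · obtain ⟨g, i, j, hg⟩ := h
      exact ⟨(g, i, j), fun _ => hg⟩
    · exact ⟨(1, 0, 0), fun h' => absurd h' h⟩
  choose p hp using hch
  let e := Finite.equivFin {r : Gal →* M2 (DualNumber (ResidueField 𝒪)) // IsTestLift 𝒟 F r}
  refine ⟨_, ⟨fun l => (p (e.symm l)).1, fun l => (p (e.symm l)).2.1,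
    fun l => (p (e.symm l)).2.2⟩, ?_⟩
  intro r hr hcoord g i j
  by_contra hne
  refine hp ⟨r, hr⟩ ⟨g, i, j, hne⟩ ?_
  have hc := hcoord (e ⟨r, hr⟩)
  simp only [coord, Equiv.symm_apply_apply] at hc
  rw [sub_eq_zero] at hc
  rw [hc]
  rfl

/-- **K1**, with the signature of the S53 work-package list. -/
theorem exists_separating_coords (_h𝒟 : IsDeformationCondition 𝒪 𝒟) (F : Frame 𝒪 ρbar)
    (hfin : TangentFinite 𝒪 ρbar 𝒟) : ∃ (N : ℕ) (κ : Coords N), κ.Separating 𝒟 F :=
  exists_separating_coords_of_tangentFinite F hfin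

end Fermat.Agent.S53
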