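import Mathlib
import Fermat.Agent.S53.Defs
import Fermat.Agent.S53.Burnside

/-!
# S53: existence of a frame for an absolutely irreducible residual representation

`Fermat.Agent.S53.exists_frame` : for `ρbar` absolutely irreducible there is a `Frame 𝒪 ρbar`,
i.e. a basis, an entrywise lift of the matrices of `ρbar` and formal combinations `x`, `y` of
group elements with `ρbar(x) = E₁₁`, `ρbar(y) = E₂₁`.
-/

set_option autoImplicit false

namespace Fermat.Agent.S53

open IsLocalRing Module

section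

variable (𝒪 : Type) [CommRing 𝒪] [IsLocalRing 𝒪]

/-- A set-theoretic section of the residue map sending `0` to `0`. -/
noncomputable def resLift (a : ResidueField 𝒪) : 𝒪 :=
  open Classical in
  if a = 0 then 0 else (residue_surjective (R := 𝒪) a).choose

theorem residue_resLift (a : ResidueField 𝒪) : residue 𝒪 (resLift 𝒪 a) = a := by
  unfold resLift
  split_ifs with h
  · rw [map_zero, h]
  · exact (residue_surjective (R := 𝒪) a).choose_spec

@[simp] theorem resLift_zero : resLift 𝒪 (0 : ResidueField 𝒪) = 0 := by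
  unfold resLift
  rw [if_pos rfl]

variable {𝒪}

/-- Residue of the linear extension of a lifted family of matrices. -/
theorem residue_linExt_resLift (ρbar : ResidualGaloisRep (ResidueField 𝒪))
    (b : Module.Basis (Fin 2) (ResidueField 𝒪) ρbar.V) (c : Gal → M2 𝒪)
    (hc : ∀ g i j, residue 𝒪 (c g i j) = LinearMap.toMatrix b b (ρbar.ρ g) i j)
    (c0 : Gal →₀ ResidueField 𝒪) (i j : Fin 2) :
    residue 𝒪 (linExt (c0.mapRange (resLift 𝒪) (resLift_zero 𝒪)) c i j) =
      LinearMap.toMatrix b b (c0.sum fun σ a => a • ρbar.ρ σ) i j := by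
  rw [linExt_apply, Finsupp.sum_mapRange_index (by intro g; simp), Finsupp.sum, map_sum,
    Finsupp.sum, map_sum, Matrix.sum_apply]
  refine Finset.sum_congr rfl fun g _ => ?_
  rw [smul_eq_mul, map_mul, residue_resLift, hc, map_smul, Matrix.smul_apply, smul_eq_mul]

/-- **Existence of a frame** for an absolutely irreducible residual representation. -/
theorem exists_frame (ρbar : ResidualGaloisRep (ResidueField 𝒪))
    (habs : ρbar.IsAbsolutelyIrreducible) : Nonempty (Frame 𝒪 ρbar) := by
  classical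
  let b : Module.Basis (Fin 2) (ResidueField 𝒪) ρbar.V :=
    Module.finBasisOfFinrankEq (ResidueField 𝒪) ρbar.V ρbar.finrank_eq
  let c : Gal → M2 𝒪 := fun g i j => resLift 𝒪 (LinearMap.toMatrix b b (ρbar.ρ g) i j)
  have hc : ∀ g i j, residue 𝒪 (c g i j) = LinearMap.toMatrix b b (ρbar.ρ g) i j :=
    fun g i j => residue_resLift 𝒪 _
  obtain ⟨cx, hcx⟩ := residual_exists_finsupp_sum_eq ρbar habs
    ((LinearMap.toMatrix b b).symm (Matrix.single 0 0 1))
  obtain ⟨cy, hcy⟩ := residual_exists_finsupp_sum_eq ρbar habs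
    ((LinearMap.toMatrix b b).symm (Matrix.single 1 0 1))
  have hx : ∀ i j, residue 𝒪 (linExt (cx.mapRange (resLift 𝒪) (resLift_zero 𝒪)) c i j) =
      (Matrix.single 0 0 1 : M2 (ResidueField 𝒪)) i j := fun i j => by
    rw [residue_linExt_resLift ρbar b c hc, hcx, LinearEquiv.apply_symm_apply]
  have hy : ∀ i j, residue 𝒪 (linExt (cy.mapRange (resLift 𝒪) (resLift_zero 𝒪)) c i j) =
      (Matrix.single 1 0 1 : M2 (ResidueField 𝒪)) i j := fun i j => by
    rw [residue_linExt_resLift ρbar b c hc, hcy, LinearEquiv.apply_symm_apply]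
  have mem_of_res0 : ∀ a : 𝒪, residue 𝒪 a = 0 → a ∈ maximalIdeal 𝒪 :=
    fun a h => (residue_eq_zero_iff a).mp h
  have mem_of_res1 : ∀ a : 𝒪, residue 𝒪 a = 1 → a - 1 ∈ maximalIdeal 𝒪 := fun a h => by
    apply mem_of_res0
    rw [map_sub, h, map_one, sub_self]
  exact ⟨{
    b := b
    c := c
    hc := hc
    x := cx.mapRange (resLift 𝒪) (resLift_zero 𝒪)
    y := cy.mapRange (resLift 𝒪) (resLift_zero 𝒪)
    hx00 := mem_of_res1 _ (by rw [hx]; simp)
    hx01 := mem_of_res0 _ (by rw [hx]; simp)
    hx10 := mem_of_res0 _ (by rw [hx]; simp)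
    hx11 := mem_of_res0 _ (by rw [hx]; simp)
    hy00 := mem_of_res0 _ (by rw [hy]; simp)
    hy01 := mem_of_res0 _ (by rw [hy]; simp)
    hy10 := mem_of_res1 _ (by rw [hy]; simp)
    hy11 := mem_of_res0 _ (by rw [hy]; simp) }⟩

end

end Fermat.Agent.S53
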