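import Fermat.Agent.S53.UnivProp
import Fermat.Agent.S53.Normalize

/-!
# S53, package K7: the universal property (hypothesis-free form)

`Fermat.Agent.S53.K7.universal_of_isUnivEntries` with the two normalization lemmas of
`Normalize.lean` plugged in.
-/

set_option autoImplicit false

namespace Fermat.Agent.S53.K7

open IsLocalRing GaloisRep Fermat.Agent.S53

variable {𝒪 : Type} [CommRing 𝒪] [IsLocalRing 𝒪] {ρbar : ResidualGaloisRep (ResidueField 𝒪)}
  {𝒟 : ∀ ⦃A : Type⦄ [CommRing A] [IsLocalRing A] [Algebra 𝒪 A], GaloisRepAdic A → Prop}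

/-- **K7**: the `universal` field of `GaloisRep.DeformationRingData` for `(R, ofMat rR)`, where
`π : Λ → R` is a surjective `𝒪`-algebra homomorphism with kernel `Jideal 𝒟 F κ` and `rR` is the
normalized lift with entries `π (G g i j)` for universal entries `G`. -/
theorem universal (h𝒟 : IsDeformationCondition 𝒪 𝒟) (F : Frame 𝒪 ρbar) {N : ℕ} (κ : Coords N)
    (G : Gal → M2 (Lam 𝒪 N)) (hG : IsUnivEntries 𝒟 F κ G)
    {R : Type} [CommRing R] [IsLocalRing R] [Algebra 𝒪 R]
    (π : Lam 𝒪 N →ₐ[𝒪] R) (hπ : Function.Surjective π)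
    (hker : RingHom.ker (π : Lam 𝒪 N →+* R) = Jideal 𝒟 F κ)
    (rR : Gal →* M2 R) (hrR : ∀ g i j, rR g i j = π (G g i j)) (hnorm : IsNormLift F rR)
    (A : Type) [CommRing A] [IsLocalRing A] [IsNoetherianRing A]
    [IsAdicComplete (maximalIdeal A) A] [Algebra 𝒪 A] [hloc : IsLocalHom (algebraMap 𝒪 A)]
    (hsurj : Function.Surjective (residue A ∘ algebraMap 𝒪 A))
    (ρA : GaloisRepAdic A) (hDA : 𝒟 ρA)
    (hres : ρA.residual.IsEquiv
      (ρbar.baseChangeAlong (IsLocalRing.ResidueField.map (algebraMap 𝒪 A)))) :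
    ∃! φ : R →ₐ[𝒪] A, ∃ hφ : IsLocalHom (φ : R →+* A),
      ((ofMat rR hnorm.cont).baseChangeAlong (φ : R →+* A) hφ).IsEquiv ρA :=
  universal_of_isUnivEntries h𝒟 F κ G hG π hπ hker rR hrR hnorm A hsurj
    (fun hr hr' Q hQ h => IsNormLift.eq_of_conj F hloc hr hr' Q hQ h)
    (fun hc hl => exists_normLift_conj F hloc hc hl) ρA hDA hres

end Fermat.Agent.S53.K7
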