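import Fermat.Agent.S53.UnivRep
import Fermat.Agent.S53.AdmInf
import Fermat.Agent.S53.UnivPropFinal
import Fermat.Agent.S53.Coordinates
import Fermat.Agent.S53.FrameExists

/-!
# S53: assembly of the universal deformation ring
-/

set_option autoImplicit false
set_option linter.unusedSectionVars false
set_option linter.overlappingInstances false
set_option linter.style.haveILetI false
set_option linter.unusedVariables false

noncomputable section

namespace Fermat.Agent.S53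

open IsLocalRing GaloisRep

theorem exists_deformationRingData
    (𝒪 : Type) [CommRing 𝒪] [IsDomain 𝒪] [IsDiscreteValuationRing 𝒪]
    [IsAdicComplete (IsLocalRing.maximalIdeal 𝒪) 𝒪] [Finite (IsLocalRing.ResidueField 𝒪)]
    (ρbar : ResidualGaloisRep (IsLocalRing.ResidueField 𝒪))
    (𝒟 : ∀ ⦃A : Type⦄ [CommRing A] [IsLocalRing A] [Algebra 𝒪 A], GaloisRepAdic A → Prop)
    (habs : ρbar.IsAbsolutelyIrreducible)
    (h𝒟 : GaloisRep.IsDeformationCondition 𝒪 𝒟)
    (hbar : 𝒟 (GaloisRepAdic.ofResidualGaloisRep ρbar))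
    (hfin : GaloisRep.TangentFinite 𝒪 ρbar 𝒟) :
    Nonempty (GaloisRep.DeformationRingData 𝒪 ρbar 𝒟) := by
  obtain ⟨F⟩ := exists_frame ρbar habs
  obtain ⟨N, κ, hκ⟩ := exists_separating_coords h𝒟 F hfin
  obtain ⟨G, hG⟩ := exists_univEntries_of_separating h𝒟 hbar hκ
  have hadm : Core.AdmAxioms (maximalIdeal (Lam 𝒪 N)) (Adm 𝒟 F κ) :=
    admAxioms_of_separating h𝒟 hbar hκ
  have hJ : Jideal 𝒟 F κ ≠ ⊤ := jideal_ne_top_of hadm
  haveI hlocR : IsLocalRing (Lam 𝒪 N ⧸ Jideal 𝒟 F κ) :=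
    isLocalRing_quotient_mvPowerSeries _ hJ
  have hS : SurjData 𝒟 F κ := fun n hn =>
    Adm.exists_surjective h𝒟 (entriesRange_of_separating h𝒟 hκ) (adm_jideal_sup_pow_of hadm hn)
  have hmap : TestLiftMap 𝒟 F := fun A B _ _ _ _ _ _ hB φ hφ r hr =>
    isTestLift_map' h𝒟 F hB φ hφ hr
  have hcomp : IsAdicComplete (maximalIdeal (Lam 𝒪 N ⧸ Jideal 𝒟 F κ))
      (Lam 𝒪 N ⧸ Jideal 𝒟 F κ) := isAdicComplete_quotient_mvPowerSeries (Jideal 𝒟 F κ)
  have hloc : IsLocalHom (algebraMap 𝒪 (Lam 𝒪 N ⧸ Jideal 𝒟 F κ)) :=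
    isLocalHom_algebraMap_quotient_mvPowerSeries _
  have hsurj : Function.Surjective (IsLocalRing.residue (Lam 𝒪 N ⧸ Jideal 𝒟 F κ) ∘
      algebraMap 𝒪 (Lam 𝒪 N ⧸ Jideal 𝒟 F κ)) := residue_surjective_quotient_mvPowerSeries _
  have hnorm : IsNormLift F (univRep hG) := univRep_isNormLift hS hG
  have hker : RingHom.ker ((Ideal.Quotient.mkₐ 𝒪 (Jideal 𝒟 F κ) :
      Lam 𝒪 N →ₐ[𝒪] Lam 𝒪 N ⧸ Jideal 𝒟 F κ) : Lam 𝒪 N →+* Lam 𝒪 N ⧸ Jideal 𝒟 F κ) =
      Jideal 𝒟 F κ := by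
    ext x
    rw [RingHom.mem_ker]
    exact Ideal.Quotient.eq_zero_iff_mem
  exact ⟨
    { R := Lam 𝒪 N ⧸ Jideal 𝒟 F κ
      instCommRing := inferInstance
      instIsLocalRing := hlocR
      instIsNoetherianRing := inferInstance
      instIsAdicComplete := hcomp
      instAlgebra := inferInstance
      instIsLocalHom := hloc
      residue_surjective := hsurj
      absIrr := habs
      ρ := ofMat (univRep hG) hnorm.cont
      isOfType := univRep_type h𝒟 hS hmap hG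
      residual_isEquiv := univRep_residual hS hG hloc
      universal := fun A _ _ _ _ _ _ hsurjA ρA hDA hres =>
        K7.universal h𝒟 F κ G hG (Ideal.Quotient.mkₐ 𝒪 (Jideal 𝒟 F κ))
          (Ideal.Quotient.mkₐ_surjective 𝒪 (Jideal 𝒟 F κ)) hker (univRep hG)
          (fun g i j => rfl) hnorm A hsurjA ρA hDA hres }⟩

end Fermat.Agent.S53
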