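import Fermat.Agent.S53.EvalHom

/-!
# Local-hom property and surjectivity of evaluation homomorphisms (helper for S53)
-/

set_option autoImplicit false

namespace Fermat.Agent.S53

open MvPowerSeries IsLocalRing

section Surj

variable {𝒪 : Type*} [CommRing 𝒪] {A : Type*} [CommRing A] [Algebra 𝒪 A] [IsLocalRing A]

/-- Approximation step: if a subalgebra `S` of a local ring `A` surjects onto the residue field
and contains a set `G ⊆ 𝔪` of generators of the maximal ideal, then every element of `𝔪 ^ k` is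
congruent modulo `𝔪 ^ (k + 1)` to an element of `S`. -/
lemma exists_mem_sub_mem_pow_succ (S : Subalgebra 𝒪 A)
    (hres : ∀ x : A, ∃ s ∈ S, x - s ∈ maximalIdeal A)
    (G : Set A) (hGS : G ⊆ S) (hG : Ideal.span G = maximalIdeal A) (k : ℕ) :
    ∀ x ∈ maximalIdeal A ^ k, ∃ s ∈ S, x - s ∈ maximalIdeal A ^ (k + 1) := by
  induction k with
  | zero =>
    intro x _
    obtain ⟨s, hs, hxs⟩ := hres x
    exact ⟨s, hs, by simpa using hxs⟩
  | succ k ih =>
    intro x hx
    have hx' : x ∈ Ideal.span G * maximalIdeal A ^ k := by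
      rw [hG, ← pow_succ']; exact hx
    have hGm : ∀ g ∈ G, g ∈ maximalIdeal A := fun g hg => hG ▸ Ideal.subset_span hg
    -- closure property
    have hadd : ∀ x y : A, (∃ s ∈ S, x - s ∈ maximalIdeal A ^ (k + 1 + 1)) →
        (∃ s ∈ S, y - s ∈ maximalIdeal A ^ (k + 1 + 1)) →
        ∃ s ∈ S, (x + y) - s ∈ maximalIdeal A ^ (k + 1 + 1) := by
      rintro x y ⟨s, hs, hxs⟩ ⟨t, ht, hyt⟩
      refine ⟨s + t, S.add_mem hs ht, ?_⟩
      have : x + y - (s + t) = (x - s) + (y - t) := by ring
      rw [this]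
      exact Ideal.add_mem _ hxs hyt
    have key : ∀ i ∈ Ideal.span G, ∀ j ∈ maximalIdeal A ^ k,
        ∃ s ∈ S, i * j - s ∈ maximalIdeal A ^ (k + 1 + 1) := by
      intro i hi
      induction hi using Submodule.span_induction with
      | mem g hg =>
        intro j hj
        obtain ⟨s, hs, hjs⟩ := ih j hj
        refine ⟨g * s, S.mul_mem (hGS hg) hs, ?_⟩
        have : g * j - g * s = g * (j - s) := by ring
        rw [this, pow_succ' _ (k + 1)]
        exact Ideal.mul_mem_mul (hGm g hg) hjs
      | zero =>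
        intro j _
        exact ⟨0, S.zero_mem, by simp⟩
      | add i₁ i₂ _ _ h₁ h₂ =>
        intro j hj
        rw [add_mul]
        exact hadd _ _ (h₁ j hj) (h₂ j hj)
      | smul c i₁ _ h₁ =>
        intro j hj
        have : c • i₁ * j = i₁ * (c * j) := by rw [smul_eq_mul]; ring
        rw [this]
        exact h₁ (c * j) (Ideal.mul_mem_left _ c hj)
    refine Submodule.mul_induction_on hx' (fun i hi j hj => key i hi j hj) hadd

/-- If a subalgebra `S` of a local ring `A` with nilpotent maximal ideal surjects onto the residue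
field and contains a generating set of the maximal ideal, then `S = ⊤`. -/
lemma subalgebra_eq_top_of_nilpotent (S : Subalgebra 𝒪 A)
    (hres : ∀ x : A, ∃ s ∈ S, x - s ∈ maximalIdeal A)
    (G : Set A) (hGS : G ⊆ S) (hG : Ideal.span G = maximalIdeal A)
    (hnil : ∃ n : ℕ, maximalIdeal A ^ n = ⊥) : S = ⊤ := by
  obtain ⟨n, hn⟩ := hnil
  have step := exists_mem_sub_mem_pow_succ S hres G hGS hG
  -- downward induction
  have down : ∀ d k : ℕ, k + d = n → ∀ x ∈ maximalIdeal A ^ k, x ∈ S := by
    intro d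
    induction d with
    | zero =>
      intro k hk x hx
      have hk' : k = n := by omega
      rw [hk', hn, Ideal.mem_bot] at hx
      rw [hx]
      exact S.zero_mem
    | succ d ihd =>
      intro k hk x hx
      obtain ⟨s, hs, hxs⟩ := step k x hx
      have := ihd (k + 1) (by omega) _ hxs
      have hx' : x = (x - s) + s := by ring
      rw [hx']
      exact S.add_mem this hs
  rw [eq_top_iff]
  intro x _
  exact down n 0 (by omega) x (by simp)


variable {σ : Type*} [Finite σ]

/-- Surjectivity of the evaluation homomorphism onto a local ring with nilpotent maximal ideal: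
it suffices that the residue field is hit by `𝒪` and that the maximal ideal is generated by the
`a i` together with elements coming from `𝒪`. -/
theorem evalHom_surjective_of_span_eq [IsAdicComplete (maximalIdeal A) A]
    (hres : Function.Surjective (IsLocalRing.residue A ∘ algebraMap 𝒪 A))
    (a : σ → A) (ha : ∀ i, a i ∈ maximalIdeal A)
    (hgen : maximalIdeal A ≤ Ideal.span (Set.range a ∪
      (algebraMap 𝒪 A) '' {c | algebraMap 𝒪 A c ∈ maximalIdeal A}))
    (hnil : ∃ n : ℕ, maximalIdeal A ^ n = ⊥) :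
    Function.Surjective (evalHom (𝒪 := 𝒪) (maximalIdeal A) a ha) := by
  set φ := evalHom (𝒪 := 𝒪) (maximalIdeal A) a ha with hφ
  have htop : φ.range = ⊤ := by
    refine subalgebra_eq_top_of_nilpotent φ.range ?_
      (Set.range a ∪ (algebraMap 𝒪 A) '' {c | algebraMap 𝒪 A c ∈ maximalIdeal A}) ?_ ?_ hnil
    · intro x
      obtain ⟨c, hc⟩ := hres (IsLocalRing.residue A x)
      refine ⟨algebraMap 𝒪 A c, Subalgebra.algebraMap_mem _ c, ?_⟩
      rw [← Ideal.Quotient.eq]
      exact hc.symm
    · rintro g (⟨i, rfl⟩ | ⟨c, -, rfl⟩)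
      · exact ⟨MvPowerSeries.X i, evalHom_X _ a ha i⟩
      · exact Subalgebra.algebraMap_mem _ c
    · refine le_antisymm ?_ hgen
      rw [Ideal.span_le]
      rintro g (⟨i, rfl⟩ | ⟨c, hc, rfl⟩)
      · exact ha i
      · exact hc
  intro x
  have hx : x ∈ φ.range := htop ▸ Algebra.mem_top
  exact hx

/-- Nakayama form of the surjectivity criterion: it suffices that the `a i` and the image of the
maximal ideal of `𝒪` generate the maximal ideal of `A` modulo its square. -/
theorem evalHom_surjective [IsLocalRing 𝒪] [IsLocalHom (algebraMap 𝒪 A)] [IsArtinianRing A]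
    (hres : Function.Surjective (IsLocalRing.residue A ∘ algebraMap 𝒪 A))
    (a : σ → A) (ha : ∀ i, a i ∈ maximalIdeal A)
    (hgen : maximalIdeal A ≤ Ideal.span (Set.range a) ⊔
      (maximalIdeal 𝒪).map (algebraMap 𝒪 A) ⊔ maximalIdeal A ^ 2) :
    Function.Surjective (evalHom (𝒪 := 𝒪) (maximalIdeal A) a ha) := by
  have hmap : (maximalIdeal 𝒪).map (algebraMap 𝒪 A) ≤ maximalIdeal A :=
    Ideal.map_le_iff_le_comap.mpr fun c hc =>
      Ideal.mem_comap.mpr (map_nonunit (algebraMap 𝒪 A) c hc)
  have hnak : maximalIdeal A ≤ Ideal.span (Set.range a) ⊔ (maximalIdeal 𝒪).map (algebraMap 𝒪 A) := by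
    refine Submodule.le_of_le_smul_of_le_jacobson_bot (IsNoetherian.noetherian _)
      (IsLocalRing.maximalIdeal_le_jacobson ⊥) ?_
    rw [smul_eq_mul, ← sq]
    exact hgen
  have hnil : ∃ n : ℕ, maximalIdeal A ^ n = ⊥ := by
    obtain ⟨n, hn⟩ := (isArtinianRing_iff_isNilpotent_maximalIdeal A).mp ‹IsArtinianRing A›
    exact ⟨n, by rw [hn, Ideal.zero_eq_bot]⟩
  refine evalHom_surjective_of_span_eq hres a ha ?_ hnil
  refine hnak.trans (sup_le ?_ ?_)
  · exact Ideal.span_mono Set.subset_union_left
  · rw [Ideal.map, Ideal.span_le]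
    rintro _ ⟨c, hc, rfl⟩
    refine Ideal.subset_span (Or.inr ⟨c, ?_, rfl⟩)
    exact hmap (Ideal.mem_map_of_mem _ hc)

/-- The evaluation homomorphism is a local homomorphism. -/
theorem isLocalHom_evalHom [IsLocalRing 𝒪] [IsLocalHom (algebraMap 𝒪 A)]
    [IsAdicComplete (maximalIdeal A) A] (a : σ → A) (ha : ∀ i, a i ∈ maximalIdeal A) :
    IsLocalHom (evalHom (𝒪 := 𝒪) (maximalIdeal A) a ha : MvPowerSeries σ 𝒪 →+* A) := by
  classical
  constructor
  intro f hf
  rw [MvPowerSeries.isUnit_iff_constantCoeff]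
  have h1 := sub_truncTotal_mem_pow f 1
  have h2 : ((truncTotal 1 f : MvPolynomial σ 𝒪) : MvPowerSeries σ 𝒪) =
      MvPowerSeries.C (MvPowerSeries.constantCoeff f) := by
    ext x
    rw [MvPolynomial.coeff_coe, coeff_truncTotal_eq_ite, MvPowerSeries.coeff_C]
    by_cases hx : x = 0
    · subst hx; simp
    · have : ¬ Finsupp.degree x < 1 := by
        intro h
        apply hx
        have h0 : Finsupp.degree x = 0 := by omega
        exact (Finsupp.degree_eq_zero_iff x).mp h0
      simp [hx, this]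
  rw [h2] at h1
  have h3 := map_mem_pow_of_mem_span_X_pow (maximalIdeal A)
    (evalHom (𝒪 := 𝒪) (maximalIdeal A) a ha) (fun i => by rw [evalHom_X]; exact ha i) 1 _ h1
  rw [pow_one, map_sub] at h3
  have h4 : evalHom (𝒪 := 𝒪) (maximalIdeal A) a ha (MvPowerSeries.C (MvPowerSeries.constantCoeff f))
      = algebraMap 𝒪 A (MvPowerSeries.constantCoeff f) := by
    rw [MvPowerSeries.c_eq_algebraMap]
    exact AlgHom.commutes _ _
  rw [h4] at h3
  have h5 : IsUnit (algebraMap 𝒪 A (MvPowerSeries.constantCoeff f)) := by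
    by_contra hnu
    have hm : algebraMap 𝒪 A (MvPowerSeries.constantCoeff f) ∈ maximalIdeal A :=
      (IsLocalRing.mem_maximalIdeal _).mpr hnu
    have := Ideal.add_mem _ h3 hm
    rw [sub_add_cancel] at this
    exact ((IsLocalRing.mem_maximalIdeal _).mp this) hf
  exact isUnit_of_map_unit (algebraMap 𝒪 A) _ h5

end Surj

end Fermat.Agent.S53
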