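import Fermat.Agent.S53.AdmSup
import Fermat.Agent.S53.ProdLift
import Fermat.Agent.S53.TrivLift
import Fermat.Agent.S53.EntriesRangeFinal
import Fermat.Agent.S53.EvalSurj

/-!
# S53, package K4 (first half): the lattice of admissible ideals

* `adm_maximalIdeal`: the maximal ideal of `Λ = Lam 𝒪 N` is admissible (trivial lift, K3d);
* `Adm.inf`: admissible ideals are closed under binary intersection (product lift, K3a);
* `Adm.entries_compat`: compatibility of entries (K3a + K2), in the packaged form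
  `EntriesCompat 𝒟 F κ` consumed by `CoreLemma.lean`;
* namespace `K4`: the hypothesis-free forms `K4.entriesRange`, `K4.admAxioms`,
  `K4.exists_univEntries`, `K4.adm_jideal_sup_pow`, `K4.jideal_le_maximalIdeal`,
  `K4.jideal_ne_top` obtained by plugging K2, K3a, K3d and `AdmSup.lean` into `CoreLemma.lean`.
-/

set_option autoImplicit false

noncomputable section

namespace Fermat.Agent.S53

open IsLocalRing GaloisRep

section Nilpotent

/-- A ring is adically complete with respect to a nilpotent ideal. -/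
theorem isAdicComplete_of_pow_eq_bot {A : Type*} [CommRing A] (I : Ideal A) {n : ℕ}
    (h : I ^ n = ⊥) : IsAdicComplete I A where
  haus' x hx := by
    have := hx n
    rw [h, Submodule.bot_smul, SModEq.bot] at this
    exact this
  prec' f hf := by
    refine ⟨f n, fun m => ?_⟩
    rcases le_total m n with hmn | hnm
    · exact hf hmn
    · have := hf hnm
      rw [h, Submodule.bot_smul, SModEq.bot] at this
      rw [this]

/-- An Artinian local ring is complete for its maximal ideal. -/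
theorem isAdicComplete_of_isArtinianRing (A : Type*) [CommRing A] [IsLocalRing A]
    [IsArtinianRing A] : IsAdicComplete (maximalIdeal A) A := by
  obtain ⟨n, hn⟩ := (isArtinianRing_iff_isNilpotent_maximalIdeal A).mp inferInstance
  exact isAdicComplete_of_pow_eq_bot _ (by rw [hn, Ideal.zero_eq_bot])

end Nilpotent

variable {𝒪 : Type} [CommRing 𝒪] [IsLocalRing 𝒪] {ρbar : ResidualGaloisRep (ResidueField 𝒪)}
  {𝒟 : ∀ ⦃A : Type⦄ [CommRing A] [IsLocalRing A] [Algebra 𝒪 A], GaloisRepAdic A → Prop}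
  {F : Frame 𝒪 ρbar} {N : ℕ} {κ : Coords N}

section TestLift

variable {A : Type} [CommRing A] [IsLocalRing A] [Algebra 𝒪 A] {r : Gal →* M2 A}

theorem IsTestLift.isAdicComplete (hr : IsTestLift 𝒟 F r) :
    IsAdicComplete (maximalIdeal A) A :=
  haveI := hr.test.isArtinian
  isAdicComplete_of_isArtinianRing A

/-- The coordinate homomorphism of a test lift. -/
def IsTestLift.coordHom (hr : IsTestLift 𝒟 F r) (κ : Coords N) : Lam 𝒪 N →ₐ[𝒪] A :=
  haveI := hr.isAdicComplete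
  evalHom (maximalIdeal A) (coord F κ r) (coord_mem_maximalIdeal hr.norm)

@[simp] theorem IsTestLift.coordHom_X (hr : IsTestLift 𝒟 F r) (κ : Coords N) (l : Fin N) :
    hr.coordHom κ (MvPowerSeries.X l) = coord F κ r l := by
  have := hr.isAdicComplete
  exact evalHom_X _ _ _ _

/-- Any algebra homomorphism with the right values on the variables is the coordinate
homomorphism. -/
theorem IsTestLift.eq_coordHom (hr : IsTestLift 𝒟 F r) {φ : Lam 𝒪 N →ₐ[𝒪] A}
    (hφ : ∀ l, φ (MvPowerSeries.X l) = coord F κ r l) : φ = hr.coordHom κ := by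
  have := hr.isAdicComplete
  exact eq_evalHom _ _ _ _ hφ

/-- Every test lift has an admissible ideal: the kernel of its coordinate homomorphism. -/
theorem IsTestLift.adm_ker_coordHom (hr : IsTestLift 𝒟 F r) (κ : Coords N) :
    Adm 𝒟 F κ (RingHom.ker (hr.coordHom κ : Lam 𝒪 N →+* A)) :=
  ⟨A, _, _, _, r, hr.coordHom κ, hr, hr.coordHom_X κ, rfl⟩

end TestLift

/-- **K4.** The maximal ideal of `Λ` is admissible (trivial lift over the residue field). -/
theorem adm_maximalIdeal (h𝒟 : IsDeformationCondition 𝒪 𝒟) (F : Frame 𝒪 ρbar) {N : ℕ}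
    (κ : Coords N) (hbar : 𝒟 (GaloisRepAdic.ofResidualGaloisRep ρbar)) :
    Adm 𝒟 F κ (maximalIdeal (Lam 𝒪 N)) := by
  obtain ⟨r, hr⟩ := exists_testLift_residue h𝒟 F hbar
  refine ⟨ResidueField 𝒪, _, _, _, r, hr.coordHom κ, hr, hr.coordHom_X κ, ?_⟩
  refine le_antisymm (IsLocalRing.le_maximalIdeal (RingHom.ker_ne_top _)) fun f hf => ?_
  have h := map_mem_maximalIdeal_of_X_mem hr.test.isLocalHom (hr.coordHom κ)
    (coordMap_X_mem hr (hr.coordHom κ) (hr.coordHom_X κ)) hf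
  rw [IsLocalRing.maximalIdeal_eq_bot] at h
  exact h

/-- The two projections of a product lift compose with its coordinate homomorphism to the
coordinate homomorphisms of the factors. -/
theorem comp_coordHom_eq
    {A : Type} [CommRing A] [IsLocalRing A] [Algebra 𝒪 A] {r : Gal →* M2 A}
    (hr : IsTestLift 𝒟 F r) {φ : Lam 𝒪 N →ₐ[𝒪] A}
    (hφ : ∀ l, φ (MvPowerSeries.X l) = coord F κ r l)
    {P : Type} [CommRing P] [IsLocalRing P] [Algebra 𝒪 P] {rP : Gal →* M2 P}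
    (hrP : IsTestLift 𝒟 F rP) (p : P →ₐ[𝒪] A) (hp : mapMat (p : P →+* A) rP = r) :
    p.comp (hrP.coordHom κ) = φ := by
  rw [hr.eq_coordHom hφ]
  refine hr.eq_coordHom fun l => ?_
  rw [AlgHom.comp_apply, hrP.coordHom_X, ← coord_map, hp]

/-- **K4.** Admissible ideals are closed under binary intersection. -/
theorem Adm.inf (h𝒟 : IsDeformationCondition 𝒪 𝒟) {𝔞 𝔟 : Ideal (Lam 𝒪 N)}
    (ha : Adm 𝒟 F κ 𝔞) (hb : Adm 𝒟 F κ 𝔟) : Adm 𝒟 F κ (𝔞 ⊓ 𝔟) := by
  obtain ⟨A, _, _, _, r, φ, hr, hφ, rfl⟩ := ha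
  obtain ⟨A', _, _, _, r', φ', hr', hφ', rfl⟩ := hb
  obtain ⟨P, _, _, _, rP, p, p', hrP, hp, hp', hinj⟩ := exists_testLift_prod h𝒟 F hr hr'
  have e1 : p.comp (hrP.coordHom κ) = φ := comp_coordHom_eq hr hφ hrP p hp
  have e2 : p'.comp (hrP.coordHom κ) = φ' := comp_coordHom_eq hr' hφ' hrP p' hp'
  refine ⟨P, _, _, _, rP, hrP.coordHom κ, hrP, hrP.coordHom_X κ, ?_⟩
  ext f
  simp only [RingHom.mem_ker, Ideal.mem_inf, AlgHom.coe_toRingHom]
  constructor
  · intro h
    refine ⟨?_, ?_⟩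
    · rw [← e1, AlgHom.comp_apply, h, map_zero]
    · rw [← e2, AlgHom.comp_apply, h, map_zero]
  · rintro ⟨h1, h2⟩
    refine hinj _ ?_ ?_
    · rw [← AlgHom.comp_apply, e1, h1]
    · rw [← AlgHom.comp_apply, e2, h2]

/-- **K4.** Compatibility of entries: a family of power series computing the entries of a test
lift also computes the entries of any test lift whose coordinate map has a bigger kernel. -/
theorem Adm.entries_compat (h𝒟 : IsDeformationCondition 𝒪 𝒟)
    (hrange : EntriesRange 𝒟 F κ) : EntriesCompat 𝒟 F κ := by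
  intro A _ _ _ r φ A' _ _ _ r' φ' hr hφ hr' hφ' hker f hf g i j
  obtain ⟨P, _, _, _, rP, p, p', hrP, hp, hp', -⟩ := exists_testLift_prod h𝒟 F hr hr'
  have e1 : p.comp (hrP.coordHom κ) = φ := comp_coordHom_eq hr hφ hrP p hp
  have e2 : p'.comp (hrP.coordHom κ) = φ' := comp_coordHom_eq hr' hφ' hrP p' hp'
  obtain ⟨fP, hfP'⟩ := hrange P rP (hrP.coordHom κ) hrP (hrP.coordHom_X κ) g i j
  have hfP : hrP.coordHom κ fP = rP g i j := hfP'
  have h1 : φ fP = r g i j := by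
    rw [← e1, AlgHom.comp_apply, hfP, ← hp]
    rfl
  have h2 : φ' fP = r' g i j := by
    rw [← e2, AlgHom.comp_apply, hfP, ← hp']
    rfl
  have h3 : f g i j - fP ∈ RingHom.ker (φ' : Lam 𝒪 N →+* A') := by
    apply hker
    rw [RingHom.mem_ker, map_sub, sub_eq_zero]
    exact (hf g i j).trans h1.symm
  rw [RingHom.mem_ker, map_sub, sub_eq_zero] at h3
  exact h3.trans h2

/-! ### Hypothesis-free forms -/

namespace K4

/-- The ideal `J` is contained in the maximal ideal. -/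
theorem jideal_le_maximalIdeal (h𝒟 : IsDeformationCondition 𝒪 𝒟) (F : Frame 𝒪 ρbar) {N : ℕ}
    (κ : Coords N) (hbar : 𝒟 (GaloisRepAdic.ofResidualGaloisRep ρbar)) :
    Jideal 𝒟 F κ ≤ maximalIdeal (Lam 𝒪 N) :=
  sInf_le (adm_maximalIdeal h𝒟 F κ hbar)

/-- The ideal `J` is proper. -/
theorem jideal_ne_top (h𝒟 : IsDeformationCondition 𝒪 𝒟) (F : Frame 𝒪 ρbar) {N : ℕ}
    (κ : Coords N) (hbar : 𝒟 (GaloisRepAdic.ofResidualGaloisRep ρbar)) :
    Jideal 𝒟 F κ ≠ ⊤ := by
  intro htop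
  have h1 := jideal_le_maximalIdeal h𝒟 F κ hbar
  rw [htop] at h1
  exact (IsLocalRing.maximalIdeal.isMaximal _).ne_top (top_le_iff.mp h1)

section Final

variable [Finite (ResidueField 𝒪)]

/-- K2 in the packaged form `EntriesRange`. -/
theorem entriesRange (h𝒟 : IsDeformationCondition 𝒪 𝒟) (F : Frame 𝒪 ρbar) {N : ℕ}
    (κ : Coords N) (hκ : κ.Separating 𝒟 F) : EntriesRange 𝒟 F κ :=
  fun _ _ _ _ _ φ hr hφ => entries_mem_range h𝒟 F κ hκ hr φ hφ

/-- K4 in the packaged form `EntriesCompat`. -/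
theorem entriesCompat (h𝒟 : IsDeformationCondition 𝒪 𝒟) (F : Frame 𝒪 ρbar) {N : ℕ}
    (κ : Coords N) (hκ : κ.Separating 𝒟 F) : EntriesCompat 𝒟 F κ :=
  Adm.entries_compat h𝒟 (entriesRange h𝒟 F κ hκ)

variable [IsNoetherianRing 𝒪]

/-- The lattice axioms for the admissible ideals. -/
theorem admAxioms (h𝒟 : IsDeformationCondition 𝒪 𝒟) (F : Frame 𝒪 ρbar) {N : ℕ}
    (κ : Coords N) (hκ : κ.Separating 𝒟 F)
    (hbar : 𝒟 (GaloisRepAdic.ofResidualGaloisRep ρbar)) :
    Core.AdmAxioms (maximalIdeal (Lam 𝒪 N)) (Adm 𝒟 F κ) :=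
  Fermat.Agent.S53.admAxioms h𝒟 (entriesRange h𝒟 F κ hκ) (adm_maximalIdeal h𝒟 F κ hbar)
    (fun _ _ ha hb => Adm.inf h𝒟 ha hb)

variable [IsPrecomplete (maximalIdeal 𝒪) 𝒪]

/-- **Core lemma (K5), hypothesis-free**: universal matrix entries exist. -/
theorem exists_univEntries (h𝒟 : IsDeformationCondition 𝒪 𝒟) (F : Frame 𝒪 ρbar) {N : ℕ}
    (κ : Coords N) (hκ : κ.Separating 𝒟 F)
    (hbar : 𝒟 (GaloisRepAdic.ofResidualGaloisRep ρbar)) :
    ∃ G : Gal → M2 (Lam 𝒪 N), IsUnivEntries 𝒟 F κ G :=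
  haveI : IsPrecomplete (maximalIdeal (Lam 𝒪 N)) (Lam 𝒪 N) := isPrecomplete_mvPowerSeries
  exists_univEntries_of (admAxioms h𝒟 F κ hκ hbar) (entriesRange h𝒟 F κ hκ)
    (entriesCompat h𝒟 F κ hκ)

/-- Chevalley: `J ⊔ 𝔪 ^ n` is admissible for `n ≥ 1`. -/
theorem adm_jideal_sup_pow (h𝒟 : IsDeformationCondition 𝒪 𝒟) (F : Frame 𝒪 ρbar) {N : ℕ}
    (κ : Coords N) (hκ : κ.Separating 𝒟 F)
    (hbar : 𝒟 (GaloisRepAdic.ofResidualGaloisRep ρbar)) {n : ℕ} (hn : 1 ≤ n) :
    Adm 𝒟 F κ (Jideal 𝒟 F κ ⊔ maximalIdeal (Lam 𝒪 N) ^ n) :=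
  haveI : IsPrecomplete (maximalIdeal (Lam 𝒪 N)) (Lam 𝒪 N) := isPrecomplete_mvPowerSeries
  adm_jideal_sup_pow_of (admAxioms h𝒟 F κ hκ hbar) hn

end Final

end K4

end Fermat.Agent.S53
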