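import Fermat.Agent.S53.Approx

/-!
# S53: abstract lattice argument for the chain of least admissible ideals

`P` is a predicate on ideals of `Λ` ("admissible") and `m` an ideal. Under the axioms
`AdmAxioms m P` we build the chain `chain n` of least admissible ideals containing `m ^ n`
and prove `⨅ n, chain n = sInf {𝔞 | P 𝔞}` and `P (sInf {𝔞 | P 𝔞} ⊔ m ^ n)` for `n ≥ 1`.
-/

set_option autoImplicit false

namespace Fermat.Agent.S53.Core

variable {Λ : Type*} [CommRing Λ]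

/-- The abstract properties of the family of admissible ideals. -/
structure AdmAxioms (m : Ideal Λ) (P : Ideal Λ → Prop) : Prop where
  least : ∀ n : ℕ, 1 ≤ n → ∃ 𝔞 : Ideal Λ, P 𝔞 ∧ m ^ n ≤ 𝔞 ∧ ∀ 𝔟 : Ideal Λ, P 𝔟 → m ^ n ≤ 𝔟 → 𝔞 ≤ 𝔟
  sup_pow : ∀ (𝔞 : Ideal Λ) (n : ℕ), P 𝔞 → 1 ≤ n → P (𝔞 ⊔ m ^ n)
  exists_pow_le : ∀ 𝔞 : Ideal Λ, P 𝔞 → ∃ n : ℕ, 1 ≤ n ∧ m ^ n ≤ 𝔞
  le_max : ∀ 𝔞 : Ideal Λ, P 𝔞 → 𝔞 ≤ m

variable {m : Ideal Λ} {P : Ideal Λ → Prop}

open Classical in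
/-- The chain of least admissible ideals: `chain h 0 = ⊤`, and for `n ≥ 1`, `chain h n` is the
least admissible ideal containing `m ^ n`. -/
noncomputable def chain (h : AdmAxioms m P) (n : ℕ) : Ideal Λ :=
  if hn : 1 ≤ n then (h.least n hn).choose else ⊤

theorem chain_zero (h : AdmAxioms m P) : chain h 0 = ⊤ := by
  simp [chain]

theorem chain_of_not (h : AdmAxioms m P) {n : ℕ} (hn : ¬ 1 ≤ n) : chain h n = ⊤ := by
  rw [chain, dif_neg hn]

theorem chain_adm (h : AdmAxioms m P) {n : ℕ} (hn : 1 ≤ n) : P (chain h n) := by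
  rw [chain, dif_pos hn]
  exact (h.least n hn).choose_spec.1

theorem pow_le_chain (h : AdmAxioms m P) (n : ℕ) : m ^ n ≤ chain h n := by
  by_cases hn : 1 ≤ n
  · rw [chain, dif_pos hn]
    exact (h.least n hn).choose_spec.2.1
  · rw [chain_of_not h hn]
    exact le_top

theorem chain_le (h : AdmAxioms m P) {n : ℕ} (hn : 1 ≤ n) {𝔟 : Ideal Λ} (h𝔟 : P 𝔟)
    (hle : m ^ n ≤ 𝔟) : chain h n ≤ 𝔟 := by
  rw [chain, dif_pos hn]
  exact (h.least n hn).choose_spec.2.2 𝔟 h𝔟 hle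

theorem chain_anti (h : AdmAxioms m P) (n : ℕ) : chain h (n + 1) ≤ chain h n := by
  by_cases hn : 1 ≤ n
  · exact chain_le h (Nat.le_add_left 1 n) (chain_adm h hn)
      ((Ideal.pow_le_pow_right (Nat.le_succ n)).trans (pow_le_chain h n))
  · rw [chain_of_not h hn]
    exact le_top

theorem chain_step (h : AdmAxioms m P) (n : ℕ) : chain h n ≤ chain h (n + 1) ⊔ m ^ n := by
  by_cases hn : 1 ≤ n
  · exact chain_le h hn (h.sup_pow _ n (chain_adm h (Nat.le_add_left 1 n)) hn) le_sup_right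
  · have : n = 0 := by omega
    subst this
    simp

theorem iInf_chain (h : AdmAxioms m P) : ⨅ n, chain h n = sInf {𝔞 | P 𝔞} := by
  apply le_antisymm
  · refine le_sInf fun 𝔞 h𝔞 => ?_
    obtain ⟨n, hn, hle⟩ := h.exists_pow_le 𝔞 h𝔞
    exact (iInf_le _ n).trans (chain_le h hn h𝔞 hle)
  · refine le_iInf fun n => ?_
    by_cases hn : 1 ≤ n
    · exact sInf_le (chain_adm h hn)
    · rw [chain_of_not h hn]
      exact le_top

theorem chain_eq (h : AdmAxioms m P) [IsPrecomplete m Λ] (n : ℕ) :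
    chain h n = sInf {𝔞 | P 𝔞} ⊔ m ^ n := by
  rw [← iInf_chain h]
  exact Approx.eq_iInf_sup_pow m (chain h) (chain_anti h) (pow_le_chain h) (chain_step h) n

/-- For `n ≥ 1`, the ideal `sInf {𝔞 | P 𝔞} ⊔ m ^ n` is admissible. -/
theorem adm_sInf_sup_pow (h : AdmAxioms m P) [IsPrecomplete m Λ] {n : ℕ} (hn : 1 ≤ n) :
    P (sInf {𝔞 | P 𝔞} ⊔ m ^ n) := by
  rw [← chain_eq h n]
  exact chain_adm h hn

theorem sInf_le_max (h : AdmAxioms m P) : sInf {𝔞 | P 𝔞} ≤ m :=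
  (sInf_le (chain_adm h (le_refl 1))).trans (h.le_max _ (chain_adm h (le_refl 1)))

theorem sInf_ne_top (h : AdmAxioms m P) (hm : m ≠ ⊤) : sInf {𝔞 | P 𝔞} ≠ ⊤ := by
  intro htop
  exact hm (top_le_iff.mp (htop ▸ sInf_le_max h))

/-- Successive approximation along the chain. -/
theorem exists_lift_chain (h : AdmAxioms m P) [IsPrecomplete m Λ] (a : ℕ → Λ)
    (ha : ∀ n, 1 ≤ n → a (n + 1) - a n ∈ chain h n) :
    ∃ F : Λ, ∀ n, F - a n ∈ chain h n := by
  refine Approx.exists_lift_of_compatible m (chain h) (pow_le_chain h) (chain_step h) a ?_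
  intro n
  by_cases hn : 1 ≤ n
  · exact ha n hn
  · rw [chain_of_not h hn]
    exact Submodule.mem_top

end Fermat.Agent.S53.Core
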