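import Fermat.Agent.S53.TestDefs
import Fermat.Agent.S53.CoreLattice

/-!
# S53, package K5: the core lemma (universal matrix entries)

We work with the predicate `Adm 𝒟 F κ` on ideals of `Λ = Lam 𝒪 N`. The inputs from the other
packages (K2 `entries_mem_range`, K4 `Adm.entries_compat` and the lattice properties of
admissible ideals) enter as explicit hypotheses `EntriesRange`, `EntriesCompat` and
`Core.AdmAxioms`.
-/

set_option autoImplicit false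

noncomputable section

namespace Fermat.Agent.S53

open IsLocalRing GaloisRep

variable {𝒪 : Type} [CommRing 𝒪] [IsLocalRing 𝒪] {ρbar : ResidualGaloisRep (ResidueField 𝒪)}

/-- Statement of K2 (`entries_mem_range`): the entries of a test lift lie in the range of its
coordinate map. -/
def EntriesRange
    (𝒟 : ∀ ⦃A : Type⦄ [CommRing A] [IsLocalRing A] [Algebra 𝒪 A], GaloisRepAdic A → Prop)
    (F : Frame 𝒪 ρbar) {N : ℕ} (κ : Coords N) : Prop :=
  ∀ (A : Type) [CommRing A] [IsLocalRing A] [Algebra 𝒪 A] (r : Gal →* M2 A)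
    (φ : Lam 𝒪 N →ₐ[𝒪] A), IsTestLift 𝒟 F r → (∀ l, φ (MvPowerSeries.X l) = coord F κ r l) →
    ∀ g i j, r g i j ∈ φ.range

/-- Statement of K4 (`Adm.entries_compat`): power series computing the entries of a test lift
also compute the entries of every test lift whose coordinate map has a bigger kernel. -/
def EntriesCompat
    (𝒟 : ∀ ⦃A : Type⦄ [CommRing A] [IsLocalRing A] [Algebra 𝒪 A], GaloisRepAdic A → Prop)
    (F : Frame 𝒪 ρbar) {N : ℕ} (κ : Coords N) : Prop :=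
  ∀ (A : Type) [CommRing A] [IsLocalRing A] [Algebra 𝒪 A] (r : Gal →* M2 A)
    (φ : Lam 𝒪 N →ₐ[𝒪] A)
    (A' : Type) [CommRing A'] [IsLocalRing A'] [Algebra 𝒪 A'] (r' : Gal →* M2 A')
    (φ' : Lam 𝒪 N →ₐ[𝒪] A'),
    IsTestLift 𝒟 F r → (∀ l, φ (MvPowerSeries.X l) = coord F κ r l) →
    IsTestLift 𝒟 F r' → (∀ l, φ' (MvPowerSeries.X l) = coord F κ r' l) →
    RingHom.ker (φ : Lam 𝒪 N →+* A) ≤ RingHom.ker (φ' : Lam 𝒪 N →+* A') →
    ∀ f : Gal → M2 (Lam 𝒪 N), (∀ g i j, φ (f g i j) = r g i j) →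
      ∀ g i j, φ' (f g i j) = r' g i j

variable {𝒟 : ∀ ⦃A : Type⦄ [CommRing A] [IsLocalRing A] [Algebra 𝒪 A], GaloisRepAdic A → Prop}
  {F : Frame 𝒪 ρbar} {N : ℕ} {κ : Coords N}

/-- Level-`n` universal entries: power series computing the entries of every test lift whose
coordinate map kills the `n`-th ideal of the chain. -/
theorem exists_levelEntries
    (hadm : Core.AdmAxioms (maximalIdeal (Lam 𝒪 N)) (Adm 𝒟 F κ))
    (hrange : EntriesRange 𝒟 F κ) (hcompat : EntriesCompat 𝒟 F κ) {n : ℕ} (hn : 1 ≤ n) :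
    ∃ f : Gal → M2 (Lam 𝒪 N),
      ∀ (A : Type) [CommRing A] [IsLocalRing A] [Algebra 𝒪 A] (r : Gal →* M2 A)
        (φ : Lam 𝒪 N →ₐ[𝒪] A), IsTestLift 𝒟 F r →
        (∀ l, φ (MvPowerSeries.X l) = coord F κ r l) →
        Core.chain hadm n ≤ RingHom.ker (φ : Lam 𝒪 N →+* A) →
        ∀ g i j, φ (f g i j) = r g i j := by
  obtain ⟨A₀, i1, i2, i3, r₀, φ₀, hr₀, hφ₀, hker₀⟩ := Core.chain_adm hadm hn
  have hex : ∀ g i j, ∃ x : Lam 𝒪 N, φ₀ x = r₀ g i j := fun g i j =>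
    hrange A₀ r₀ φ₀ hr₀ hφ₀ g i j
  choose f hf using hex
  refine ⟨fun g => Matrix.of fun i j => f g i j, ?_⟩
  intro A _ _ _ r φ hr hφ hle g i j
  exact hcompat A₀ r₀ φ₀ A r φ hr₀ hφ₀ hr hφ (hker₀ ▸ hle)
    (fun g => Matrix.of fun i j => f g i j) (fun g i j => hf g i j) g i j

/-- **Core lemma (K5)**: universal matrix entries exist. -/
theorem exists_univEntries_of
    (hadm : Core.AdmAxioms (maximalIdeal (Lam 𝒪 N)) (Adm 𝒟 F κ))
    [IsPrecomplete (maximalIdeal (Lam 𝒪 N)) (Lam 𝒪 N)]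
    (hrange : EntriesRange 𝒟 F κ) (hcompat : EntriesCompat 𝒟 F κ) :
    ∃ G : Gal → M2 (Lam 𝒪 N), IsUnivEntries 𝒟 F κ G := by
  classical
  have hlev := fun (n : ℕ) (hn : 1 ≤ n) => exists_levelEntries hadm hrange hcompat hn
  choose f hf using hlev
  -- the approximating sequences
  let a : Gal → Fin 2 → Fin 2 → ℕ → Lam 𝒪 N := fun g i j n =>
    if hn : 1 ≤ n then f n hn g i j else 0
  have ha : ∀ g i j n, 1 ≤ n → a g i j (n + 1) - a g i j n ∈ Core.chain hadm n := by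
    intro g i j n hn
    have hn1 : 1 ≤ n + 1 := Nat.le_add_left 1 n
    simp only [a, dif_pos hn, dif_pos hn1]
    obtain ⟨A₀, i1, i2, i3, r₀, φ₀, hr₀, hφ₀, hker₀⟩ := Core.chain_adm hadm hn
    have h1 : φ₀ (f (n + 1) hn1 g i j) = r₀ g i j :=
      hf (n + 1) hn1 A₀ r₀ φ₀ hr₀ hφ₀ (hker₀ ▸ Core.chain_anti hadm n) g i j
    have h2 : φ₀ (f n hn g i j) = r₀ g i j :=
      hf n hn A₀ r₀ φ₀ hr₀ hφ₀ (hker₀ ▸ le_rfl) g i j
    rw [← hker₀, RingHom.mem_ker]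
    show φ₀ (f (n + 1) hn1 g i j - f n hn g i j) = 0
    rw [map_sub, h1, h2, sub_self]
  have hG : ∀ g i j, ∃ x : Lam 𝒪 N, ∀ n, x - a g i j n ∈ Core.chain hadm n := fun g i j =>
    Core.exists_lift_chain hadm (a g i j) (ha g i j)
  choose G hGspec using hG
  refine ⟨fun g => Matrix.of fun i j => G g i j, ?_⟩
  intro A _ _ _ r φ hr hφ g i j
  have hA : Adm 𝒟 F κ (RingHom.ker (φ : Lam 𝒪 N →+* A)) :=
    ⟨A, inferInstance, inferInstance, inferInstance, r, φ, hr, hφ, rfl⟩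
  obtain ⟨n, hn, hle⟩ := hadm.exists_pow_le _ hA
  have hchain : Core.chain hadm n ≤ RingHom.ker (φ : Lam 𝒪 N →+* A) :=
    Core.chain_le hadm hn hA hle
  have h1 : φ (f n hn g i j) = r g i j := hf n hn A r φ hr hφ hchain g i j
  have h2 := hchain (hGspec g i j n)
  simp only [a, dif_pos hn] at h2
  rw [RingHom.mem_ker] at h2
  have h3 : φ (G g i j - f n hn g i j) = 0 := h2
  rw [map_sub, sub_eq_zero] at h3
  show φ (G g i j) = r g i j
  rw [h3, h1]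

/-- For `n ≥ 1`, `J ⊔ 𝔪 ^ n` is admissible. -/
theorem adm_jideal_sup_pow_of
    (hadm : Core.AdmAxioms (maximalIdeal (Lam 𝒪 N)) (Adm 𝒟 F κ))
    [IsPrecomplete (maximalIdeal (Lam 𝒪 N)) (Lam 𝒪 N)] {n : ℕ} (hn : 1 ≤ n) :
    Adm 𝒟 F κ (Jideal 𝒟 F κ ⊔ maximalIdeal (Lam 𝒪 N) ^ n) :=
  Core.adm_sInf_sup_pow hadm hn

theorem jideal_le_maximalIdeal_of
    (hadm : Core.AdmAxioms (maximalIdeal (Lam 𝒪 N)) (Adm 𝒟 F κ)) :
    Jideal 𝒟 F κ ≤ maximalIdeal (Lam 𝒪 N) :=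
  Core.sInf_le_max hadm

theorem jideal_ne_top_of
    (hadm : Core.AdmAxioms (maximalIdeal (Lam 𝒪 N)) (Adm 𝒟 F κ)) :
    Jideal 𝒟 F κ ≠ ⊤ :=
  Core.sInf_ne_top hadm (Ideal.IsMaximal.ne_top inferInstance)

/-- The ideal `J` is the intersection of the chain of least admissible ideals. -/
theorem jideal_eq_iInf_chain
    (hadm : Core.AdmAxioms (maximalIdeal (Lam 𝒪 N)) (Adm 𝒟 F κ)) :
    Jideal 𝒟 F κ = ⨅ n, Core.chain hadm n :=
  (Core.iInf_chain hadm).symm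

/-- Every admissible ideal contains `J`. -/
theorem jideal_le_of_adm {𝔞 : Ideal (Lam 𝒪 N)} (h : Adm 𝒟 F κ 𝔞) : Jideal 𝒟 F κ ≤ 𝔞 :=
  sInf_le h

end Fermat.Agent.S53
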