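import Mathlib

/-!
# Evaluation homomorphisms out of power series rings (helper for S53)

For a commutative `𝒪`-algebra `A`, an ideal `I` of `A` with `A` being `I`-adically complete,
and a finite family `a : σ → A` with `a i ∈ I`, there is a unique `𝒪`-algebra homomorphism
`MvPowerSeries σ 𝒪 →ₐ[𝒪] A` with `X i ↦ a i`.
-/

set_option autoImplicit false

namespace Fermat.Agent.S53

open MvPowerSeries

section Existence

variable {𝒪 : Type*} [CommRing 𝒪] {σ : Type*}
  {A : Type*} [CommRing A] [Algebra 𝒪 A] (I : Ideal A)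

/-- `aeval a` maps the `k`-th power of the ideal of variables into `I ^ k`. -/
lemma idealOfVars_pow_le_comap_aeval (a : σ → A) (ha : ∀ i, a i ∈ I) (k : ℕ) :
    MvPolynomial.idealOfVars σ 𝒪 ^ k ≤
      (I ^ k).comap (MvPolynomial.aeval a : MvPolynomial σ 𝒪 →ₐ[𝒪] A) := by
  have h1 : MvPolynomial.idealOfVars σ 𝒪 ≤
      I.comap (MvPolynomial.aeval a : MvPolynomial σ 𝒪 →ₐ[𝒪] A) := by
    rw [MvPolynomial.idealOfVars, Ideal.span_le]
    rintro _ ⟨i, rfl⟩
    simpa using ha i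
  calc MvPolynomial.idealOfVars σ 𝒪 ^ k
      ≤ (I.comap (MvPolynomial.aeval a : MvPolynomial σ 𝒪 →ₐ[𝒪] A)) ^ k :=
        Ideal.pow_right_mono h1 k
    _ ≤ (I ^ k).comap (MvPolynomial.aeval a : MvPolynomial σ 𝒪 →ₐ[𝒪] A) :=
        Ideal.le_comap_pow _ k

variable [Finite σ]

/-- The level-`k` evaluation map `MvPowerSeries σ 𝒪 →ₐ[𝒪] A ⧸ I ^ k`. -/
noncomputable def evalLevel (a : σ → A) (ha : ∀ i, a i ∈ I) (k : ℕ) :
    MvPowerSeries σ 𝒪 →ₐ[𝒪] A ⧸ I ^ k :=
  (Ideal.quotientMapₐ (I ^ k) (MvPolynomial.aeval a : MvPolynomial σ 𝒪 →ₐ[𝒪] A)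
      (idealOfVars_pow_le_comap_aeval I a ha k)).comp
    ((truncTotalAlgHom σ 𝒪 k).restrictScalars 𝒪)

lemma evalLevel_apply (a : σ → A) (ha : ∀ i, a i ∈ I) (k : ℕ) (p : MvPowerSeries σ 𝒪) :
    evalLevel I a ha k p =
      Ideal.Quotient.mk (I ^ k) (MvPolynomial.aeval a (truncTotal k p)) := by
  simp [evalLevel]

lemma evalLevel_compat (a : σ → A) (ha : ∀ i, a i ∈ I) {m k : ℕ} (hle : m ≤ k) :
    (Ideal.Quotient.factorₐ 𝒪 (Ideal.pow_le_pow_right hle)).comp (evalLevel I a ha k) =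
      evalLevel (𝒪 := 𝒪) I a ha m := by
  ext p
  simp only [AlgHom.comp_apply, evalLevel_apply, Ideal.Quotient.factorₐ_apply_mk]
  rw [Ideal.Quotient.mk_eq_mk_iff_sub_mem, ← map_sub]
  exact idealOfVars_pow_le_comap_aeval I a ha m
    (truncTotal_sub_truncTotal_mem_pow_idealOfVars hle le_rfl p)

variable [IsAdicComplete I A]

/-- The evaluation homomorphism `MvPowerSeries σ 𝒪 →ₐ[𝒪] A`, `X i ↦ a i`. -/
noncomputable def evalHom (a : σ → A) (ha : ∀ i, a i ∈ I) : MvPowerSeries σ 𝒪 →ₐ[𝒪] A :=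
  IsAdicComplete.liftAlgHom I (evalLevel I a ha) (fun hle => evalLevel_compat I a ha hle)

lemma mk_evalHom (a : σ → A) (ha : ∀ i, a i ∈ I) (k : ℕ) (p : MvPowerSeries σ 𝒪) :
    Ideal.Quotient.mk (I ^ k) (evalHom I a ha p) =
      Ideal.Quotient.mk (I ^ k) (MvPolynomial.aeval a (truncTotal k p)) := by
  rw [evalHom, IsAdicComplete.mk_liftAlgHom, evalLevel_apply]


/-- The evaluation homomorphism agrees with `aeval` on polynomials. -/
lemma evalHom_coe (a : σ → A) (ha : ∀ i, a i ∈ I) (p : MvPolynomial σ 𝒪) :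
    evalHom I a ha (p : MvPowerSeries σ 𝒪) = MvPolynomial.aeval a p := by
  rw [← sub_eq_zero]
  apply IsHausdorff.haus (inferInstance : IsHausdorff I A)
  intro k
  rw [SModEq.zero, smul_eq_mul, Ideal.mul_top, ← Ideal.Quotient.eq, mk_evalHom]
  rw [Ideal.Quotient.eq, ← map_sub]
  refine idealOfVars_pow_le_comap_aeval I a ha k ?_
  rw [MvPolynomial.mem_pow_idealOfVars_iff']
  intro x hx
  rw [MvPolynomial.coeff_sub, coeff_truncTotal _ hx, MvPolynomial.coeff_coe, sub_self]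

@[simp]
lemma evalHom_X (a : σ → A) (ha : ∀ i, a i ∈ I) (i : σ) :
    evalHom (𝒪 := 𝒪) I a ha (MvPowerSeries.X i) = a i := by
  rw [← MvPolynomial.coe_X, evalHom_coe, MvPolynomial.aeval_X]

end Existence

section Uniqueness

variable {𝒪 : Type*} [CommRing 𝒪] {σ : Type*} [Finite σ]
  {A : Type*} [CommRing A] [Algebra 𝒪 A] (I : Ideal A)

omit [Finite σ] in
lemma coe_mem_pow_of_mem (k : ℕ) (j : MvPolynomial σ 𝒪)
    (hj : j ∈ MvPolynomial.idealOfVars σ 𝒪 ^ k) :
    (j : MvPowerSeries σ 𝒪) ∈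
      (Ideal.span (Set.range (MvPowerSeries.X : σ → MvPowerSeries σ 𝒪))) ^ k := by
  have h1 : Ideal.map (MvPolynomial.coeToMvPowerSeries.ringHom (R := 𝒪) (σ := σ))
      (MvPolynomial.idealOfVars σ 𝒪) =
      Ideal.span (Set.range (MvPowerSeries.X : σ → MvPowerSeries σ 𝒪)) := by
    rw [MvPolynomial.idealOfVars, Ideal.map_span, ← Set.range_comp]
    congr 2
    ext i : 1
    simp
  have h2 := Ideal.mem_map_of_mem (MvPolynomial.coeToMvPowerSeries.ringHom (R := 𝒪) (σ := σ)) hj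
  rw [Ideal.map_pow, h1] at h2
  exact h2

/-- A power series minus its truncation in total degree `< k` lies in the `k`-th power of the
ideal generated by the variables. -/
lemma sub_truncTotal_mem_pow (p : MvPowerSeries σ 𝒪) (k : ℕ) :
    p - ((truncTotal k p : MvPolynomial σ 𝒪) : MvPowerSeries σ 𝒪) ∈
      (Ideal.span (Set.range (MvPowerSeries.X : σ → MvPowerSeries σ 𝒪))) ^ k := by
  set d := p - ((truncTotal k p : MvPolynomial σ 𝒪) : MvPowerSeries σ 𝒪) with hd
  have hker : toAdicCompletionAlgEquiv σ 𝒪 d ∈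
      (AdicCompletion.eval (MvPolynomial.idealOfVars σ 𝒪) (MvPolynomial σ 𝒪) k).ker := by
    rw [LinearMap.mem_ker, AdicCompletion.eval_apply, hd, map_sub,
      toAdicCompletionAlgEquiv_apply, toAdicCompletionAlgEquiv_apply, toAdicCompletion_coe]
    rw [AdicCompletion.val_sub_apply, toAdicCompletion_apply_eq_mk_truncTotal,
      AdicCompletion.of_apply]
    simp
  rw [← AdicCompletion.pow_smul_top_eq_ker_eval (MvPolynomial.idealOfVars_fg σ 𝒪)] at hker
  have key : ∀ y ∈ (MvPolynomial.idealOfVars σ 𝒪 ^ k •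
      (⊤ : Submodule (MvPolynomial σ 𝒪) (AdicCompletion (MvPolynomial.idealOfVars σ 𝒪)
        (MvPolynomial σ 𝒪)))),
      (toAdicCompletionAlgEquiv σ 𝒪).symm y ∈
        (Ideal.span (Set.range (MvPowerSeries.X : σ → MvPowerSeries σ 𝒪))) ^ k := by
    intro y hy
    refine Submodule.smul_induction_on hy ?_ ?_
    · intro j hj x _
      rw [map_smul, Algebra.smul_def]
      exact Ideal.mul_mem_right _ _ (coe_mem_pow_of_mem k j hj)
    · intro x y hx hy
      rw [map_add]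
      exact Ideal.add_mem _ hx hy
  have := key _ hker
  rwa [AlgEquiv.symm_apply_apply] at this

omit [Finite σ] in
/-- An `𝒪`-algebra homomorphism out of a power series ring which sends the variables into `I`
sends the `k`-th power of the ideal of variables into `I ^ k`. -/
lemma map_mem_pow_of_mem_span_X_pow (φ : MvPowerSeries σ 𝒪 →ₐ[𝒪] A) (hφ : ∀ i, φ (X i) ∈ I)
    (k : ℕ) (d : MvPowerSeries σ 𝒪)
    (hd : d ∈ (Ideal.span (Set.range (MvPowerSeries.X : σ → MvPowerSeries σ 𝒪))) ^ k) :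
    φ d ∈ I ^ k := by
  have h1 : Ideal.span (Set.range (MvPowerSeries.X : σ → MvPowerSeries σ 𝒪)) ≤
      I.comap (φ : MvPowerSeries σ 𝒪 →+* A) := by
    rw [Ideal.span_le]
    rintro _ ⟨i, rfl⟩
    exact hφ i
  have h2 : (Ideal.span (Set.range (MvPowerSeries.X : σ → MvPowerSeries σ 𝒪))) ^ k ≤
      (I ^ k).comap (φ : MvPowerSeries σ 𝒪 →+* A) :=
    (Ideal.pow_right_mono h1 k).trans (Ideal.le_comap_pow _ k)
  exact h2 hd

/-- Two `𝒪`-algebra homomorphisms out of a power series ring in finitely many variables into an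
`I`-adically separated ring which agree on the variables, and send them into `I`, are equal.
No continuity hypothesis is needed. -/
theorem algHom_ext_of_X [IsHausdorff I A] (φ ψ : MvPowerSeries σ 𝒪 →ₐ[𝒪] A)
    (hφ : ∀ i, φ (X i) ∈ I) (h : ∀ i, φ (X i) = ψ (X i)) : φ = ψ := by
  have hψ : ∀ i, ψ (X i) ∈ I := fun i => h i ▸ hφ i
  have hpoly : ∀ t : MvPolynomial σ 𝒪, φ (t : MvPowerSeries σ 𝒪) = ψ (t : MvPowerSeries σ 𝒪) := by
    intro t
    have : (φ.comp (MvPolynomial.coeToMvPowerSeries.algHom (R := 𝒪) (σ := σ) 𝒪)) =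
        (ψ.comp (MvPolynomial.coeToMvPowerSeries.algHom (R := 𝒪) (σ := σ) 𝒪)) := by
      apply MvPolynomial.algHom_ext
      intro i
      simpa using h i
    simpa using congrArg (fun f => f t) this
  ext p
  rw [← sub_eq_zero]
  apply IsHausdorff.haus (inferInstance : IsHausdorff I A)
  intro k
  rw [SModEq.zero, smul_eq_mul, Ideal.mul_top]
  have hd := sub_truncTotal_mem_pow p k
  have e1 : φ p - ψ p =
      φ (p - ((truncTotal k p : MvPolynomial σ 𝒪) : MvPowerSeries σ 𝒪)) -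
        ψ (p - ((truncTotal k p : MvPolynomial σ 𝒪) : MvPowerSeries σ 𝒪)) := by
    rw [map_sub, map_sub, hpoly]
    ring
  rw [e1]
  exact Ideal.sub_mem _ (map_mem_pow_of_mem_span_X_pow I φ hφ k _ hd)
    (map_mem_pow_of_mem_span_X_pow I ψ hψ k _ hd)

/-- Uniqueness of the evaluation homomorphism. -/
theorem eq_evalHom [IsAdicComplete I A] (a : σ → A) (ha : ∀ i, a i ∈ I)
    (φ : MvPowerSeries σ 𝒪 →ₐ[𝒪] A) (h : ∀ i, φ (X i) = a i) : φ = evalHom I a ha :=
  algHom_ext_of_X I φ (evalHom I a ha) (fun i => h i ▸ ha i) (fun i => by rw [h i, evalHom_X])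

end Uniqueness

end Fermat.Agent.S53
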