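/-
S53 helper module (helper55): the power series ring `Λ = 𝒪⟦X_i : i ∈ σ⟧` over a complete
Noetherian local ring `𝒪` is complete for its maximal ideal, and every proper quotient `Λ ⧸ J`
is again a complete Noetherian local `𝒪`-algebra whose residue field is that of `𝒪`.
-/
import Mathlib
import Fermat.Prelude.Thm_IsLocalRing_isAdicComplete_of_module_finite

set_option autoImplicit false
set_option linter.unusedSectionVars false
set_option linter.style.haveILetI false

namespace Fermat.Agent.S53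

open IsLocalRing

noncomputable section

section Filt

variable (σ : Type) [Finite σ] (𝒪 : Type) [CommRing 𝒪] [IsLocalRing 𝒪]

/-- Coefficientwise description of the `n`-th power of the maximal ideal of `𝒪⟦X⟧`:
the coefficient of a monomial of degree `d < n` lies in `𝔪_𝒪 ^ (n - d)`. -/
def coeffFilt (n : ℕ) : Ideal (MvPowerSeries σ 𝒪) where
  carrier := {f | ∀ α : σ →₀ ℕ, α.degree < n →
    MvPowerSeries.coeff α f ∈ maximalIdeal 𝒪 ^ (n - α.degree)}
  add_mem' := fun {f g} hf hg α hα => by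
    rw [map_add]
    exact Ideal.add_mem _ (hf α hα) (hg α hα)
  zero_mem' := fun α _ => by
    rw [map_zero]
    exact Ideal.zero_mem _
  smul_mem' := fun g f hf α hα => by
    classical
    rw [smul_eq_mul, MvPowerSeries.coeff_mul]
    refine Ideal.sum_mem _ fun p hp => ?_
    have hp' : p.1 + p.2 = α := by simpa using hp
    have hdeg : p.1.degree + p.2.degree = α.degree := by
      rw [← hp', map_add]
    exact Ideal.mul_mem_left _ _
      (Ideal.pow_le_pow_right (by omega) (hf p.2 (by omega)))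

variable {σ 𝒪}

theorem mem_coeffFilt {n : ℕ} {f : MvPowerSeries σ 𝒪} :
    f ∈ coeffFilt σ 𝒪 n ↔ ∀ α : σ →₀ ℕ, α.degree < n →
      MvPowerSeries.coeff α f ∈ maximalIdeal 𝒪 ^ (n - α.degree) :=
  Iff.rfl

theorem mem_maximalIdeal_mvPowerSeries_iff {f : MvPowerSeries σ 𝒪} :
    f ∈ maximalIdeal (MvPowerSeries σ 𝒪) ↔
      MvPowerSeries.constantCoeff f ∈ maximalIdeal 𝒪 := by
  rw [mem_maximalIdeal, mem_maximalIdeal, mem_nonunits_iff, mem_nonunits_iff,
    MvPowerSeries.isUnit_iff_constantCoeff]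

theorem maximalIdeal_mvPowerSeries_eq_coeffFilt_one :
    maximalIdeal (MvPowerSeries σ 𝒪) = coeffFilt σ 𝒪 1 := by
  ext f
  rw [mem_maximalIdeal_mvPowerSeries_iff, mem_coeffFilt]
  constructor
  · intro h α hα
    have hα0 : α = 0 := by
      have : α.degree = 0 := by omega
      exact (Finsupp.degree_eq_zero_iff α).mp this
    subst hα0
    simpa [MvPowerSeries.coeff_zero_eq_constantCoeff] using h
  · intro h
    have := h 0 (by simp)
    simpa [MvPowerSeries.coeff_zero_eq_constantCoeff] using this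

theorem coeffFilt_mul_le (m n : ℕ) :
    coeffFilt σ 𝒪 m * coeffFilt σ 𝒪 n ≤ coeffFilt σ 𝒪 (m + n) := by
  classical
  rw [Ideal.mul_le]
  intro f hf g hg α hα
  rw [MvPowerSeries.coeff_mul]
  refine Ideal.sum_mem _ fun p hp => ?_
  have hp' : p.1 + p.2 = α := by simpa using hp
  have hdeg : p.1.degree + p.2.degree = α.degree := by
    rw [← hp', map_add]
  -- exponents available from each factor
  by_cases h1 : p.1.degree < m
  · by_cases h2 : p.2.degree < n
    · have := Ideal.mul_mem_mul (hf p.1 h1) (hg p.2 h2)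
      rw [← pow_add] at this
      exact Ideal.pow_le_pow_right (by omega) this
    · exact Ideal.mul_mem_right _ _ (Ideal.pow_le_pow_right (by omega) (hf p.1 h1))
  · by_cases h2 : p.2.degree < n
    · exact Ideal.mul_mem_left _ _ (Ideal.pow_le_pow_right (by omega) (hg p.2 h2))
    · omega

theorem maximalIdeal_pow_le_coeffFilt (n : ℕ) :
    maximalIdeal (MvPowerSeries σ 𝒪) ^ n ≤ coeffFilt σ 𝒪 n := by
  induction n with
  | zero =>
    intro f _ α hα
    omega
  | succ n ih =>
    rw [pow_succ]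
    refine le_trans (Ideal.mul_mono ih ?_) (coeffFilt_mul_le n 1)
    exact maximalIdeal_mvPowerSeries_eq_coeffFilt_one.le

/-- The ideal of `𝒪⟦X⟧` generated by the variables. -/
abbrev varsIdeal (σ : Type) (𝒪 : Type) [CommRing 𝒪] : Ideal (MvPowerSeries σ 𝒪) :=
  Ideal.span (Set.range (MvPowerSeries.X : σ → MvPowerSeries σ 𝒪))

theorem varsIdeal_le_maximalIdeal : varsIdeal σ 𝒪 ≤ maximalIdeal (MvPowerSeries σ 𝒪) := by
  rw [varsIdeal, Ideal.span_le]
  rintro _ ⟨i, rfl⟩
  rw [SetLike.mem_coe, mem_maximalIdeal_mvPowerSeries_iff]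
  simp

omit [IsLocalRing 𝒪] in
theorem coeff_eq_zero_of_mem_varsIdeal_pow {n : ℕ} {f : MvPowerSeries σ 𝒪}
    (hf : f ∈ varsIdeal σ 𝒪 ^ n) (α : σ →₀ ℕ) (hα : α.degree < n) :
    MvPowerSeries.coeff α f = 0 := by
  classical
  -- the ideal of series all of whose coefficients in degree `< n` vanish
  let V : ℕ → Ideal (MvPowerSeries σ 𝒪) := fun n =>
    { carrier := {f | ∀ α : σ →₀ ℕ, α.degree < n → MvPowerSeries.coeff α f = 0}
      add_mem' := fun {f g} hf hg α hα => by rw [map_add, hf α hα, hg α hα, add_zero]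
      zero_mem' := fun α _ => by rw [map_zero]
      smul_mem' := fun g f hf α hα => by
        rw [smul_eq_mul, MvPowerSeries.coeff_mul]
        refine Finset.sum_eq_zero fun p hp => ?_
        have hp' : p.1 + p.2 = α := by simpa using hp
        have hdeg : p.1.degree + p.2.degree = α.degree := by
          rw [← hp', map_add]
        rw [hf p.2 (by omega), mul_zero] }
  have hV1 : varsIdeal σ 𝒪 ≤ V 1 := by
    rw [varsIdeal, Ideal.span_le]
    rintro _ ⟨i, rfl⟩ α hα
    have hα0 : α = 0 := by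
      have : α.degree = 0 := by omega
      exact (Finsupp.degree_eq_zero_iff α).mp this
    subst hα0
    simp [MvPowerSeries.coeff_zero_eq_constantCoeff]
  have hVmul : ∀ m n, V m * V n ≤ V (m + n) := by
    intro m n
    rw [Ideal.mul_le]
    intro f hf g hg α hα
    rw [MvPowerSeries.coeff_mul]
    refine Finset.sum_eq_zero fun p hp => ?_
    have hp' : p.1 + p.2 = α := by simpa using hp
    have hdeg : p.1.degree + p.2.degree = α.degree := by
      rw [← hp', map_add]
    by_cases h1 : p.1.degree < m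
    · rw [hf p.1 h1, zero_mul]
    · rw [hg p.2 (by omega), mul_zero]
  have hVpow : ∀ n, varsIdeal σ 𝒪 ^ n ≤ V n := by
    intro n
    induction n with
    | zero => intro f _ α hα; omega
    | succ n ih =>
      rw [pow_succ]
      exact le_trans (Ideal.mul_mono ih hV1) (hVmul n 1)
  exact hVpow n hf α hα


omit [IsLocalRing 𝒪] in
theorem map_coe_idealOfVars :
    (MvPolynomial.idealOfVars σ 𝒪).map
      (MvPolynomial.coeToMvPowerSeries.ringHom (σ := σ) (R := 𝒪)) = varsIdeal σ 𝒪 := by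
  rw [MvPolynomial.idealOfVars, Ideal.map_span, ← Set.range_comp]
  congr 2
  funext i
  exact MvPolynomial.coe_X i

omit [IsLocalRing 𝒪] in
theorem coe_mem_varsIdeal_pow {n : ℕ} {p : MvPolynomial σ 𝒪}
    (hp : p ∈ MvPolynomial.idealOfVars σ 𝒪 ^ n) :
    (p : MvPowerSeries σ 𝒪) ∈ varsIdeal σ 𝒪 ^ n := by
  have := Ideal.mem_map_of_mem
    (MvPolynomial.coeToMvPowerSeries.ringHom (σ := σ) (R := 𝒪)) hp
  rwa [Ideal.map_pow, map_coe_idealOfVars] at this

omit [IsLocalRing 𝒪] in
/-- A power series is congruent to its truncation modulo the `n`-th power of the ideal of the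
variables. -/
theorem sub_truncTotal_mem_varsIdeal_pow (n : ℕ) (f : MvPowerSeries σ 𝒪) :
    f - ((MvPowerSeries.truncTotal n f : MvPolynomial σ 𝒪) : MvPowerSeries σ 𝒪)
      ∈ varsIdeal σ 𝒪 ^ n := by
  classical
  have hcomplete : IsPrecomplete (varsIdeal σ 𝒪) (MvPowerSeries σ 𝒪) :=
    (inferInstance : IsAdicComplete (varsIdeal σ 𝒪) (MvPowerSeries σ 𝒪)).toIsPrecomplete
  obtain ⟨L, hL⟩ := hcomplete.prec'
    (fun m => ((MvPowerSeries.truncTotal m f : MvPolynomial σ 𝒪) : MvPowerSeries σ 𝒪))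
    (by
      intro m m' hmm'
      rw [SModEq.sub_mem, smul_eq_mul, Ideal.mul_top]
      have h := coe_mem_varsIdeal_pow
        (MvPowerSeries.truncTotal_sub_truncTotal_mem_pow_idealOfVars le_rfl hmm' f)
      rwa [← MvPolynomial.coeToMvPowerSeries.ringHom_apply, map_sub,
        MvPolynomial.coeToMvPowerSeries.ringHom_apply,
        MvPolynomial.coeToMvPowerSeries.ringHom_apply] at h)
  have hLf : L = f := by
    ext α
    have h := hL (α.degree + 1)
    rw [SModEq.sub_mem, smul_eq_mul, Ideal.mul_top] at h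
    have h0 := coeff_eq_zero_of_mem_varsIdeal_pow h α (Nat.lt_succ_self _)
    rw [map_sub, sub_eq_zero, MvPolynomial.coeff_coe,
      MvPowerSeries.coeff_truncTotal f (Nat.lt_succ_self _)] at h0
    exact h0.symm
  subst hLf
  have h := hL n
  rw [SModEq.sub_mem, smul_eq_mul, Ideal.mul_top] at h
  have := (varsIdeal σ 𝒪 ^ n).neg_mem h
  rwa [neg_sub] at this

omit [IsLocalRing 𝒪] in
theorem monomial_one_mem_varsIdeal_pow (α : σ →₀ ℕ) :
    (MvPowerSeries.monomial α (1 : 𝒪)) ∈ varsIdeal σ 𝒪 ^ α.degree := by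
  classical
  rw [← MvPolynomial.coe_monomial]
  refine coe_mem_varsIdeal_pow ((MvPolynomial.mem_pow_idealOfVars_iff' _ _).mpr fun x hx => ?_)
  rw [MvPolynomial.coeff_monomial, if_neg]
  rintro rfl
  exact lt_irrefl _ hx

theorem C_mem_maximalIdeal_pow {k : ℕ} {c : 𝒪} (hc : c ∈ maximalIdeal 𝒪 ^ k) :
    (MvPowerSeries.C c : MvPowerSeries σ 𝒪) ∈ maximalIdeal (MvPowerSeries σ 𝒪) ^ k := by
  have h1 : (maximalIdeal 𝒪).map (MvPowerSeries.C (σ := σ) (R := 𝒪)) ≤
      maximalIdeal (MvPowerSeries σ 𝒪) := by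
    rw [Ideal.map_le_iff_le_comap]
    intro x hx
    rw [Ideal.mem_comap, mem_maximalIdeal_mvPowerSeries_iff, MvPowerSeries.constantCoeff_C]
    exact hx
  have := Ideal.mem_map_of_mem (MvPowerSeries.C (σ := σ) (R := 𝒪)) hc
  rw [Ideal.map_pow] at this
  exact Ideal.pow_right_mono h1 k this

theorem monomial_mem_maximalIdeal_pow {n : ℕ} (α : σ →₀ ℕ) (hα : α.degree ≤ n) {c : 𝒪}
    (hc : c ∈ maximalIdeal 𝒪 ^ (n - α.degree)) :
    (MvPowerSeries.monomial α c) ∈ maximalIdeal (MvPowerSeries σ 𝒪) ^ n := by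
  have h1 : MvPowerSeries.monomial α c =
      MvPowerSeries.C c * MvPowerSeries.monomial α (1 : 𝒪) := by
    rw [← MvPowerSeries.monomial_zero_eq_C_apply, MvPowerSeries.monomial_mul_monomial,
      zero_add, mul_one]
  rw [h1]
  have h2 := Ideal.mul_mem_mul (C_mem_maximalIdeal_pow (σ := σ) hc)
    (Ideal.pow_right_mono (varsIdeal_le_maximalIdeal (σ := σ) (𝒪 := 𝒪)) _
      (monomial_one_mem_varsIdeal_pow (𝒪 := 𝒪) α))
  rw [← pow_add, Nat.sub_add_cancel hα] at h2
  exact h2

theorem coeffFilt_le_maximalIdeal_pow (n : ℕ) :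
    coeffFilt σ 𝒪 n ≤ maximalIdeal (MvPowerSeries σ 𝒪) ^ n := by
  classical
  intro f hf
  have htail := Ideal.pow_right_mono (varsIdeal_le_maximalIdeal (σ := σ) (𝒪 := 𝒪)) n
    (sub_truncTotal_mem_varsIdeal_pow n f)
  have hpoly : ((MvPowerSeries.truncTotal n f : MvPolynomial σ 𝒪) : MvPowerSeries σ 𝒪) ∈
      maximalIdeal (MvPowerSeries σ 𝒪) ^ n := by
    rw [MvPolynomial.as_sum (MvPowerSeries.truncTotal n f)]
    rw [← MvPolynomial.coeToMvPowerSeries.ringHom_apply, map_sum]
    refine Ideal.sum_mem _ fun α hα => ?_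
    rw [MvPolynomial.coeToMvPowerSeries.ringHom_apply, MvPolynomial.coe_monomial]
    have hdeg : α.degree < n := by
      by_contra hcon
      rw [MvPolynomial.mem_support_iff] at hα
      exact hα (MvPowerSeries.coeff_truncTotal_eq_zero f (not_lt.mp hcon))
    refine monomial_mem_maximalIdeal_pow α hdeg.le ?_
    rw [MvPowerSeries.coeff_truncTotal f hdeg]
    exact hf α hdeg
  have := Ideal.add_mem _ htail hpoly
  rwa [sub_add_cancel] at this

theorem maximalIdeal_pow_eq_coeffFilt (n : ℕ) :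
    maximalIdeal (MvPowerSeries σ 𝒪) ^ n = coeffFilt σ 𝒪 n :=
  le_antisymm (maximalIdeal_pow_le_coeffFilt n) (coeffFilt_le_maximalIdeal_pow n)

/-- `𝒪⟦X⟧` is precomplete for its maximal ideal when `𝒪` is. -/
theorem isPrecomplete_mvPowerSeries [IsPrecomplete (maximalIdeal 𝒪) 𝒪] :
    IsPrecomplete (maximalIdeal (MvPowerSeries σ 𝒪)) (MvPowerSeries σ 𝒪) := by
  classical
  refine ⟨fun f hf => ?_⟩
  -- coefficientwise limits
  have hcoef : ∀ α : σ →₀ ℕ, ∃ c : 𝒪, ∀ m : ℕ,
      MvPowerSeries.coeff α (f (m + α.degree)) ≡ c [SMOD (maximalIdeal 𝒪 ^ m • ⊤ : Ideal 𝒪)] := by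
    intro α
    refine IsPrecomplete.prec' (I := maximalIdeal 𝒪)
      (fun m => MvPowerSeries.coeff α (f (m + α.degree))) ?_
    intro m m' hmm'
    rw [SModEq.sub_mem, smul_eq_mul, Ideal.mul_top, ← map_sub]
    have h := hf (show m + α.degree ≤ m' + α.degree by omega)
    rw [SModEq.sub_mem, smul_eq_mul, Ideal.mul_top] at h
    rcases Nat.eq_zero_or_pos m with rfl | hm
    · simp
    · have := maximalIdeal_pow_le_coeffFilt _ h α (by omega)
      rwa [Nat.add_sub_cancel] at this
  choose c hc using hcoef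
  let L : MvPowerSeries σ 𝒪 := fun α => c α
  have hL : ∀ α, MvPowerSeries.coeff α L = c α := fun α => rfl
  refine ⟨L, fun n => ?_⟩
  rw [SModEq.sub_mem, smul_eq_mul, Ideal.mul_top]
  refine coeffFilt_le_maximalIdeal_pow n ?_
  intro α hα
  have h := hc α (n - α.degree)
  rw [SModEq.sub_mem, smul_eq_mul, Ideal.mul_top, Nat.sub_add_cancel hα.le] at h
  rw [map_sub, hL]
  exact h

instance isAdicComplete_mvPowerSeries [IsNoetherianRing 𝒪]
    [IsAdicComplete (maximalIdeal 𝒪) 𝒪] :
    IsAdicComplete (maximalIdeal (MvPowerSeries σ 𝒪)) (MvPowerSeries σ 𝒪) :=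
  { toIsHausdorff := inferInstance
    toIsPrecomplete := isPrecomplete_mvPowerSeries }

end Filt

section Quot

variable {σ : Type} [Finite σ] {𝒪 : Type} [CommRing 𝒪] [IsLocalRing 𝒪]

theorem isLocalHom_algebraMap_mvPowerSeries :
    IsLocalHom (algebraMap 𝒪 (MvPowerSeries σ 𝒪)) := by
  refine ⟨fun a ha => ?_⟩
  rw [← MvPowerSeries.c_eq_algebraMap, MvPowerSeries.isUnit_iff_constantCoeff,
    MvPowerSeries.constantCoeff_C] at ha
  exact ha

/-- Every power series is a constant plus an element of the maximal ideal. -/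
theorem sub_C_constantCoeff_mem_maximalIdeal (f : MvPowerSeries σ 𝒪) :
    f - MvPowerSeries.C (MvPowerSeries.constantCoeff f) ∈ maximalIdeal (MvPowerSeries σ 𝒪) := by
  rw [mem_maximalIdeal_mvPowerSeries_iff, map_sub, MvPowerSeries.constantCoeff_C, sub_self]
  exact Ideal.zero_mem _

variable {R : Type} [CommRing R] [IsLocalRing R] [Algebra 𝒪 R]
  (π : MvPowerSeries σ 𝒪 →ₐ[𝒪] R) (hπ : Function.Surjective π)

include hπ

theorem isLocalHom_of_surjective_mvPowerSeries : IsLocalHom (π : MvPowerSeries σ 𝒪 →+* R) :=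
  IsLocalHom.of_surjective _ hπ

theorem isLocalHom_algebraMap_of_surjective_mvPowerSeries : IsLocalHom (algebraMap 𝒪 R) := by
  haveI := isLocalHom_of_surjective_mvPowerSeries π hπ
  refine ⟨fun a ha => ?_⟩
  have h1 : IsUnit ((π : MvPowerSeries σ 𝒪 →+* R) (algebraMap 𝒪 (MvPowerSeries σ 𝒪) a)) := by
    rw [AlgHom.coe_toRingHom, AlgHom.commutes]
    exact ha
  have h2 := IsLocalHom.map_nonunit (f := (π : MvPowerSeries σ 𝒪 →+* R)) _ h1
  exact (isLocalHom_algebraMap_mvPowerSeries (σ := σ)).map_nonunit a h2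

theorem residue_surjective_of_surjective_mvPowerSeries :
    Function.Surjective (IsLocalRing.residue R ∘ algebraMap 𝒪 R) := by
  haveI := isLocalHom_of_surjective_mvPowerSeries π hπ
  intro x
  obtain ⟨r, rfl⟩ := IsLocalRing.residue_surjective x
  obtain ⟨f, rfl⟩ := hπ r
  refine ⟨MvPowerSeries.constantCoeff f, ?_⟩
  rw [Function.comp_apply, eq_comm, ← sub_eq_zero, ← map_sub, IsLocalRing.residue_eq_zero_iff]
  have h := map_nonunit (π : MvPowerSeries σ 𝒪 →+* R) _ (sub_C_constantCoeff_mem_maximalIdeal f)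
  rw [AlgHom.coe_toRingHom, map_sub, MvPowerSeries.c_eq_algebraMap, AlgHom.commutes] at h
  exact h

theorem isNoetherianRing_of_surjective_mvPowerSeries [IsNoetherianRing 𝒪] :
    IsNoetherianRing R :=
  isNoetherianRing_of_surjective _ _ (π : MvPowerSeries σ 𝒪 →+* R) hπ

theorem isAdicComplete_of_surjective_mvPowerSeries [IsNoetherianRing 𝒪]
    [IsAdicComplete (maximalIdeal 𝒪) 𝒪] :
    IsAdicComplete (maximalIdeal R) R := by
  letI : Algebra (MvPowerSeries σ 𝒪) R := (π : MvPowerSeries σ 𝒪 →+* R).toAlgebra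
  haveI : IsLocalHom (algebraMap (MvPowerSeries σ 𝒪) R) :=
    isLocalHom_of_surjective_mvPowerSeries π hπ
  haveI : Module.Finite (MvPowerSeries σ 𝒪) R :=
    Module.Finite.of_surjective (Algebra.linearMap (MvPowerSeries σ 𝒪) R) hπ
  exact IsLocalRing.isAdicComplete_of_module_finite (𝒪 := MvPowerSeries σ 𝒪) (T := R)

omit hπ

/-- A proper quotient of `𝒪⟦X⟧` is a local ring. -/
theorem isLocalRing_quotient_mvPowerSeries (J : Ideal (MvPowerSeries σ 𝒪)) (hJ : J ≠ ⊤) :
    IsLocalRing (MvPowerSeries σ 𝒪 ⧸ J) :=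
  haveI : Nontrivial (MvPowerSeries σ 𝒪 ⧸ J) := Ideal.Quotient.nontrivial_iff.mpr hJ
  IsLocalRing.of_surjective' (Ideal.Quotient.mk J) Ideal.Quotient.mk_surjective

end Quot

section Artinian

variable {R S : Type} [CommRing R] [IsLocalRing R] [CommRing S] [IsLocalRing S]

/-- Under a surjective ring homomorphism of local rings the maximal ideal maps onto the maximal
ideal. -/
theorem maximalIdeal_eq_map_of_surjective (f : R →+* S) (hf : Function.Surjective f) :
    maximalIdeal S = (maximalIdeal R).map f := by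
  rcases Ideal.map_eq_top_or_isMaximal_of_surjective f hf (maximalIdeal.isMaximal R) with h | h
  · exfalso
    have hloc : IsLocalHom f := IsLocalHom.of_surjective f hf
    have h1 : (1 : S) ∈ (maximalIdeal R).map f := by rw [h]; exact Submodule.mem_top
    obtain ⟨x, hx, hx1⟩ := (Ideal.mem_map_iff_of_surjective f hf).mp h1
    have hu : IsUnit x := hloc.map_nonunit x (by rw [hx1]; exact isUnit_one)
    exact (mem_maximalIdeal x).mp hx hu
  · exact (eq_maximalIdeal h).symm

/-- A local quotient of a Noetherian local ring by an ideal containing a power of the maximal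
ideal is Artinian. -/
theorem isArtinianRing_quotient_of_pow_le [IsNoetherianRing R] (J : Ideal R)
    [IsLocalRing (R ⧸ J)] {j : ℕ} (h : maximalIdeal R ^ j ≤ J) : IsArtinianRing (R ⧸ J) := by
  rw [isArtinianRing_iff_isNilpotent_maximalIdeal]
  refine ⟨j, ?_⟩
  rw [maximalIdeal_eq_map_of_surjective (Ideal.Quotient.mk J) Ideal.Quotient.mk_surjective,
    ← Ideal.map_pow, Ideal.zero_eq_bot]
  exact Ideal.map_mk_eq_bot_of_le h

/-- In a Noetherian local ring with finite residue field, the quotients by powers of the maximal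
ideal are finite. -/
theorem finite_quotient_maximalIdeal_pow [IsNoetherianRing R] [Finite (ResidueField R)]
    (j : ℕ) : Finite (R ⧸ maximalIdeal R ^ j) :=
  haveI : Finite (R ⧸ maximalIdeal R) := ‹Finite (ResidueField R)›
  Ideal.finite_quotient_pow (IsNoetherian.noetherian _) j

/-- A quotient of a Noetherian local ring with finite residue field by an ideal containing a
power of the maximal ideal is finite. -/
theorem finite_quotient_of_pow_le [IsNoetherianRing R] [Finite (ResidueField R)]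
    (J : Ideal R) {j : ℕ} (h : maximalIdeal R ^ j ≤ J) : Finite (R ⧸ J) :=
  haveI := finite_quotient_maximalIdeal_pow (R := R) j
  Finite.of_surjective (Ideal.Quotient.factor h) (Ideal.Quotient.factor_surjective h)

/-- If the residue field of `R` is finite and `R → S` is a surjection of local rings, then the
residue field of `S` is finite. -/
theorem finite_residueField_of_surjective [Finite (ResidueField R)] (f : R →+* S)
    (hf : Function.Surjective f) : Finite (ResidueField S) := by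
  haveI : IsLocalHom f := IsLocalHom.of_surjective f hf
  refine Finite.of_surjective (ResidueField.map f) ?_
  intro x
  obtain ⟨s, rfl⟩ := IsLocalRing.residue_surjective x
  obtain ⟨r, rfl⟩ := hf s
  exact ⟨IsLocalRing.residue R r, rfl⟩

end Artinian

section PowerSeriesQuot

variable {σ : Type} [Finite σ] {𝒪 : Type} [CommRing 𝒪] [IsLocalRing 𝒪]

/-- The residue field of `𝒪⟦X⟧` is finite if that of `𝒪` is. -/
theorem finite_residueField_mvPowerSeries [Finite (ResidueField 𝒪)] :
    Finite (ResidueField (MvPowerSeries σ 𝒪)) := by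
  haveI : IsLocalHom (algebraMap 𝒪 (MvPowerSeries σ 𝒪)) := isLocalHom_algebraMap_mvPowerSeries
  refine Finite.of_surjective (ResidueField.map (algebraMap 𝒪 (MvPowerSeries σ 𝒪))) ?_
  intro x
  obtain ⟨y, hy⟩ := residue_surjective_of_surjective_mvPowerSeries
    (AlgHom.id 𝒪 (MvPowerSeries σ 𝒪)) Function.surjective_id x
  exact ⟨IsLocalRing.residue 𝒪 y, hy⟩

variable (J : Ideal (MvPowerSeries σ 𝒪)) [IsLocalRing (MvPowerSeries σ 𝒪 ⧸ J)]

theorem isLocalHom_algebraMap_quotient_mvPowerSeries :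
    IsLocalHom (algebraMap 𝒪 (MvPowerSeries σ 𝒪 ⧸ J)) :=
  isLocalHom_algebraMap_of_surjective_mvPowerSeries (Ideal.Quotient.mkₐ 𝒪 J)
    (Ideal.Quotient.mkₐ_surjective 𝒪 J)

theorem residue_surjective_quotient_mvPowerSeries :
    Function.Surjective (IsLocalRing.residue (MvPowerSeries σ 𝒪 ⧸ J) ∘
      algebraMap 𝒪 (MvPowerSeries σ 𝒪 ⧸ J)) :=
  residue_surjective_of_surjective_mvPowerSeries (Ideal.Quotient.mkₐ 𝒪 J)
    (Ideal.Quotient.mkₐ_surjective 𝒪 J)

theorem isAdicComplete_quotient_mvPowerSeries [IsNoetherianRing 𝒪]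
    [IsAdicComplete (maximalIdeal 𝒪) 𝒪] :
    IsAdicComplete (maximalIdeal (MvPowerSeries σ 𝒪 ⧸ J)) (MvPowerSeries σ 𝒪 ⧸ J) :=
  isAdicComplete_of_surjective_mvPowerSeries (Ideal.Quotient.mkₐ 𝒪 J)
    (Ideal.Quotient.mkₐ_surjective 𝒪 J)

theorem maximalIdeal_quotient_mvPowerSeries :
    maximalIdeal (MvPowerSeries σ 𝒪 ⧸ J) =
      (maximalIdeal (MvPowerSeries σ 𝒪)).map (Ideal.Quotient.mk J) :=
  maximalIdeal_eq_map_of_surjective _ Ideal.Quotient.mk_surjective

theorem isArtinianRing_quotient_mvPowerSeries [IsNoetherianRing 𝒪] {j : ℕ}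
    (h : maximalIdeal (MvPowerSeries σ 𝒪) ^ j ≤ J) :
    IsArtinianRing (MvPowerSeries σ 𝒪 ⧸ J) :=
  isArtinianRing_quotient_of_pow_le J h

omit [IsLocalRing (MvPowerSeries σ 𝒪 ⧸ J)] in
theorem finite_quotient_mvPowerSeries [IsNoetherianRing 𝒪] [Finite (ResidueField 𝒪)] {j : ℕ}
    (h : maximalIdeal (MvPowerSeries σ 𝒪) ^ j ≤ J) : Finite (MvPowerSeries σ 𝒪 ⧸ J) :=
  haveI := finite_residueField_mvPowerSeries (σ := σ) (𝒪 := 𝒪)
  finite_quotient_of_pow_le J h

omit [IsLocalRing (MvPowerSeries σ 𝒪 ⧸ J)] in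
/-- `J ≠ ⊤` as soon as `J ≤ 𝔪`; conversely every proper ideal lies in `𝔪`. -/
theorem le_maximalIdeal_mvPowerSeries_of_ne_top (hJ : J ≠ ⊤) :
    J ≤ maximalIdeal (MvPowerSeries σ 𝒪) :=
  IsLocalRing.le_maximalIdeal hJ

end PowerSeriesQuot

end

end Fermat.Agent.S53
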