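import Fermat.Agent.S53.TestAlg
import Fermat.Agent.S53.MatGlue

/-!
# S53 K3b/K3c: test lifts pass to quotients, subalgebras, and along local algebra maps
-/

set_option autoImplicit false
set_option linter.unusedSectionVars false
set_option linter.style.haveILetI false

namespace Fermat.Agent.S53

open IsLocalRing GaloisRep

variable {𝒪 : Type} [CommRing 𝒪] [IsLocalRing 𝒪] {ρbar : ResidualGaloisRep (ResidueField 𝒪)}
  {𝒟 : ∀ ⦃A : Type⦄ [CommRing A] [IsLocalRing A] [Algebra 𝒪 A], GaloisRepAdic A → Prop}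

section Map

variable {A B : Type} [CommRing A] [IsLocalRing A] [Algebra 𝒪 A]
  [CommRing B] [IsLocalRing B] [Algebra 𝒪 B]

/-- `linExt` commutes with `mapMat` along an algebra homomorphism. -/
theorem linExt_mapMat (φ : A →ₐ[𝒪] B) (x : Gal →₀ 𝒪) (r : Gal →* M2 A) (i j : Fin 2) :
    linExt x (mapMat (φ : A →+* B) r) i j = φ (linExt x r i j) :=
  linExt_map φ x r i j

/-- Normalized lifts are preserved by local algebra homomorphisms. -/
theorem IsNormLift.map (F : Frame 𝒪 ρbar) (φ : A →ₐ[𝒪] B) (hφ : IsLocalHom (φ : A →+* B))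
    {r : Gal →* M2 A} (hr : IsNormLift F r) : IsNormLift F (mapMat (φ : A →+* B) r) where
  cont := matCont_mapMat (φ : A →+* B) hφ hr.cont
  lift g i j := by
    have h1 : mapMat (φ : A →+* B) r g i j - algebraMap 𝒪 B (F.c g i j)
        = φ (r g i j - algebraMap 𝒪 A (F.c g i j)) := by
      rw [map_sub, AlgHom.commutes]; rfl
    rw [h1]
    have h2 := hr.lift g i j
    rw [IsLocalRing.mem_maximalIdeal, mem_nonunits_iff] at h2 ⊢
    exact fun hu => h2 (hφ.map_nonunit _ hu)
  x10 := by rw [linExt_mapMat, hr.x10, map_zero]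
  y00 := by rw [linExt_mapMat, hr.y00, map_zero]
  y10 := by rw [linExt_mapMat, hr.y10, map_one]

/-- Test lifts are preserved by local algebra homomorphisms between Artinian test algebras. -/
theorem isTestLift_map' (h𝒟 : IsDeformationCondition 𝒪 𝒟) (F : Frame 𝒪 ρbar)
    (hB : IsArtinianTestAlgebra 𝒪 B) (φ : A →ₐ[𝒪] B) (hφ : IsLocalHom (φ : A →+* B))
    {r : Gal →* M2 A} (hr : IsTestLift 𝒟 F r) : IsTestLift 𝒟 F (mapMat (φ : A →+* B) r) where
  test := hB
  norm := hr.norm.map F φ hφ
  type := by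
    have h1 : 𝒟 ((ofMat r hr.norm.cont).baseChangeAlong (φ : A →+* B) hφ) :=
      h𝒟.baseChangeAlong hr.test hB φ hφ hr.type
    exact h𝒟.of_isEquiv hB (baseChangeAlong_ofMat (φ : A →+* B) hφ hr.norm.cont) h1

/-- Same as `isTestLift_map'`, with the (redundant) hypothesis that the source is a test
algebra, to match the work-package signature. -/
theorem isTestLift_map (h𝒟 : IsDeformationCondition 𝒪 𝒟) (F : Frame 𝒪 ρbar)
    (_hA : IsArtinianTestAlgebra 𝒪 A) (hB : IsArtinianTestAlgebra 𝒪 B) (φ : A →ₐ[𝒪] B)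
    (hφ : IsLocalHom (φ : A →+* B)) {r : Gal →* M2 A} (hr : IsTestLift 𝒟 F r) :
    IsTestLift 𝒟 F (mapMat (φ : A →+* B) r) :=
  isTestLift_map' h𝒟 F hB φ hφ hr

end Map

section Quot

variable {A : Type} [CommRing A] [IsLocalRing A] [Algebra 𝒪 A]

/-- Test lifts pass to proper quotients. -/
theorem isTestLift_quot (h𝒟 : IsDeformationCondition 𝒪 𝒟) (F : Frame 𝒪 ρbar)
    {r : Gal →* M2 A} (hr : IsTestLift 𝒟 F r) (I : Ideal A) (hI : I ≠ ⊤) :
    letI := isLocalRing_quotient hI
    IsTestLift 𝒟 F (mapMat (Ideal.Quotient.mk I) r) := by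
  letI := isLocalRing_quotient hI
  exact isTestLift_map' h𝒟 F (isArtinianTestAlgebra_quotient hr.test hI)
    (Ideal.Quotient.mkₐ 𝒪 I) (isLocalHom_quotient_mkₐ hI) hr

/-- Test lifts pass to proper quotients (existential form of the local ring structure). -/
theorem exists_testLift_quot (h𝒟 : IsDeformationCondition 𝒪 𝒟) (F : Frame 𝒪 ρbar)
    {r : Gal →* M2 A} (hr : IsTestLift 𝒟 F r) (I : Ideal A) (hI : I ≠ ⊤) :
    ∃ (_ : IsLocalRing (A ⧸ I)), IsTestLift 𝒟 F (mapMat (Ideal.Quotient.mk I) r) :=
  ⟨isLocalRing_quotient hI, isTestLift_quot h𝒟 F hr I hI⟩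

end Quot

section Sub

variable {A : Type} [CommRing A] [IsLocalRing A] [Algebra 𝒪 A]

/-- Restriction of a matrix representation to a subalgebra containing all its entries. -/
noncomputable def restrictMat (r : Gal →* M2 A) (B : Subalgebra 𝒪 A)
    (hB : ∀ g i j, r g i j ∈ B) : Gal →* M2 B where
  toFun g := Matrix.of fun i j => ⟨r g i j, hB g i j⟩
  map_one' := by
    ext i j
    simp only [Matrix.of_apply, map_one]
    by_cases hij : i = j
    · subst hij; simp
    · simp [Matrix.one_apply_ne hij]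
  map_mul' g h := by
    ext i j
    simp only [Matrix.of_apply, map_mul, Matrix.mul_apply]
    simp

@[simp] theorem restrictMat_apply (r : Gal →* M2 A) (B : Subalgebra 𝒪 A)
    (hB : ∀ g i j, r g i j ∈ B) (g : Gal) (i j : Fin 2) :
    ((restrictMat r B hB g i j : B) : A) = r g i j := rfl

theorem mapMat_val_restrictMat (r : Gal →* M2 A) (B : Subalgebra 𝒪 A)
    (hB : ∀ g i j, r g i j ∈ B) :
    mapMat (B.val : B →+* A) (restrictMat r B hB) = r := by
  ext g i j
  rfl

/-- Test lifts restrict to subalgebras containing all the matrix entries. -/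
theorem isTestLift_restrictMat [Finite (ResidueField 𝒪)] (h𝒟 : IsDeformationCondition 𝒪 𝒟)
    (F : Frame 𝒪 ρbar) {r : Gal →* M2 A} (hr : IsTestLift 𝒟 F r) (B : Subalgebra 𝒪 A)
    (hB : ∀ g i j, r g i j ∈ B) :
    letI := isLocalRing_subalgebra hr.test B
    IsTestLift 𝒟 F (restrictMat r B hB) := by
  letI := isLocalRing_subalgebra hr.test B
  have hA := hr.test
  have hBt : IsArtinianTestAlgebra 𝒪 B := isArtinianTestAlgebra_subalgebra hA B
  have hval : IsLocalHom (B.val : B →+* A) := isLocalHom_subalgebra_val hA B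
  have hinj : Function.Injective (B.val : B →ₐ[𝒪] A) := Subtype.val_injective
  -- continuity: use nilpotency of the maximal ideal of `A`
  have hcont : MatCont (restrictMat r B hB) := by
    obtain ⟨n₀, hn₀⟩ := testAlg_isNilpotent_maximalIdeal hA
    obtain ⟨L, hL, h⟩ := hr.norm.cont n₀
    intro n
    refine ⟨L, hL, fun σ hσ i j => ?_⟩
    have h0 : (r σ - 1) i j = 0 := by
      have := h σ hσ i j
      rw [hn₀] at this
      simpa using this
    have h1 : (restrictMat r B hB σ - 1) i j = 0 := by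
      apply Subtype.val_injective
      rw [Matrix.sub_apply] at h0 ⊢
      by_cases hij : i = j
      · subst hij
        simpa using h0
      · simpa [Matrix.one_apply_ne hij] using h0
    rw [h1]
    exact Ideal.zero_mem _
  have hnorm : IsNormLift F (restrictMat r B hB) :=
    { cont := hcont
      lift := fun g i j => by
        rw [mem_maximalIdeal_subalgebra_iff hA B]
        have := hr.norm.lift g i j
        simpa using this
      x10 := by
        apply hinj
        rw [← linExt_mapMat, mapMat_val_restrictMat, hr.norm.x10, map_zero]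
      y00 := by
        apply hinj
        rw [← linExt_mapMat, mapMat_val_restrictMat, hr.norm.y00, map_zero]
      y10 := by
        apply hinj
        rw [← linExt_mapMat, mapMat_val_restrictMat, hr.norm.y10, map_one] }
  refine ⟨hBt, hnorm, ?_⟩
  -- type: descend along the injective local map `B.val`
  have key : ∀ (r' : Gal →* M2 A) (_ : r' = r) (hc : MatCont r'), 𝒟 (ofMat r' hc) := by
    rintro r' rfl hc
    exact hr.type
  have h1 : 𝒟 (ofMat (mapMat (B.val : B →+* A) (restrictMat r B hB))
      (matCont_mapMat (B.val : B →+* A) hval hcont)) :=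
    key _ (mapMat_val_restrictMat r B hB) _
  have h2 : 𝒟 ((ofMat (restrictMat r B hB) hcont).baseChangeAlong (B.val : B →+* A) hval) :=
    h𝒟.of_isEquiv hA (IsEquiv.symm (baseChangeAlong_ofMat (B.val : B →+* A) hval hcont)) h1
  exact h𝒟.of_baseChangeAlong_injective hBt hA B.val hval hinj h2

/-- Existential form, as in the work-package list. -/
theorem exists_testLift_sub [Finite (ResidueField 𝒪)] (h𝒟 : IsDeformationCondition 𝒪 𝒟)
    (F : Frame 𝒪 ρbar) {r : Gal →* M2 A} (hr : IsTestLift 𝒟 F r) (B : Subalgebra 𝒪 A)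
    (hB : ∀ g i j, r g i j ∈ B) :
    ∃ (_ : IsLocalRing B) (rB : Gal →* M2 B),
      IsTestLift 𝒟 F rB ∧ mapMat (B.val : B →+* A) rB = r :=
  ⟨isLocalRing_subalgebra hr.test B, restrictMat r B hB, isTestLift_restrictMat h𝒟 F hr B hB,
    mapMat_val_restrictMat r B hB⟩

end Sub

end Fermat.Agent.S53
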