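import Fermat.Agent.S53.TestDefs
import Fermat.Agent.S53.CoreLemma
import Fermat.Agent.S53.SubQuotLift
import Fermat.Agent.S53.EvalHom
import Fermat.Agent.S53.QuotCNL

/-!
# S53, package K4 (second half): lattice properties of admissible ideals

For the predicate `Adm 𝒟 F κ` on ideals of `Λ = Lam 𝒪 N` we prove

* `Adm.le_maximalIdeal`: admissible ideals are contained in the maximal ideal `𝔪` of `Λ`;
* `Adm.exists_pow_le`: admissible ideals contain a power of `𝔪`;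
* `Adm.exists_surjective`: every admissible ideal is the kernel of a *surjective* coordinate map
  of a test lift (uses K2 `EntriesRange`);
* `Adm.sup_pow`: if `𝔞` is admissible then so is `𝔞 ⊔ 𝔪 ^ n` for `n ≥ 1` (uses K2);
* `exists_least_adm`: there is a least admissible ideal containing `𝔪 ^ n` (uses that `𝔪` is
  admissible and that admissible ideals are closed under `⊓`);
* `admAxioms`: the resulting term of `Core.AdmAxioms 𝔪 (Adm 𝒟 F κ)`.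
-/

set_option autoImplicit false
set_option linter.unusedSectionVars false
set_option linter.style.haveILetI false

noncomputable section

namespace Fermat.Agent.S53

open IsLocalRing GaloisRep

section LocalHom

variable {𝒪 : Type} [CommRing 𝒪] [IsLocalRing 𝒪] {σ : Type} [Finite σ]
  {A : Type} [CommRing A] [IsLocalRing A] [Algebra 𝒪 A]

/-- A power series minus its constant term lies in the ideal generated by the variables. -/
theorem sub_C_constantCoeff_mem_varsIdeal (f : MvPowerSeries σ 𝒪) :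
    f - MvPowerSeries.C (MvPowerSeries.constantCoeff f) ∈ varsIdeal σ 𝒪 := by
  classical
  have h1 := sub_truncTotal_mem_varsIdeal_pow 1 f
  have h2 : ((MvPowerSeries.truncTotal 1 f : MvPolynomial σ 𝒪) : MvPowerSeries σ 𝒪) =
      MvPowerSeries.C (MvPowerSeries.constantCoeff f) := by
    ext x
    rw [MvPolynomial.coeff_coe, MvPowerSeries.coeff_truncTotal_eq_ite, MvPowerSeries.coeff_C]
    by_cases hx : x = 0
    · subst hx; simp
    · have : ¬ Finsupp.degree x < 1 := by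
        intro h
        apply hx
        have h0 : Finsupp.degree x = 0 := by omega
        exact (Finsupp.degree_eq_zero_iff x).mp h0
      simp [hx, this]
  rw [h2, pow_one] at h1
  exact h1

/-- An `𝒪`-algebra homomorphism `𝒪⟦X⟧ → A` into a local `𝒪`-algebra with local structure map
which sends the variables into the maximal ideal sends the maximal ideal into the maximal ideal. -/
theorem map_mem_maximalIdeal_of_X_mem (hloc : IsLocalHom (algebraMap 𝒪 A))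
    (φ : MvPowerSeries σ 𝒪 →ₐ[𝒪] A) (hφ : ∀ i, φ (MvPowerSeries.X i) ∈ maximalIdeal A)
    {f : MvPowerSeries σ 𝒪} (hf : f ∈ maximalIdeal (MvPowerSeries σ 𝒪)) :
    φ f ∈ maximalIdeal A := by
  have h1 : φ (f - MvPowerSeries.C (MvPowerSeries.constantCoeff f)) ∈ maximalIdeal A := by
    have := map_mem_pow_of_mem_span_X_pow (maximalIdeal A) φ hφ 1 _
      (by rw [pow_one]; exact sub_C_constantCoeff_mem_varsIdeal f)
    rwa [pow_one] at this
  have h2 : φ (MvPowerSeries.C (MvPowerSeries.constantCoeff f)) ∈ maximalIdeal A := by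
    rw [MvPowerSeries.c_eq_algebraMap, AlgHom.commutes]
    rw [mem_maximalIdeal_mvPowerSeries_iff] at hf
    exact map_nonunit (algebraMap 𝒪 A) _ hf
  have := Ideal.add_mem _ h1 h2
  rwa [← map_add, sub_add_cancel] at this

/-- Such a homomorphism is local. -/
theorem isLocalHom_of_X_mem (hloc : IsLocalHom (algebraMap 𝒪 A))
    (φ : MvPowerSeries σ 𝒪 →ₐ[𝒪] A) (hφ : ∀ i, φ (MvPowerSeries.X i) ∈ maximalIdeal A) :
    IsLocalHom (φ : MvPowerSeries σ 𝒪 →+* A) := by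
  refine ⟨fun f hf => ?_⟩
  by_contra hnu
  have h1 : f ∈ maximalIdeal (MvPowerSeries σ 𝒪) := (mem_maximalIdeal f).mpr hnu
  exact (mem_maximalIdeal _).mp (map_mem_maximalIdeal_of_X_mem hloc φ hφ h1) hf

/-- Such a homomorphism maps `𝔪 ^ n` into `𝔪_A ^ n`. -/
theorem maximalIdeal_pow_le_comap_of_X_mem (hloc : IsLocalHom (algebraMap 𝒪 A))
    (φ : MvPowerSeries σ 𝒪 →ₐ[𝒪] A) (hφ : ∀ i, φ (MvPowerSeries.X i) ∈ maximalIdeal A) (n : ℕ) :
    maximalIdeal (MvPowerSeries σ 𝒪) ^ n ≤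
      (maximalIdeal A ^ n).comap (φ : MvPowerSeries σ 𝒪 →+* A) := by
  have h1 : maximalIdeal (MvPowerSeries σ 𝒪) ≤
      (maximalIdeal A).comap (φ : MvPowerSeries σ 𝒪 →+* A) :=
    fun f hf => map_mem_maximalIdeal_of_X_mem hloc φ hφ hf
  exact (Ideal.pow_right_mono h1 n).trans (Ideal.le_comap_pow _ n)

end LocalHom

variable {𝒪 : Type} [CommRing 𝒪] [IsLocalRing 𝒪] {ρbar : ResidualGaloisRep (ResidueField 𝒪)}
  {𝒟 : ∀ ⦃A : Type⦄ [CommRing A] [IsLocalRing A] [Algebra 𝒪 A], GaloisRepAdic A → Prop}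
  {F : Frame 𝒪 ρbar} {N : ℕ} {κ : Coords N}

section Basic

variable {A : Type} [CommRing A] [IsLocalRing A] [Algebra 𝒪 A]

/-- The coordinates of a normalized lift lie in the maximal ideal. -/
theorem coord_mem_maximalIdeal {r : Gal →* M2 A} (hr : IsNormLift F r) (l : Fin N) :
    coord F κ r l ∈ maximalIdeal A :=
  hr.lift _ _ _

/-- The coordinate map of a test lift sends the variables into the maximal ideal. -/
theorem coordMap_X_mem {r : Gal →* M2 A} (hr : IsTestLift 𝒟 F r) (φ : Lam 𝒪 N →ₐ[𝒪] A)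
    (hφ : ∀ l, φ (MvPowerSeries.X l) = coord F κ r l) (l : Fin N) :
    φ (MvPowerSeries.X l) ∈ maximalIdeal A := by
  rw [hφ l]
  exact coord_mem_maximalIdeal hr.norm l

/-- The coordinate map of a test lift is a local homomorphism. -/
theorem isLocalHom_coordMap {r : Gal →* M2 A} (hr : IsTestLift 𝒟 F r) (φ : Lam 𝒪 N →ₐ[𝒪] A)
    (hφ : ∀ l, φ (MvPowerSeries.X l) = coord F κ r l) :
    IsLocalHom (φ : Lam 𝒪 N →+* A) :=
  isLocalHom_of_X_mem hr.test.isLocalHom φ (coordMap_X_mem hr φ hφ)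

end Basic

/-- Admissible ideals are proper, hence contained in the maximal ideal. -/
theorem Adm.le_maximalIdeal {𝔞 : Ideal (Lam 𝒪 N)} (h : Adm 𝒟 F κ 𝔞) :
    𝔞 ≤ maximalIdeal (Lam 𝒪 N) := by
  obtain ⟨A, _, _, _, r, φ, hr, hφ, rfl⟩ := h
  exact IsLocalRing.le_maximalIdeal (RingHom.ker_ne_top _)

theorem Adm.ne_top {𝔞 : Ideal (Lam 𝒪 N)} (h : Adm 𝒟 F κ 𝔞) : 𝔞 ≠ ⊤ := by
  obtain ⟨A, _, _, _, r, φ, hr, hφ, rfl⟩ := h
  exact RingHom.ker_ne_top _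

/-- Admissible ideals contain a power of the maximal ideal. -/
theorem Adm.exists_pow_le {𝔞 : Ideal (Lam 𝒪 N)} (h : Adm 𝒟 F κ 𝔞) :
    ∃ n : ℕ, 1 ≤ n ∧ maximalIdeal (Lam 𝒪 N) ^ n ≤ 𝔞 := by
  obtain ⟨A, _, _, _, r, φ, hr, hφ, rfl⟩ := h
  obtain ⟨n, hn⟩ := testAlg_isNilpotent_maximalIdeal hr.test
  refine ⟨n + 1, Nat.le_add_left 1 n, ?_⟩
  refine (Ideal.pow_le_pow_right (Nat.le_succ n)).trans ?_
  refine (maximalIdeal_pow_le_comap_of_X_mem hr.test.isLocalHom φ (coordMap_X_mem hr φ hφ) n).trans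
    ?_
  rw [hn]
  intro x hx
  rw [RingHom.mem_ker]
  simpa using hx

section Surjective

variable [Finite (ResidueField 𝒪)]

/-- Every admissible ideal is the kernel of a surjective coordinate map of a test lift. -/
theorem Adm.exists_surjective (h𝒟 : IsDeformationCondition 𝒪 𝒟)
    (hrange : EntriesRange 𝒟 F κ) {𝔞 : Ideal (Lam 𝒪 N)} (h : Adm 𝒟 F κ 𝔞) :
    ∃ (A : Type) (_ : CommRing A) (_ : IsLocalRing A) (_ : Algebra 𝒪 A) (r : Gal →* M2 A)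
      (φ : Lam 𝒪 N →ₐ[𝒪] A),
      IsTestLift 𝒟 F r ∧ (∀ l, φ (MvPowerSeries.X l) = coord F κ r l) ∧
        RingHom.ker (φ : Lam 𝒪 N →+* A) = 𝔞 ∧ Function.Surjective φ := by
  obtain ⟨A, _, _, _, r, φ, hr, hφ, rfl⟩ := h
  have hB : ∀ g i j, r g i j ∈ φ.range := hrange A r φ hr hφ
  obtain ⟨iB, rB, hrB, hrBr⟩ := exists_testLift_sub h𝒟 F hr φ.range hB
  refine ⟨φ.range, inferInstance, iB, inferInstance, rB, φ.rangeRestrict, hrB, ?_, ?_,
    φ.rangeRestrict_surjective⟩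
  · intro l
    apply Subtype.val_injective
    have h1 : ((φ.rangeRestrict (MvPowerSeries.X l) : φ.range) : A) = coord F κ r l := hφ l
    have h2 : ((coord F κ rB l : φ.range) : A) = coord F κ (mapMat (φ.range.val : φ.range →+* A) rB) l :=
      (coord_map F κ φ.range.val rB l).symm
    rw [h1, h2, hrBr]
  · ext x
    rw [RingHom.mem_ker, RingHom.mem_ker]
    constructor
    · intro hx
      have := congrArg (Subtype.val : φ.range → A) hx
      simpa using this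
    · intro hx
      apply Subtype.val_injective
      simpa using hx

/-- If `𝔞` is admissible then so is `𝔞 ⊔ 𝔪 ^ n` for `n ≥ 1`. -/
theorem Adm.sup_pow (h𝒟 : IsDeformationCondition 𝒪 𝒟)
    (hrange : EntriesRange 𝒟 F κ) {𝔞 : Ideal (Lam 𝒪 N)} (h : Adm 𝒟 F κ 𝔞) {n : ℕ}
    (hn : 1 ≤ n) : Adm 𝒟 F κ (𝔞 ⊔ maximalIdeal (Lam 𝒪 N) ^ n) := by
  obtain ⟨A, _, _, _, r, φ, hr, hφ, rfl, hsurj⟩ := h.exists_surjective h𝒟 hrange
  set I : Ideal A := (maximalIdeal (Lam 𝒪 N) ^ n).map (φ : Lam 𝒪 N →+* A) with hI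
  have hIle : I ≤ maximalIdeal A := by
    rw [hI, Ideal.map_le_iff_le_comap]
    refine (Ideal.pow_le_self (by omega)).trans ?_
    intro f hf
    exact map_mem_maximalIdeal_of_X_mem hr.test.isLocalHom φ (coordMap_X_mem hr φ hφ) hf
  have hItop : I ≠ ⊤ := fun h => (maximalIdeal.isMaximal A).ne_top (top_le_iff.mp (h ▸ hIle))
  obtain ⟨iQ, hQ⟩ := exists_testLift_quot h𝒟 F hr I hItop
  refine ⟨A ⧸ I, inferInstance, iQ, inferInstance, mapMat (Ideal.Quotient.mk I) r,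
    (Ideal.Quotient.mkₐ 𝒪 I).comp φ, hQ, ?_, ?_⟩
  · intro l
    rw [AlgHom.comp_apply, hφ l]
    exact (coord_map F κ (Ideal.Quotient.mkₐ 𝒪 I) r l).symm
  · have hsurj' : Function.Surjective (φ : Lam 𝒪 N →+* A) := hsurj
    have h1 : RingHom.ker (((Ideal.Quotient.mkₐ 𝒪 I).comp φ : Lam 𝒪 N →ₐ[𝒪] A ⧸ I) :
        Lam 𝒪 N →+* A ⧸ I) = I.comap (φ : Lam 𝒪 N →+* A) := by
      ext x
      rw [RingHom.mem_ker, Ideal.mem_comap]
      exact Ideal.Quotient.eq_zero_iff_mem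
    rw [h1, hI, Ideal.comap_map_of_surjective _ hsurj', sup_comm]
    rfl

end Surjective

section Least

variable [IsNoetherianRing 𝒪]

/-- There is a least admissible ideal containing `𝔪 ^ n` (`n ≥ 1`), provided `𝔪` is admissible
and admissible ideals are closed under intersection. -/
theorem exists_least_adm (hmax : Adm 𝒟 F κ (maximalIdeal (Lam 𝒪 N)))
    (hinf : ∀ 𝔞 𝔟 : Ideal (Lam 𝒪 N), Adm 𝒟 F κ 𝔞 → Adm 𝒟 F κ 𝔟 → Adm 𝒟 F κ (𝔞 ⊓ 𝔟))
    (n : ℕ) (hn : 1 ≤ n) :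
    ∃ 𝔞 : Ideal (Lam 𝒪 N), Adm 𝒟 F κ 𝔞 ∧ maximalIdeal (Lam 𝒪 N) ^ n ≤ 𝔞 ∧
      ∀ 𝔟 : Ideal (Lam 𝒪 N), Adm 𝒟 F κ 𝔟 → maximalIdeal (Lam 𝒪 N) ^ n ≤ 𝔟 → 𝔞 ≤ 𝔟 := by
  set 𝔪 := maximalIdeal (Lam 𝒪 N) with h𝔪
  have hpow_le : 𝔪 ^ n ≤ 𝔪 := Ideal.pow_le_self (by omega)
  have hne : 𝔪 ^ n ≠ ⊤ := fun h =>
    (maximalIdeal.isMaximal (Lam 𝒪 N)).ne_top (top_le_iff.mp (h ▸ hpow_le))
  letI : IsLocalRing (Lam 𝒪 N ⧸ 𝔪 ^ n) := isLocalRing_quotient_mvPowerSeries _ hne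
  haveI : IsArtinianRing (Lam 𝒪 N ⧸ 𝔪 ^ n) :=
    isArtinianRing_quotient_mvPowerSeries (𝔪 ^ n) le_rfl
  let mk := Ideal.Quotient.mk (𝔪 ^ n)
  let T : Set (Ideal (Lam 𝒪 N ⧸ 𝔪 ^ n)) :=
    {I | ∃ 𝔞 : Ideal (Lam 𝒪 N), Adm 𝒟 F κ 𝔞 ∧ 𝔪 ^ n ≤ 𝔞 ∧ I = 𝔞.map mk}
  have hT : T.Nonempty := ⟨𝔪.map mk, 𝔪, hmax, hpow_le, rfl⟩
  obtain ⟨I₀, ⟨𝔞₀, h𝔞₀, hle₀, rfl⟩, hmin⟩ := IsArtinian.set_has_minimal T hT
  refine ⟨𝔞₀, h𝔞₀, hle₀, fun 𝔟 h𝔟 hle => ?_⟩
  have hcomap : ∀ 𝔠 : Ideal (Lam 𝒪 N), 𝔪 ^ n ≤ 𝔠 → (𝔠.map mk).comap mk = 𝔠 := by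
    intro 𝔠 h𝔠
    rw [Ideal.comap_map_of_surjective mk Ideal.Quotient.mk_surjective]
    refine le_antisymm (sup_le le_rfl ?_) le_sup_left
    intro x hx
    rw [Ideal.mem_comap, Submodule.mem_bot, Ideal.Quotient.eq_zero_iff_mem] at hx
    exact h𝔠 hx
  have h1 : (𝔞₀ ⊓ 𝔟).map mk ∈ T := ⟨𝔞₀ ⊓ 𝔟, hinf _ _ h𝔞₀ h𝔟, le_inf hle₀ hle, rfl⟩
  have h2 : (𝔞₀ ⊓ 𝔟).map mk ≤ 𝔞₀.map mk := Ideal.map_mono inf_le_left
  have h3 : (𝔞₀ ⊓ 𝔟).map mk = 𝔞₀.map mk := by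
    by_contra hne'
    exact hmin _ h1 (lt_of_le_of_ne h2 hne')
  have h4 : 𝔞₀ ⊓ 𝔟 = 𝔞₀ := by
    rw [← hcomap (𝔞₀ ⊓ 𝔟) (le_inf hle₀ hle), h3, hcomap 𝔞₀ hle₀]
  exact h4 ▸ inf_le_right

variable [Finite (ResidueField 𝒪)]

/-- The lattice axioms for admissible ideals, from K2 (`EntriesRange`), the admissibility of
the maximal ideal and the closure of admissible ideals under intersection. -/
theorem admAxioms (h𝒟 : IsDeformationCondition 𝒪 𝒟) (hrange : EntriesRange 𝒟 F κ)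
    (hmax : Adm 𝒟 F κ (maximalIdeal (Lam 𝒪 N)))
    (hinf : ∀ 𝔞 𝔟 : Ideal (Lam 𝒪 N), Adm 𝒟 F κ 𝔞 → Adm 𝒟 F κ 𝔟 → Adm 𝒟 F κ (𝔞 ⊓ 𝔟)) :
    Core.AdmAxioms (maximalIdeal (Lam 𝒪 N)) (Adm 𝒟 F κ) where
  least := exists_least_adm hmax hinf
  sup_pow := fun _ _ h hn => h.sup_pow h𝒟 hrange hn
  exists_pow_le := fun _ h => h.exists_pow_le
  le_max := fun _ h => h.le_maximalIdeal

end Least

end Fermat.Agent.S53
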