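import Mathlib.RingTheory.AdicCompletion.Basic
import Mathlib.RingTheory.Ideal.Operations

/-!
# Successive approximation along a decreasing chain of ideals

`Λ` is a commutative ring which is `m`-adically precomplete / complete, and `J : ℕ → Ideal Λ` is a
decreasing chain of ideals with `m ^ n ≤ J n` and `J n ≤ J (n+1) ⊔ m ^ n`.
Then compatible systems modulo the `J n` lift to `Λ`, and `J n = (⨅ k, J k) ⊔ m ^ n`.
-/

set_option autoImplicit false

namespace Fermat.Agent.S53.Approx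

variable {Λ : Type*} [CommRing Λ]

/-- Precompleteness restated for ideals of the ring itself. -/
theorem exists_limit_of_cauchy (m : Ideal Λ) [IsPrecomplete m Λ] (b : ℕ → Λ)
    (hb : ∀ n, b (n + 1) - b n ∈ m ^ n) : ∃ F : Λ, ∀ n, F - b n ∈ m ^ n := by
  have hmono : ∀ {i j : ℕ}, i ≤ j → b j - b i ∈ m ^ i := by
    intro i j hij
    induction j, hij using Nat.le_induction with
    | base => simp
    | succ j hij ih =>
      have h1 : b (j + 1) - b j ∈ m ^ i := Ideal.pow_le_pow_right hij (hb j)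
      have : b (j + 1) - b i = (b (j + 1) - b j) + (b j - b i) := by ring
      rw [this]
      exact Ideal.add_mem _ h1 ih
  have hc : ∀ {i j : ℕ}, i ≤ j → b i ≡ b j [SMOD (m ^ i • ⊤ : Submodule Λ Λ)] := by
    intro i j hij
    rw [SModEq.sub_mem, smul_eq_mul, Ideal.mul_top]
    have := hmono hij
    rw [← neg_sub]
    exact (Ideal.neg_mem_iff _).mpr this
  obtain ⟨L, hL⟩ := IsPrecomplete.prec (I := m) (M := Λ) ‹_› hc
  refine ⟨L, fun n => ?_⟩
  have := hL n
  rw [SModEq.sub_mem, smul_eq_mul, Ideal.mul_top] at this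
  rw [← neg_sub]
  exact (Ideal.neg_mem_iff _).mpr this

/-- Lifting a compatible system modulo a decreasing chain `J n` with `J n ≤ J (n+1) ⊔ m ^ n`. -/
theorem exists_lift_of_compatible (m : Ideal Λ) [IsPrecomplete m Λ] (J : ℕ → Ideal Λ)
    (hm : ∀ n, m ^ n ≤ J n)
    (hstep : ∀ n, J n ≤ J (n + 1) ⊔ m ^ n)
    (a : ℕ → Λ) (ha : ∀ n, a (n + 1) - a n ∈ J n) :
    ∃ F : Λ, ∀ n, F - a n ∈ J n := by
  classical
  -- build `b n` with `b n - a n ∈ J n` and `b (n+1) - b n ∈ m ^ n`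
  have key : ∀ n (x : Λ), x - a n ∈ J n →
      ∃ y : Λ, y - a (n + 1) ∈ J (n + 1) ∧ y - x ∈ m ^ n := by
    intro n x hx
    have h1 : a (n + 1) - x ∈ J n := by
      have : a (n + 1) - x = (a (n + 1) - a n) - (x - a n) := by ring
      rw [this]
      exact Ideal.sub_mem _ (ha n) hx
    obtain ⟨j, hj, μ, hμ, hjμ⟩ := Submodule.mem_sup.mp (hstep n h1)
    refine ⟨x + μ, ?_, by simpa using hμ⟩
    have : x + μ - a (n + 1) = -j := by
      have : μ = a (n + 1) - x - j := by rw [← hjμ]; ring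
      rw [this]; ring
    rw [this]
    exact (Ideal.neg_mem_iff _).mpr hj
  choose! nxt hnxt1 hnxt2 using key
  let b : ℕ → Λ := fun n => Nat.rec (a 0) (fun n x => nxt n x) n
  have hb0 : b 0 = a 0 := rfl
  have hbs : ∀ n, b (n + 1) = nxt n (b n) := fun n => rfl
  have hba : ∀ n, b n - a n ∈ J n := by
    intro n
    induction n with
    | zero => simp [hb0]
    | succ n ih => rw [hbs]; exact hnxt1 n (b n) ih
  have hbb : ∀ n, b (n + 1) - b n ∈ m ^ n := by
    intro n
    rw [hbs]; exact hnxt2 n (b n) (hba n)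
  obtain ⟨F, hF⟩ := exists_limit_of_cauchy m b hbb
  refine ⟨F, fun n => ?_⟩
  have : F - a n = (F - b n) + (b n - a n) := by ring
  rw [this]
  exact Ideal.add_mem _ (hm n (hF n)) (hba n)

/-- Chevalley-type statement: under the same hypotheses, `J n = (⨅ k, J k) ⊔ m ^ n`. -/
theorem le_iInf_sup_pow (m : Ideal Λ) [IsPrecomplete m Λ] (J : ℕ → Ideal Λ)
    (hanti : ∀ n, J (n + 1) ≤ J n)
    (hm : ∀ n, m ^ n ≤ J n)
    (hstep : ∀ n, J n ≤ J (n + 1) ⊔ m ^ n) (n : ℕ) :
    J n ≤ (⨅ k, J k) ⊔ m ^ n := by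
  classical
  intro a haJ
  have hantitone : ∀ {i j : ℕ}, i ≤ j → J j ≤ J i := by
    intro i j hij
    induction j, hij using Nat.le_induction with
    | base => exact le_rfl
    | succ j hij ih => exact (hanti j).trans ih
  -- build `c k ∈ J (n + k)` with `c (k+1) - c k ∈ m ^ (n + k)`
  have key : ∀ k (x : Λ), x ∈ J (n + k) →
      ∃ y : Λ, y ∈ J (n + (k + 1)) ∧ y - x ∈ m ^ (n + k) := by
    intro k x hx
    obtain ⟨j, hj, μ, hμ, hjμ⟩ := Submodule.mem_sup.mp (hstep (n + k) hx)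
    refine ⟨j, hj, ?_⟩
    have : j - x = -μ := by rw [← hjμ]; ring
    rw [this]
    exact (Ideal.neg_mem_iff _).mpr hμ
  choose! nxt hnxt1 hnxt2 using key
  let c : ℕ → Λ := fun k => Nat.rec a (fun k x => nxt k x) k
  have hc0 : c 0 = a := rfl
  have hcs : ∀ k, c (k + 1) = nxt k (c k) := fun k => rfl
  have hcJ : ∀ k, c k ∈ J (n + k) := by
    intro k
    induction k with
    | zero => simpa [hc0] using haJ
    | succ k ih => rw [hcs]; exact hnxt1 k (c k) ih
  have hcc : ∀ k, c (k + 1) - c k ∈ m ^ k := by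
    intro k
    rw [hcs]
    exact Ideal.pow_le_pow_right (Nat.le_add_left k n) (hnxt2 k (c k) (hcJ k))
  have hcc' : ∀ k, c (k + 1) - c k ∈ m ^ (n + k) := by
    intro k
    rw [hcs]
    exact hnxt2 k (c k) (hcJ k)
  obtain ⟨L, hL⟩ := exists_limit_of_cauchy m c hcc
  -- `L - c k ∈ J (n + k)`?  We only know `L - c k ∈ m ^ k`; use large `k`.
  have hLJ : ∀ k, L ∈ J k := by
    intro k
    have h1 : L - c k ∈ J k := hm k (hL k)
    have h2 : c k ∈ J k := hantitone (Nat.le_add_left k n) (hcJ k)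
    have : L = (L - c k) + c k := by ring
    rw [this]
    exact Ideal.add_mem _ h1 h2
  -- `a - L ∈ m ^ n`: telescoping, `c k - a ∈ m ^ n` for all `k`, and `L - c n ∈ m ^ n`.
  have hca : ∀ k, c k - a ∈ m ^ n := by
    intro k
    induction k with
    | zero => simp [hc0]
    | succ k ih =>
      have : c (k + 1) - a = (c (k + 1) - c k) + (c k - a) := by ring
      rw [this]
      exact Ideal.add_mem _ (Ideal.pow_le_pow_right (Nat.le_add_right n k) (hcc' k)) ih
  have haL : a - L ∈ m ^ n := by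
    have : a - L = -((L - c n) + (c n - a)) := by ring
    rw [this]
    exact (Ideal.neg_mem_iff _).mpr (Ideal.add_mem _ (hL n) (hca n))
  refine Submodule.mem_sup.mpr ⟨L, ?_, a - L, haL, by ring⟩
  exact (Ideal.mem_iInf).mpr hLJ

/-- Under the hypotheses, `J n = (⨅ k, J k) ⊔ m ^ n`. -/
theorem eq_iInf_sup_pow (m : Ideal Λ) [IsPrecomplete m Λ] (J : ℕ → Ideal Λ)
    (hanti : ∀ n, J (n + 1) ≤ J n)
    (hm : ∀ n, m ^ n ≤ J n)
    (hstep : ∀ n, J n ≤ J (n + 1) ⊔ m ^ n) (n : ℕ) :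
    J n = (⨅ k, J k) ⊔ m ^ n :=
  le_antisymm (le_iInf_sup_pow m J hanti hm hstep n) (sup_le (iInf_le J n) (hm n))

end Fermat.Agent.S53.Approx
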