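import Fermat.Agent.S53.Defs

/-!
# S53: passage from Artinian test algebras to complete noetherian local algebras

Matrix-level statement: if a normalized matrix lift `rR` over `R` is universal for normalized
type-`𝒟` lifts to Artinian test algebras, then it is universal for normalized type-`𝒟` lifts to
complete noetherian local `𝒪`-algebras with residue field `k`.
-/

set_option autoImplicit false
set_option linter.style.haveILetI false

namespace Fermat.Agent.S53.CNL

open IsLocalRing Fermat.Agent.S53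

section Quot

variable (A : Type) [CommRing A] [IsLocalRing A]

theorem pow_succ_ne_top (n : ℕ) : maximalIdeal A ^ (n + 1) ≠ ⊤ := by
  intro h
  have h1 : maximalIdeal A ^ (n + 1) ≤ maximalIdeal A := Ideal.pow_le_self (Nat.succ_ne_zero n)
  rw [h] at h1
  exact (maximalIdeal.isMaximal A).ne_top (top_le_iff.mp h1)

theorem isLocalRing_quot (I : Ideal A) (hI : I ≠ ⊤) : IsLocalRing (A ⧸ I) :=
  haveI : Nontrivial (A ⧸ I) := Ideal.Quotient.nontrivial_iff.mpr hI
  IsLocalRing.of_surjective' (Ideal.Quotient.mk I) Ideal.Quotient.mk_surjective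

theorem isLocalRing_quot_pow (n : ℕ) : IsLocalRing (A ⧸ maximalIdeal A ^ (n + 1)) :=
  isLocalRing_quot A _ (pow_succ_ne_top A n)

theorem isLocalHom_mk (I : Ideal A) (hI : I ≠ ⊤) :
    IsLocalHom (Ideal.Quotient.mk I) :=
  haveI : Nontrivial (A ⧸ I) := Ideal.Quotient.nontrivial_iff.mpr hI
  IsLocalHom.of_surjective _ Ideal.Quotient.mk_surjective

theorem maximalIdeal_quot_le (I : Ideal A) (hI : I ≠ ⊤) :
    @maximalIdeal (A ⧸ I) _ (isLocalRing_quot A I hI) ≤
      (maximalIdeal A).map (Ideal.Quotient.mk I) := by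
  letI := isLocalRing_quot A I hI
  intro x hx
  obtain ⟨a, rfl⟩ := Ideal.Quotient.mk_surjective x
  refine Ideal.mem_map_of_mem _ ?_
  rw [mem_maximalIdeal, mem_nonunits_iff] at hx ⊢
  exact fun ha => hx (ha.map _)

theorem maximalIdeal_quot_pow_eq_bot (n : ℕ) :
    (@maximalIdeal (A ⧸ maximalIdeal A ^ (n + 1)) _ (isLocalRing_quot_pow A n)) ^ (n + 1) = ⊥ := by
  letI := isLocalRing_quot_pow A n
  rw [eq_bot_iff]
  calc maximalIdeal (A ⧸ maximalIdeal A ^ (n + 1)) ^ (n + 1)
      ≤ ((maximalIdeal A).map (Ideal.Quotient.mk _)) ^ (n + 1) :=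
        Ideal.pow_right_mono (maximalIdeal_quot_le A _ (pow_succ_ne_top A n)) _
    _ = (maximalIdeal A ^ (n + 1)).map (Ideal.Quotient.mk _) := (Ideal.map_pow _ _ _).symm
    _ = ⊥ := by rw [Ideal.map_quotient_self]

variable {𝒪 : Type} [CommRing 𝒪] [Algebra 𝒪 A]

theorem isArtinianTestAlgebra_quot_pow [IsNoetherianRing A]
    (hloc : IsLocalHom (algebraMap 𝒪 A))
    (hsurj : Function.Surjective (residue A ∘ algebraMap 𝒪 A)) (n : ℕ) :
    @GaloisRep.IsArtinianTestAlgebra 𝒪 _ (A ⧸ maximalIdeal A ^ (n + 1)) _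
      (isLocalRing_quot_pow A n) _ := by
  letI := isLocalRing_quot_pow A n
  haveI hmk := isLocalHom_mk A _ (pow_succ_ne_top A n)
  refine ⟨?_, ?_, ?_⟩
  · have : algebraMap 𝒪 (A ⧸ maximalIdeal A ^ (n + 1)) =
        (Ideal.Quotient.mk _).comp (algebraMap 𝒪 A) := rfl
    rw [this]
    haveI := hloc
    exact RingHom.isLocalHom_comp _ _
  · intro y
    obtain ⟨x, rfl⟩ := residue_surjective y
    obtain ⟨a, rfl⟩ := Ideal.Quotient.mk_surjective x
    obtain ⟨o, ho⟩ := hsurj (residue A a)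
    refine ⟨o, ?_⟩
    simp only [Function.comp_apply] at ho ⊢
    have h1 : algebraMap 𝒪 A o - a ∈ maximalIdeal A := by
      rw [← residue_eq_zero_iff, map_sub, ho, sub_self]
    have h2 : (Ideal.Quotient.mk (maximalIdeal A ^ (n + 1))) (algebraMap 𝒪 A o - a) ∈
        maximalIdeal (A ⧸ maximalIdeal A ^ (n + 1)) :=
      map_maximalIdeal_le (Ideal.Quotient.mk _) (Ideal.mem_map_of_mem _ h1)
    rw [← residue_eq_zero_iff, map_sub, map_sub, sub_eq_zero] at h2
    exact h2
  · rw [isArtinianRing_iff_isNilpotent_maximalIdeal]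
    exact ⟨n + 1, maximalIdeal_quot_pow_eq_bot A n⟩

end Quot

section NormLift

variable {𝒪 : Type} [CommRing 𝒪] [IsLocalRing 𝒪] {ρbar : ResidualGaloisRep (ResidueField 𝒪)}

theorem mapMat_comp {A B C : Type} [CommRing A] [CommRing B] [CommRing C]
    (ψ : B →+* C) (φ : A →+* B) (r : Gal →* M2 A) :
    mapMat (ψ.comp φ) r = mapMat ψ (mapMat φ r) := by
  ext σ i j
  rfl

theorem mapMat_eq_iff {A B : Type} [CommRing A] [CommRing B] (φ : A →+* B) (r : Gal →* M2 A)
    (r' : Gal →* M2 B) : mapMat φ r = r' ↔ ∀ σ i j, φ (r σ i j) = r' σ i j := by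
  constructor
  · rintro rfl σ i j
    rfl
  · intro h
    ext σ i j
    exact h σ i j

theorem isNormLift_mapMat (F : Frame 𝒪 ρbar) {A B : Type} [CommRing A] [IsLocalRing A]
    [Algebra 𝒪 A] [CommRing B] [IsLocalRing B] [Algebra 𝒪 B] (φ : A →ₐ[𝒪] B)
    (hφ : IsLocalHom (φ : A →+* B)) {r : Gal →* M2 A} (hr : IsNormLift F r) :
    IsNormLift F (mapMat (φ : A →+* B) r) where
  cont := matCont_mapMat _ hφ hr.cont
  lift g i j := by
    have h1 : mapMat (φ : A →+* B) r g i j - algebraMap 𝒪 B (F.c g i j) =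
        (φ : A →+* B) (r g i j - algebraMap 𝒪 A (F.c g i j)) := by
      rw [map_sub, mapMat_apply]
      simp
    rw [h1]
    haveI := hφ
    exact map_maximalIdeal_le (φ : A →+* B) (Ideal.mem_map_of_mem _ (hr.lift g i j))
  x10 := by
    have := linExt_map φ F.x (fun g => r g) 1 0
    rw [hr.x10, map_zero] at this
    exact this
  y00 := by
    have := linExt_map φ F.y (fun g => r g) 0 0
    rw [hr.y00, map_zero] at this
    exact this
  y10 := by
    have := linExt_map φ F.y (fun g => r g) 1 0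
    rw [hr.y10, map_one] at this
    exact this

end NormLift

section Main

variable {𝒪 : Type} [CommRing 𝒪] [IsLocalRing 𝒪] {ρbar : ResidualGaloisRep (ResidueField 𝒪)}

attribute [local instance] isLocalRing_quot_pow

/-- The quotient map `A → A / m^(n+1)` as an `𝒪`-algebra homomorphism. -/
noncomputable abbrev quotPow (𝒪 : Type) [CommRing 𝒪] (A : Type) [CommRing A] [IsLocalRing A]
    [Algebra 𝒪 A] (n : ℕ) : A →ₐ[𝒪] A ⧸ maximalIdeal A ^ (n + 1) :=
  Ideal.Quotient.mkₐ 𝒪 (maximalIdeal A ^ (n + 1))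

theorem isLocalHom_quotPow (𝒪 : Type) [CommRing 𝒪] (A : Type) [CommRing A] [IsLocalRing A]
    [Algebra 𝒪 A] (n : ℕ) : IsLocalHom (quotPow 𝒪 A n : A →+* A ⧸ maximalIdeal A ^ (n + 1)) :=
  isLocalHom_mk A _ (pow_succ_ne_top A n)

/-- **CNL passage, matrix form.** If `rR` is universal for normalized type-`𝒟` lifts to Artinian
test algebras, then every normalized lift `r` to a complete noetherian local `𝒪`-algebra `A`
all of whose truncations `r mod m^(n+1)` are of type `𝒟` is induced from `rR` by a unique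
`𝒪`-algebra homomorphism. -/
theorem existsUnique_of_artinian
    (𝒟 : ∀ ⦃A : Type⦄ [CommRing A] [IsLocalRing A] [Algebra 𝒪 A], GaloisRepAdic A → Prop)
    (F : Frame 𝒪 ρbar)
    {R : Type} [CommRing R] [Algebra 𝒪 R] (rR : Gal →* M2 R)
    (hArt : ∀ (B : Type) [CommRing B] [IsLocalRing B] [Algebra 𝒪 B],
      GaloisRep.IsArtinianTestAlgebra 𝒪 B → ∀ (r : Gal →* M2 B) (hr : IsNormLift F r),
        𝒟 (ofMat r hr.cont) → ∃! φ : R →ₐ[𝒪] B, mapMat (φ : R →+* B) rR = r)
    (A : Type) [CommRing A] [IsLocalRing A] [IsNoetherianRing A]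
    [IsAdicComplete (maximalIdeal A) A] [Algebra 𝒪 A]
    (hloc : IsLocalHom (algebraMap 𝒪 A))
    (hsurj : Function.Surjective (IsLocalRing.residue A ∘ algebraMap 𝒪 A))
    (r : Gal →* M2 A) (hr : IsNormLift F r)
    (hD : ∀ n : ℕ, 𝒟 (ofMat (mapMat (quotPow 𝒪 A n : A →+* A ⧸ maximalIdeal A ^ (n + 1)) r)
      (matCont_mapMat _ (isLocalHom_quotPow 𝒪 A n) hr.cont))) :
    ∃! φ : R →ₐ[𝒪] A, mapMat (φ : R →+* A) rR = r := by
  -- finite-level data
  have hn : ∀ n : ℕ, ∃! φ : R →ₐ[𝒪] A ⧸ maximalIdeal A ^ (n + 1),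
      mapMat (φ : R →+* _) rR = mapMat (quotPow 𝒪 A n : A →+* A ⧸ maximalIdeal A ^ (n + 1)) r :=
    fun n => hArt _ (isArtinianTestAlgebra_quot_pow A hloc hsurj n) _
      (isNormLift_mapMat F (quotPow 𝒪 A n) (isLocalHom_quotPow 𝒪 A n) hr) (hD n)
  choose φ hφ hφu using hn
  beta_reduce at hφ hφu
  -- compatibility of the `φ n`
  have hcompat : ∀ {m n : ℕ} (hle : m ≤ n),
      (Ideal.Quotient.factorₐ 𝒪 (Ideal.pow_le_pow_right (Nat.succ_le_succ hle))).comp (φ n)
        = φ m := by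
    intro m n hle
    apply hφu m
    rw [mapMat_eq_iff]
    intro σ i j
    have h1 := (mapMat_eq_iff _ _ _).mp (hφ n) σ i j
    simp only [AlgHom.coe_toRingHom, AlgHom.comp_apply] at h1 ⊢
    rw [h1]
    rfl
  -- the truncated system `f n : R → A / m^n`
  let f : (n : ℕ) → R →ₐ[𝒪] A ⧸ maximalIdeal A ^ n := fun n =>
    (Ideal.Quotient.factorₐ 𝒪 (Ideal.pow_le_pow_right (Nat.le_succ n))).comp (φ n)
  have hf : ∀ {m n : ℕ} (hle : m ≤ n),
      (Ideal.Quotient.factorₐ 𝒪 (Ideal.pow_le_pow_right hle)).comp (f n) = f m := by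
    intro m n hle
    ext x
    have h1 := congrArg (fun g : R →ₐ[𝒪] A ⧸ maximalIdeal A ^ (m + 1) => g x) (hcompat hle)
    simp only [AlgHom.comp_apply] at h1
    simp only [f, AlgHom.comp_apply]
    rw [← h1]
    obtain ⟨a, ha⟩ := Ideal.Quotient.mk_surjective (φ n x)
    rw [← ha]
    rfl
  have hfφ : ∀ n x, f (n + 1) x = φ n x := by
    intro n x
    have h1 := congrArg (fun g : R →ₐ[𝒪] A ⧸ maximalIdeal A ^ (n + 1) => g x)
      (hcompat (Nat.le_succ n))
    simp only [AlgHom.comp_apply] at h1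
    simp only [f, AlgHom.comp_apply]
    rw [← h1]
  refine ⟨IsAdicComplete.liftAlgHom (maximalIdeal A) f hf, ?_, ?_⟩
  · show mapMat _ rR = r
    rw [mapMat_eq_iff]
    intro σ i j
    simp only [AlgHom.coe_toRingHom]
    rw [← sub_eq_zero]
    apply IsHausdorff.haus (inferInstance : IsHausdorff (maximalIdeal A) A)
    intro n
    rw [smul_eq_mul, Ideal.mul_top, SModEq.sub_mem, sub_zero]
    have hle : maximalIdeal A ^ (n + 1) ≤ maximalIdeal A ^ n := Ideal.pow_le_pow_right (Nat.le_succ n)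
    apply hle
    rw [← Ideal.Quotient.eq]
    have h1 := IsAdicComplete.mk_liftAlgHom (maximalIdeal A) f hf (n + 1) (rR σ i j)
    rw [h1, hfφ]
    exact (mapMat_eq_iff _ _ _).mp (hφ n) σ i j
  · intro ψ hψ
    change mapMat _ rR = r at hψ
    apply IsAdicComplete.algHom_ext (maximalIdeal A)
    intro n
    rw [IsAdicComplete.mkₐ_comp_liftAlgHom]
    have h2 : (quotPow 𝒪 A n).comp ψ = φ n := by
      apply hφu n
      rw [mapMat_eq_iff]
      intro σ i j
      have h3 := (mapMat_eq_iff _ _ _).mp hψ σ i j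
      simp only [AlgHom.coe_toRingHom, AlgHom.comp_apply] at h3 ⊢
      rw [h3]
      rfl
    ext x
    have h3 := congrArg (fun g : R →ₐ[𝒪] A ⧸ maximalIdeal A ^ (n + 1) => g x) h2
    simp only [AlgHom.comp_apply] at h3
    simp only [f, AlgHom.comp_apply]
    rw [← h3]
    rfl

end Main

end Fermat.Agent.S53.CNL
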