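import Mathlib.RingTheory.AdicCompletion.Basic
import Mathlib.Order.SupClosed
import Mathlib.RingTheory.Ideal.Quotient.Operations
import Mathlib.RingTheory.Ideal.Maps

/-!
# Filtered families of open ideals in an adically complete ring (Chevalley-type lemma)

`Λ` a commutative ring, `m` an ideal, `Λ` `m`-adically precomplete, all `Λ ⧸ m ^ n` finite.
`𝒦` a set of ideals, each containing a power of `m`, closed under binary `⊓`, upward closed
among ideals `≤ m`, and containing `m`.  Then for all `n ≥ 1`, `sInf 𝒦 ⊔ m ^ n ∈ 𝒦`.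
-/

set_option autoImplicit false

namespace Fermat.Agent.S53.H8

open Ideal

section Finite

variable {Λ : Type*} [CommRing Λ]

/-- The set of ideals containing an ideal of finite index is finite. -/
theorem finite_setOf_le_of_finite_quotient (I : Ideal Λ) [Finite (Λ ⧸ I)] :
    {K : Ideal Λ | I ≤ K}.Finite := by
  classical
  have hfin : Finite (Ideal (Λ ⧸ I)) :=
    Finite.of_injective (fun K : Ideal (Λ ⧸ I) => (K : Set (Λ ⧸ I))) SetLike.coe_injective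
  refine Set.Finite.of_finite_image (f := fun K : Ideal Λ => K.map (Ideal.Quotient.mk I))
    (Set.toFinite _) ?_
  intro K hK K' hK' h
  have h1 : (K.map (Ideal.Quotient.mk I)).comap (Ideal.Quotient.mk I) = K := by
    rw [Ideal.comap_map_of_surjective _ Ideal.Quotient.mk_surjective, ← RingHom.ker_eq_comap_bot,
      Ideal.mk_ker]
    exact sup_eq_left.mpr hK
  have h2 : (K'.map (Ideal.Quotient.mk I)).comap (Ideal.Quotient.mk I) = K' := by
    rw [Ideal.comap_map_of_surjective _ Ideal.Quotient.mk_surjective, ← RingHom.ker_eq_comap_bot,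
      Ideal.mk_ker]
    exact sup_eq_left.mpr hK'
  have h' : K.map (Ideal.Quotient.mk I) = K'.map (Ideal.Quotient.mk I) := h
  rw [← h1, ← h2, h']

end Finite

section Filtered

variable {Λ : Type*} [CommRing Λ] (m : Ideal Λ) (𝒦 : Set (Ideal Λ))

/-- The smallest member of `𝒦` containing `m ^ n` (when it exists). -/
noncomputable def levelIdeal (n : ℕ) : Ideal Λ := sInf {K | K ∈ 𝒦 ∧ m ^ n ≤ K}

variable {m 𝒦}

theorem pow_le_levelIdeal (n : ℕ) : m ^ n ≤ levelIdeal m 𝒦 n :=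
  le_sInf fun _ hK => hK.2

theorem levelIdeal_le_of_mem {K : Ideal Λ} (hK : K ∈ 𝒦) {n : ℕ} (hn : m ^ n ≤ K) :
    levelIdeal m 𝒦 n ≤ K :=
  sInf_le ⟨hK, hn⟩

theorem levelIdeal_antitone : Antitone (levelIdeal m 𝒦) := by
  intro a b hab
  exact sInf_le_sInf fun K hK => ⟨hK.1, (Ideal.pow_le_pow_right hab).trans hK.2⟩

theorem levelIdeal_mem (hfin : ∀ n, Finite (Λ ⧸ m ^ n)) (hinf : InfClosed 𝒦) (hm : m ∈ 𝒦)
    {n : ℕ} (hn : n ≠ 0) : levelIdeal m 𝒦 n ∈ 𝒦 := by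
  have := hfin n
  refine hinf.sInf_mem_of_nonempty ?_ ⟨m, hm, Ideal.pow_le_self hn⟩ fun K hK => hK.1
  exact (finite_setOf_le_of_finite_quotient (m ^ n)).subset fun K hK => hK.2

theorem levelIdeal_le_self (hm : m ∈ 𝒦) {n : ℕ} (hn : n ≠ 0) : levelIdeal m 𝒦 n ≤ m :=
  levelIdeal_le_of_mem hm (Ideal.pow_le_self hn)

theorem sInf_le_levelIdeal (hfin : ∀ n, Finite (Λ ⧸ m ^ n)) (hinf : InfClosed 𝒦) (hm : m ∈ 𝒦)
    {n : ℕ} (hn : n ≠ 0) : sInf 𝒦 ≤ levelIdeal m 𝒦 n :=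
  sInf_le (levelIdeal_mem hfin hinf hm hn)

theorem levelIdeal_le_succ_sup (hfin : ∀ n, Finite (Λ ⧸ m ^ n)) (hinf : InfClosed 𝒦)
    (hup : ∀ K ∈ 𝒦, ∀ K' : Ideal Λ, K ≤ K' → K' ≤ m → K' ∈ 𝒦) (hm : m ∈ 𝒦)
    {n : ℕ} (hn : n ≠ 0) : levelIdeal m 𝒦 n ≤ levelIdeal m 𝒦 (n + 1) ⊔ m ^ n := by
  refine levelIdeal_le_of_mem ?_ le_sup_right
  refine hup _ (levelIdeal_mem hfin hinf hm (Nat.succ_ne_zero n)) _ le_sup_left ?_
  exact sup_le (levelIdeal_le_self hm (Nat.succ_ne_zero n)) (Ideal.pow_le_self hn)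

/-- Main series argument: every element of the `n`-th level ideal is in `sInf 𝒦 ⊔ m ^ n`. -/
theorem levelIdeal_le_sInf_sup [IsPrecomplete m Λ]
    (hfin : ∀ n, Finite (Λ ⧸ m ^ n)) (hopen : ∀ K ∈ 𝒦, ∃ n, m ^ n ≤ K) (hinf : InfClosed 𝒦)
    (hup : ∀ K ∈ 𝒦, ∀ K' : Ideal Λ, K ≤ K' → K' ≤ m → K' ∈ 𝒦) (hm : m ∈ 𝒦)
    {n : ℕ} (hn : n ≠ 0) : levelIdeal m 𝒦 n ≤ sInf 𝒦 ⊔ m ^ n := by
  intro x hx
  -- one step of the recursion
  have step : ∀ (j : ℕ) (y : Λ), y ∈ levelIdeal m 𝒦 (n + j) →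
      ∃ y' : Λ, y' ∈ levelIdeal m 𝒦 (n + (j + 1)) ∧ y - y' ∈ m ^ (n + j) := by
    intro j y hy
    have hnj : n + j ≠ 0 := by omega
    have := levelIdeal_le_succ_sup hfin hinf hup hm hnj hy
    obtain ⟨y', hy', t, ht, rfl⟩ := Submodule.mem_sup.mp this
    exact ⟨y', hy', by simpa using ht⟩
  -- the sequence
  let seq : (j : ℕ) → {y : Λ // y ∈ levelIdeal m 𝒦 (n + j)} := fun j =>
    Nat.rec (motive := fun j => {y : Λ // y ∈ levelIdeal m 𝒦 (n + j)}) ⟨x, by simpa using hx⟩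
      (fun j y => ⟨(step j y.1 y.2).choose, (step j y.1 y.2).choose_spec.1⟩) j
  have hseq0 : (seq 0).1 = x := rfl
  have hseqs : ∀ j, (seq j).1 - (seq (j + 1)).1 ∈ m ^ (n + j) := fun j =>
    (step j (seq j).1 (seq j).2).choose_spec.2
  -- differences
  have hdiff : ∀ M N, M ≤ N → (seq M).1 - (seq N).1 ∈ m ^ (n + M) := by
    intro M N hMN
    induction N, hMN using Nat.le_induction with
    | base => simp
    | succ N hMN ih =>
      have h1 := hseqs N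
      have h2 : m ^ (n + N) ≤ m ^ (n + M) := Ideal.pow_le_pow_right (by omega)
      have : (seq M).1 - (seq (N + 1)).1 =
          ((seq M).1 - (seq N).1) + ((seq N).1 - (seq (N + 1)).1) := by ring
      rw [this]
      exact add_mem ih (h2 h1)
  -- the Cauchy sequence `x - x_N`
  obtain ⟨t, ht⟩ := IsPrecomplete.prec ‹IsPrecomplete m Λ› (f := fun N => x - (seq N).1) (by
    intro M N hMN
    rw [SModEq.sub_mem]
    have h1 := hdiff M N hMN
    have h2 : m ^ (n + M) ≤ m ^ M := Ideal.pow_le_pow_right (by omega)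
    have : x - (seq M).1 - (x - (seq N).1) = -((seq M).1 - (seq N).1) := by ring
    rw [this]
    simpa using neg_mem (h2 h1))
  have ht' : ∀ N, x - (seq N).1 - t ∈ m ^ N := by
    intro N
    have := ht N
    rw [SModEq.sub_mem] at this
    simpa using this
  -- `t ∈ m ^ n`
  have htn : t ∈ m ^ n := by
    have h1 := ht' n
    have h2 : x - (seq n).1 ∈ m ^ n := by
      have := hdiff 0 n (Nat.zero_le n)
      rw [hseq0] at this
      simpa using this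
    have : t = (x - (seq n).1) - (x - (seq n).1 - t) := by ring
    rw [this]
    exact sub_mem h2 h1
  -- `x - t ∈ sInf 𝒦`
  have hy : x - t ∈ sInf 𝒦 := by
    rw [Submodule.mem_sInf]
    intro K hK
    obtain ⟨M, hM⟩ := hopen K hK
    have h1 : (seq M).1 ∈ K :=
      levelIdeal_le_of_mem hK ((Ideal.pow_le_pow_right (by omega : M ≤ n + M)).trans hM) (seq M).2
    have h2 : x - (seq M).1 - t ∈ K := hM (ht' M)
    have : x - t = (seq M).1 + (x - (seq M).1 - t) := by ring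
    rw [this]
    exact add_mem h1 h2
  have : x = (x - t) + t := by ring
  rw [this]
  exact Submodule.add_mem_sup hy htn

/-- **Chevalley-type lemma**: `sInf 𝒦 ⊔ m ^ n` is the smallest member of `𝒦` containing `m ^ n`. -/
theorem sInf_sup_pow_eq_levelIdeal [IsPrecomplete m Λ]
    (hfin : ∀ n, Finite (Λ ⧸ m ^ n)) (hopen : ∀ K ∈ 𝒦, ∃ n, m ^ n ≤ K) (hinf : InfClosed 𝒦)
    (hup : ∀ K ∈ 𝒦, ∀ K' : Ideal Λ, K ≤ K' → K' ≤ m → K' ∈ 𝒦) (hm : m ∈ 𝒦)
    {n : ℕ} (hn : n ≠ 0) : sInf 𝒦 ⊔ m ^ n = levelIdeal m 𝒦 n :=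
  le_antisymm (sup_le (sInf_le_levelIdeal hfin hinf hm hn) (pow_le_levelIdeal n))
    (levelIdeal_le_sInf_sup hfin hopen hinf hup hm hn)

/-- **Chevalley-type lemma**: `sInf 𝒦 ⊔ m ^ n ∈ 𝒦` for `n ≠ 0`. -/
theorem sInf_sup_pow_mem [IsPrecomplete m Λ]
    (hfin : ∀ n, Finite (Λ ⧸ m ^ n)) (hopen : ∀ K ∈ 𝒦, ∃ n, m ^ n ≤ K) (hinf : InfClosed 𝒦)
    (hup : ∀ K ∈ 𝒦, ∀ K' : Ideal Λ, K ≤ K' → K' ≤ m → K' ∈ 𝒦) (hm : m ∈ 𝒦)
    {n : ℕ} (hn : n ≠ 0) : sInf 𝒦 ⊔ m ^ n ∈ 𝒦 := by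
  rw [sInf_sup_pow_eq_levelIdeal hfin hopen hinf hup hm hn]
  exact levelIdeal_mem hfin hinf hm hn

end Filtered

end Fermat.Agent.S53.H8
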