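import Mathlib
import Fermat.Agent.S53.TestDefs
import Fermat.Agent.S53.EvalSurj

/-!
# S53, work package H: tangent vectors separating a proper subalgebra

For an Artinian test algebra `A` and a proper `𝒪`-subalgebra `B ≠ ⊤` there is an `𝒪`-algebra
homomorphism `θ : A → k[ε]` whose `ε`-component vanishes on `B` but not on `A`.
-/

set_option autoImplicit false

noncomputable section

namespace Fermat.Agent.S53

open IsLocalRing GaloisRep

variable {𝒪 : Type} [CommRing 𝒪] [IsLocalRing 𝒪]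
variable {A : Type} [CommRing A] [IsLocalRing A] [Algebra 𝒪 A]

/-- If a subalgebra `B` of an Artinian test algebra is proper, then the ideal generated by
`B ∩ 𝔪` together with `𝔪²` is strictly smaller than `𝔪`. -/
theorem tsep_not_le (hA : IsArtinianTestAlgebra 𝒪 A) (B : Subalgebra 𝒪 A) (hB : B ≠ ⊤) :
    ¬ maximalIdeal A ≤ Ideal.span {x | x ∈ B ∧ x ∈ maximalIdeal A} ⊔ maximalIdeal A ^ 2 := by
  intro hle
  haveI := hA.isArtinian
  have hnak : maximalIdeal A ≤ Ideal.span {x | x ∈ B ∧ x ∈ maximalIdeal A} := by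
    refine Submodule.le_of_le_smul_of_le_jacobson_bot (IsNoetherian.noetherian _)
      (IsLocalRing.maximalIdeal_le_jacobson ⊥) ?_
    rw [smul_eq_mul, ← sq]
    exact hle
  have hnil : ∃ n : ℕ, maximalIdeal A ^ n = ⊥ := by
    obtain ⟨n, hn⟩ := (isArtinianRing_iff_isNilpotent_maximalIdeal A).mp ‹IsArtinianRing A›
    exact ⟨n, by rw [hn, Ideal.zero_eq_bot]⟩
  refine hB (subalgebra_eq_top_of_nilpotent B ?_ {x | x ∈ B ∧ x ∈ maximalIdeal A}
    (fun x hx => hx.1) (le_antisymm (Ideal.span_le.mpr fun x hx => hx.2) hnak) hnil)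
  intro x
  obtain ⟨c, hc⟩ := hA.residue_surjective (IsLocalRing.residue A x)
  refine ⟨algebraMap 𝒪 A c, Subalgebra.algebraMap_mem _ c, ?_⟩
  rw [← Ideal.Quotient.eq]
  exact hc.symm

theorem exists_tangent_separating (hA : IsArtinianTestAlgebra 𝒪 A) (B : Subalgebra 𝒪 A)
    (hB : B ≠ ⊤) :
    letI := dualNumberAlgebra 𝒪
    ∃ θ : A →ₐ[𝒪] DualNumber (ResidueField 𝒪),
      (∀ b ∈ B, TrivSqZeroExt.snd (θ b) = 0) ∧ ∃ a, TrivSqZeroExt.snd (θ a) ≠ 0 := by
  classical
  letI := dualNumberAlgebra 𝒪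
  haveI := hA.isArtinian
  have hloc := hA.isLocalHom
  have hsurj := hA.residue_surjective
  -- the ideal `I` and an element `e₀ ∈ 𝔪 \ I`
  obtain ⟨I, hIdef⟩ : ∃ I : Ideal A,
      I = Ideal.span {x | x ∈ B ∧ x ∈ maximalIdeal A} ⊔ maximalIdeal A ^ 2 := ⟨_, rfl⟩
  have hBI : ∀ x, x ∈ B → x ∈ maximalIdeal A → x ∈ I := fun x hx hxm => by
    rw [hIdef]; exact Ideal.mem_sup_left (Ideal.subset_span ⟨hx, hxm⟩)
  have hsqI : maximalIdeal A ^ 2 ≤ I := by rw [hIdef]; exact le_sup_right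
  have hnot : ¬ maximalIdeal A ≤ I := by rw [hIdef]; exact tsep_not_le hA B hB
  obtain ⟨e₀, he₀m, he₀I⟩ := Set.not_subset.mp hnot
  -- a maximal ideal `I'` containing `I` and not containing `e₀`
  obtain ⟨I', ⟨hII', he₀I'⟩, hmax⟩ :=
    set_has_maximal_iff_noetherian.mpr (inferInstance : IsNoetherian A A)
      {J : Ideal A | I ≤ J ∧ e₀ ∉ J} ⟨I, le_refl _, he₀I⟩
  have hI'm : I' ≤ maximalIdeal A :=
    IsLocalRing.le_maximalIdeal (fun h => he₀I' (h ▸ Submodule.mem_top))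
  have hsqI' : ∀ x y, x ∈ maximalIdeal A → y ∈ maximalIdeal A → x * y ∈ I' := fun x y hx hy =>
    hII' (hsqI (by rw [sq]; exact Ideal.mul_mem_mul hx hy))
  have halg : ∀ c : 𝒪, c ∈ maximalIdeal 𝒪 → algebraMap 𝒪 A c ∈ I' := fun c hc =>
    hII' (hBI _ (Subalgebra.algebraMap_mem _ c) (by
      rw [mem_maximalIdeal, mem_nonunits_iff] at hc ⊢
      exact fun h => hc (hloc.map_nonunit c h)))
  -- every element of `𝔪` is in `I' + A e₀`
  have hspan : ∀ x ∈ maximalIdeal A, ∃ u : A, x - u * e₀ ∈ I' := by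
    intro x hx
    by_cases hxI' : x ∈ I'
    · exact ⟨0, by simpa using hxI'⟩
    · have hlt : I' < I' ⊔ Ideal.span {x} := by
        refine lt_of_le_of_ne le_sup_left fun h => hxI' ?_
        rw [h]
        exact Ideal.mem_sup_right (Ideal.subset_span rfl)
      have he₀ : e₀ ∈ I' ⊔ Ideal.span {x} := by
        by_contra hcon
        exact hmax _ ⟨hII'.trans le_sup_left, hcon⟩ hlt
      obtain ⟨i, hi, y, hy, hiy⟩ := Submodule.mem_sup.mp he₀
      obtain ⟨a, rfl⟩ := Ideal.mem_span_singleton'.mp hy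
      have hau : IsUnit a := by
        by_contra hnu
        refine he₀I' ?_
        rw [← hiy]
        exact Ideal.add_mem _ hi (hsqI' a x hnu hx)
      obtain ⟨a', ha'⟩ := hau.exists_left_inv
      refine ⟨a', ?_⟩
      have : x - a' * e₀ = -(a' * i) := by
        rw [← hiy]
        linear_combination (-x) * ha'
      rw [this]
      exact Ideal.neg_mem_iff _ |>.mpr (Ideal.mul_mem_left _ _ hi)
  -- the quotient and the comparison map from `k[ε]`
  let Q := A ⧸ I'
  let mkQ : A →+* Q := Ideal.Quotient.mk I'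
  let κ : ResidueField 𝒪 →+* Q :=
    Ideal.Quotient.lift (maximalIdeal 𝒪) (mkQ.comp (algebraMap 𝒪 A)) (fun c hc => by
      rw [RingHom.comp_apply]
      exact Ideal.Quotient.eq_zero_iff_mem.mpr (halg c hc))
  have hκ : ∀ c : 𝒪, κ (residue 𝒪 c) = mkQ (algebraMap 𝒪 A c) := fun c => rfl
  letI : Algebra (ResidueField 𝒪) Q := κ.toAlgebra
  have hee : mkQ e₀ * mkQ e₀ = 0 := by
    rw [← map_mul]
    exact Ideal.Quotient.eq_zero_iff_mem.mpr (hsqI' _ _ he₀m he₀m)
  let ψ : DualNumber (ResidueField 𝒪) →ₐ[ResidueField 𝒪] Q :=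
    DualNumber.lift ⟨(Algebra.ofId (ResidueField 𝒪) Q, mkQ e₀), hee, fun a => Commute.all _ _⟩
  have hψ : ∀ z : DualNumber (ResidueField 𝒪),
      ψ z = κ (TrivSqZeroExt.fst z) + κ (TrivSqZeroExt.snd z) * mkQ e₀ := fun z => by
    rw [DualNumber.lift_apply_apply]
    rfl
  have hmemm : ∀ c : 𝒪, algebraMap 𝒪 A c ∈ maximalIdeal A → c ∈ maximalIdeal 𝒪 := by
    intro c hc
    rw [mem_maximalIdeal, mem_nonunits_iff] at hc ⊢
    exact fun h => hc (h.map _)
  have hψinj : Function.Injective ψ := by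
    rw [injective_iff_map_eq_zero]
    intro z hz
    obtain ⟨c, hc⟩ := Ideal.Quotient.mk_surjective (TrivSqZeroExt.fst z)
    obtain ⟨c', hc'⟩ := Ideal.Quotient.mk_surjective (TrivSqZeroExt.snd z)
    have hc0 : residue 𝒪 c = TrivSqZeroExt.fst z := hc
    have hc0' : residue 𝒪 c' = TrivSqZeroExt.snd z := hc'
    rw [hψ, ← hc0, ← hc0', hκ, hκ, ← map_mul, ← map_add] at hz
    have hmem : algebraMap 𝒪 A c + algebraMap 𝒪 A c' * e₀ ∈ I' :=
      Ideal.Quotient.eq_zero_iff_mem.mp hz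
    have hcm : c ∈ maximalIdeal 𝒪 := by
      refine hmemm c ?_
      have := Ideal.sub_mem _ (hI'm hmem) (Ideal.mul_mem_left _ (algebraMap 𝒪 A c') he₀m)
      simpa using this
    have hc'e : algebraMap 𝒪 A c' * e₀ ∈ I' := by
      have := Ideal.sub_mem _ hmem (halg c hcm)
      simpa using this
    have hcm' : c' ∈ maximalIdeal 𝒪 := by
      by_contra hnm
      have hu : IsUnit c' := by
        by_contra hnu
        exact hnm hnu
      obtain ⟨v, hv⟩ := (hu.map (algebraMap 𝒪 A)).exists_left_inv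
      refine he₀I' ?_
      have : e₀ = v * (algebraMap 𝒪 A c' * e₀) := by
        rw [← mul_assoc, hv, one_mul]
      rw [this]
      exact Ideal.mul_mem_left _ _ hc'e
    have h1 : TrivSqZeroExt.fst z = 0 := by
      rw [← hc0]; exact (residue_eq_zero_iff c).mpr hcm
    have h2 : TrivSqZeroExt.snd z = 0 := by
      rw [← hc0']; exact (residue_eq_zero_iff c').mpr hcm'
    exact TrivSqZeroExt.ext h1 h2
  -- decomposition of elements of `A`
  have hdecomp : ∀ a : A, ∃ c c' : 𝒪,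
      mkQ a = ψ (TrivSqZeroExt.inl (residue 𝒪 c) + TrivSqZeroExt.inr (residue 𝒪 c')) := by
    intro a
    obtain ⟨c, hc⟩ := hsurj (IsLocalRing.residue A a)
    have hx : a - algebraMap 𝒪 A c ∈ maximalIdeal A := by
      rw [← Ideal.Quotient.eq]
      exact hc.symm
    obtain ⟨u, hu⟩ := hspan _ hx
    obtain ⟨c', hc'⟩ := hsurj (IsLocalRing.residue A u)
    have hu' : u - algebraMap 𝒪 A c' ∈ maximalIdeal A := by
      rw [← Ideal.Quotient.eq]
      exact hc'.symm
    refine ⟨c, c', ?_⟩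
    rw [hψ]
    simp only [TrivSqZeroExt.fst_add, TrivSqZeroExt.fst_inl, TrivSqZeroExt.fst_inr, add_zero,
      TrivSqZeroExt.snd_add, TrivSqZeroExt.snd_inl, TrivSqZeroExt.snd_inr, zero_add]
    rw [hκ, hκ, ← map_mul, ← map_add]
    refine (Ideal.Quotient.eq).mpr ?_
    have : a - (algebraMap 𝒪 A c + algebraMap 𝒪 A c' * e₀) =
        (a - algebraMap 𝒪 A c - u * e₀) + (u - algebraMap 𝒪 A c') * e₀ := by ring
    rw [this]
    exact Ideal.add_mem _ hu (hsqI' _ _ hu' he₀m)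
  have hψsurj : Function.Surjective ψ := by
    intro q
    obtain ⟨a, rfl⟩ := Ideal.Quotient.mk_surjective q
    obtain ⟨c, c', h⟩ := hdecomp a
    exact ⟨_, h.symm⟩
  let E : DualNumber (ResidueField 𝒪) ≃+* Q := RingEquiv.ofBijective ψ ⟨hψinj, hψsurj⟩
  have hE : ∀ z, E z = ψ z := fun z => rfl
  let θ₀ : A →+* DualNumber (ResidueField 𝒪) := E.symm.toRingHom.comp mkQ
  have hθ₀ : ∀ a z, mkQ a = ψ z → θ₀ a = z := by
    intro a z h
    show E.symm (mkQ a) = z
    rw [h, ← hE, RingEquiv.symm_apply_apply]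
  have hθalg : ∀ c : 𝒪, θ₀ (algebraMap 𝒪 A c) = TrivSqZeroExt.inl (residue 𝒪 c) := by
    intro c
    refine hθ₀ _ _ ?_
    rw [hψ, TrivSqZeroExt.fst_inl, TrivSqZeroExt.snd_inl, map_zero, zero_mul, add_zero, hκ]
  let θ : A →ₐ[𝒪] DualNumber (ResidueField 𝒪) :=
    { θ₀ with
      commutes' := fun c => by
        show θ₀ (algebraMap 𝒪 A c) = _
        rw [hθalg]
        rfl }
  have hθ : ∀ a, θ a = θ₀ a := fun a => rfl
  refine ⟨θ, ?_, e₀, ?_⟩
  · intro b hb
    obtain ⟨c, hc⟩ := hsurj (IsLocalRing.residue A b)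
    have hx : b - algebraMap 𝒪 A c ∈ maximalIdeal A := by
      rw [← Ideal.Quotient.eq]
      exact hc.symm
    have hxB : b - algebraMap 𝒪 A c ∈ B := B.sub_mem hb (Subalgebra.algebraMap_mem _ c)
    have hxI' : b - algebraMap 𝒪 A c ∈ I' := hII' (hBI _ hxB hx)
    have : θ b = TrivSqZeroExt.inl (residue 𝒪 c) := by
      rw [hθ]
      refine hθ₀ _ _ ?_
      rw [hψ, TrivSqZeroExt.fst_inl, TrivSqZeroExt.snd_inl, map_zero, zero_mul, add_zero, hκ]
      exact (Ideal.Quotient.eq).mpr hxI'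
    rw [this, TrivSqZeroExt.snd_inl]
  · have : θ e₀ = DualNumber.eps := by
      rw [hθ]
      refine hθ₀ _ _ ?_
      rw [hψ, DualNumber.fst_eps, DualNumber.snd_eps, map_zero, map_one, one_mul, zero_add]
    rw [this, DualNumber.snd_eps]
    exact one_ne_zero

end Fermat.Agent.S53
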