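import Fermat.Agent.S53.TestDefs

/-!
# S53 WP-E2: ring theory of Artinian test algebras

For an Artinian test algebra `A` over `𝒪` (local, Artinian, `𝒪 → A` local with residue field of
`A` a quotient of `𝒪`): finiteness, subalgebras, quotients, `k`, `k[ε]`, and `A ⧸ 𝔪^j` for
complete Noetherian local `A`.

All statements take the test-algebra hypothesis `hA : GaloisRep.IsArtinianTestAlgebra 𝒪 A`
explicitly; local-ring structures on subalgebras and quotients are provided as theorems
(`isLocalRing_subalgebra`, `isLocalRing_quotient`), to be installed with `letI`/`haveI`.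
-/

set_option autoImplicit false
set_option linter.unusedSectionVars false
set_option linter.style.haveILetI false

namespace Fermat.Agent.S53

open IsLocalRing GaloisRep

section Basic

variable {𝒪 : Type} [CommRing 𝒪] [IsLocalRing 𝒪]
variable {A : Type} [CommRing A] [IsLocalRing A] [Algebra 𝒪 A]

/-- In an Artinian local ring the maximal ideal consists of nilpotent elements. -/
theorem isNilpotent_of_mem_maximalIdeal [IsArtinianRing A] {a : A} (ha : a ∈ maximalIdeal A) :
    IsNilpotent a := by
  have h := IsArtinianRing.isNilpotent_jacobson_bot (R := A)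
  rw [IsLocalRing.jacobson_eq_maximalIdeal (⊥ : Ideal A) bot_ne_top] at h
  obtain ⟨n, hn⟩ := h
  refine ⟨n, ?_⟩
  have : a ^ n ∈ maximalIdeal A ^ n := Ideal.pow_mem_pow ha n
  rw [hn] at this
  simpa using this

/-- Every element of a test algebra is congruent modulo the maximal ideal to an element coming
from `𝒪`. -/
theorem testAlg_exists_sub_mem (hA : IsArtinianTestAlgebra 𝒪 A) (a : A) :
    ∃ c : 𝒪, a - algebraMap 𝒪 A c ∈ maximalIdeal A := by
  obtain ⟨c, hc⟩ := hA.residue_surjective (residue A a)
  refine ⟨c, ?_⟩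
  rw [← IsLocalRing.residue_eq_zero_iff, map_sub, sub_eq_zero]
  exact hc.symm

/-- Elements of the maximal ideal of a test algebra are nilpotent. -/
theorem testAlg_isNilpotent (hA : IsArtinianTestAlgebra 𝒪 A) {a : A}
    (ha : a ∈ maximalIdeal A) : IsNilpotent a :=
  haveI := hA.isArtinian
  isNilpotent_of_mem_maximalIdeal ha

/-- The maximal ideal of a test algebra is nilpotent. -/
theorem testAlg_isNilpotent_maximalIdeal (hA : IsArtinianTestAlgebra 𝒪 A) :
    IsNilpotent (maximalIdeal A) := by
  haveI := hA.isArtinian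
  have h := IsArtinianRing.isNilpotent_jacobson_bot (R := A)
  rwa [IsLocalRing.jacobson_eq_maximalIdeal (⊥ : Ideal A) bot_ne_top] at h

/-- The residue field of a test algebra is finite if that of `𝒪` is. -/
theorem testAlg_finite_residueField [Finite (ResidueField 𝒪)]
    (hA : IsArtinianTestAlgebra 𝒪 A) : Finite (ResidueField A) := by
  haveI := hA.isLocalHom
  have hsurj : Function.Surjective (ResidueField.map (algebraMap 𝒪 A)) := by
    intro x
    obtain ⟨c, hc⟩ := hA.residue_surjective x
    exact ⟨residue 𝒪 c, by rw [ResidueField.map_residue]; exact hc⟩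
  exact Finite.of_surjective _ hsurj

/-- A module of finite length over a local ring with finite residue field is finite. -/
theorem finite_of_isFiniteLength {R : Type} [CommRing R] [IsLocalRing R]
    [Finite (ResidueField R)] {M : Type} [AddCommGroup M] [Module R M]
    (h : IsFiniteLength R M) : Finite M := by
  induction h with
  | of_subsingleton => exact Finite.of_subsingleton
  | @of_simple_quotient M _ _ N hsimple hN ih =>
    obtain ⟨I, hI, ⟨e⟩⟩ := isSimpleModule_iff_quot_maximal.mp hsimple
    have hIm : I = maximalIdeal R := IsLocalRing.eq_maximalIdeal hI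
    subst hIm
    haveI : Finite (R ⧸ maximalIdeal R) := ‹Finite (ResidueField R)›
    haveI : Finite (M ⧸ N) := Finite.of_equiv _ e.symm.toEquiv
    haveI : Finite N := ih
    haveI : Finite (M ⧸ N.toAddSubgroup) := ‹Finite (M ⧸ N)›
    haveI : Finite N.toAddSubgroup := ‹Finite N›
    exact Finite.of_equiv _
      (AddSubgroup.addGroupEquivQuotientProdAddSubgroup (s := N.toAddSubgroup)).symm

/-- An Artinian test algebra over `𝒪` with finite residue field is a finite ring. -/
theorem testAlg_finite [Finite (ResidueField 𝒪)]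
    (hA : IsArtinianTestAlgebra 𝒪 A) : Finite A := by
  haveI := testAlg_finite_residueField hA
  haveI := hA.isArtinian
  exact finite_of_isFiniteLength ((isArtinianRing_iff_isFiniteLength A).mp inferInstance)

end Basic

section Subalgebra

variable {𝒪 : Type} [CommRing 𝒪] [IsLocalRing 𝒪]
variable {A : Type} [CommRing A] [IsLocalRing A] [Algebra 𝒪 A]

/-- An element of an `𝒪`-subalgebra of a test algebra which is a unit in `A` is a unit in the
subalgebra. -/
theorem testAlg_isUnit_subalgebra (hA : IsArtinianTestAlgebra 𝒪 A) (B : Subalgebra 𝒪 A)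
    (b : B) (hb : IsUnit (b : A)) : IsUnit b := by
  haveI := hA.isLocalHom
  obtain ⟨c, hc⟩ := testAlg_exists_sub_mem hA (b : A)
  -- `algebraMap c` is a unit of `A`, hence `c` is a unit of `𝒪`
  have hcA : IsUnit (algebraMap 𝒪 A c) := by
    by_contra hnu
    have hmem : algebraMap 𝒪 A c ∈ maximalIdeal A := hnu
    have : (b : A) ∈ maximalIdeal A := by
      have := (maximalIdeal A).add_mem hc hmem
      simpa using this
    exact this hb
  have hc𝒪 : IsUnit c := isUnit_of_map_unit (algebraMap 𝒪 A) c hcA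
  have hcB : IsUnit (algebraMap 𝒪 B c) := hc𝒪.map (algebraMap 𝒪 B)
  -- `b - algebraMap c` is nilpotent in `B`
  have hnil : IsNilpotent (b - algebraMap 𝒪 B c) := by
    obtain ⟨n, hn⟩ := testAlg_isNilpotent hA hc
    refine ⟨n, Subtype.ext ?_⟩
    simpa using hn
  have := hnil.isUnit_add_left_of_commute hcB (Commute.all _ _)
  simpa using this

/-- An `𝒪`-subalgebra of a test algebra is a local ring. -/
theorem isLocalRing_subalgebra (hA : IsArtinianTestAlgebra 𝒪 A) (B : Subalgebra 𝒪 A) :
    IsLocalRing B := by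
  refine IsLocalRing.of_nonunits_add fun a b ha hb => ?_
  have ha' : (a : A) ∈ nonunits A := fun h => ha (testAlg_isUnit_subalgebra hA B a h)
  have hb' : (b : A) ∈ nonunits A := fun h => hb (testAlg_isUnit_subalgebra hA B b h)
  intro hab
  have : IsUnit ((a + b : B) : A) := hab.map B.val
  exact IsLocalRing.nonunits_add ha' hb' (by simpa using this)

/-- The inclusion of an `𝒪`-subalgebra of a test algebra is a local homomorphism. -/
theorem isLocalHom_subalgebra_val (hA : IsArtinianTestAlgebra 𝒪 A) (B : Subalgebra 𝒪 A) :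
    IsLocalHom (B.val : B →+* A) :=
  ⟨fun b hb => testAlg_isUnit_subalgebra hA B b hb⟩

/-- The maximal ideal of a subalgebra is the intersection with the maximal ideal of `A`. -/
theorem mem_maximalIdeal_subalgebra_iff (hA : IsArtinianTestAlgebra 𝒪 A) (B : Subalgebra 𝒪 A)
    (b : B) :
    letI := isLocalRing_subalgebra hA B
    b ∈ maximalIdeal B ↔ (b : A) ∈ maximalIdeal A := by
  letI := isLocalRing_subalgebra hA B
  rw [IsLocalRing.mem_maximalIdeal, IsLocalRing.mem_maximalIdeal, mem_nonunits_iff,
    mem_nonunits_iff, not_iff_not]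
  exact ⟨fun h => h.map B.val, fun h => testAlg_isUnit_subalgebra hA B b h⟩

/-- An `𝒪`-subalgebra of a test algebra (with finite residue field) is a test algebra. -/
theorem isArtinianTestAlgebra_subalgebra [Finite (ResidueField 𝒪)]
    (hA : IsArtinianTestAlgebra 𝒪 A) (B : Subalgebra 𝒪 A) :
    letI := isLocalRing_subalgebra hA B
    IsArtinianTestAlgebra 𝒪 B := by
  letI := isLocalRing_subalgebra hA B
  haveI := hA.isLocalHom
  refine ⟨⟨fun c hc => ?_⟩, ?_, ?_⟩
  · have : IsUnit (algebraMap 𝒪 A c) := hc.map B.val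
    exact isUnit_of_map_unit (algebraMap 𝒪 A) c this
  · intro x
    obtain ⟨b, rfl⟩ := IsLocalRing.residue_surjective x
    obtain ⟨c, hc⟩ := testAlg_exists_sub_mem hA (b : A)
    refine ⟨c, ?_⟩
    simp only [Function.comp_apply]
    rw [eq_comm, ← sub_eq_zero, ← map_sub, IsLocalRing.residue_eq_zero_iff,
      mem_maximalIdeal_subalgebra_iff hA B]
    simpa using hc
  · haveI := testAlg_finite hA
    haveI : Finite B := Finite.of_injective (fun b : B => (b : A)) Subtype.val_injective
    infer_instance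

end Subalgebra

section Quotient

variable {𝒪 : Type} [CommRing 𝒪] [IsLocalRing 𝒪]
variable {A : Type} [CommRing A] [IsLocalRing A] [Algebra 𝒪 A]

/-- A proper quotient of a local ring is local. -/
theorem isLocalRing_quotient {I : Ideal A} (hI : I ≠ ⊤) : IsLocalRing (A ⧸ I) :=
  haveI : Nontrivial (A ⧸ I) := Ideal.Quotient.nontrivial_iff.mpr hI
  IsLocalRing.of_surjective' (Ideal.Quotient.mk I) Ideal.Quotient.mk_surjective

/-- The quotient map to a proper quotient of a local ring is a local homomorphism. -/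
theorem isLocalHom_quotient_mk {I : Ideal A} (hI : I ≠ ⊤) :
    IsLocalHom (Ideal.Quotient.mk I) := by
  refine ⟨fun a ha => ?_⟩
  by_contra hnu
  have hmem : a ∈ maximalIdeal A := hnu
  have hle : I ≤ maximalIdeal A := IsLocalRing.le_maximalIdeal hI
  obtain ⟨b, hb⟩ := ha.exists_right_inv
  obtain ⟨b', rfl⟩ := Ideal.Quotient.mk_surjective b
  rw [← map_mul, ← map_one (Ideal.Quotient.mk I), Ideal.Quotient.eq] at hb
  have h1 : (1 : A) ∈ maximalIdeal A := by
    have h2 : a * b' ∈ maximalIdeal A := Ideal.mul_mem_right _ _ hmem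
    have h3 := (maximalIdeal A).sub_mem h2 (hle hb)
    simp at h3
  exact (Ideal.ne_top_iff_one _).mp (IsLocalRing.maximalIdeal.isMaximal A).ne_top h1

/-- The same, for the quotient map as an `𝒪`-algebra homomorphism. -/
theorem isLocalHom_quotient_mkₐ {I : Ideal A} (hI : I ≠ ⊤) :
    IsLocalHom ((Ideal.Quotient.mkₐ 𝒪 I : A →ₐ[𝒪] A ⧸ I) : A →+* A ⧸ I) :=
  isLocalHom_quotient_mk hI

/-- The maximal ideal of a proper quotient is the image of the maximal ideal. -/
theorem mk_mem_maximalIdeal_quotient_iff {I : Ideal A} (hI : I ≠ ⊤) (a : A) :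
    letI := isLocalRing_quotient hI
    Ideal.Quotient.mk I a ∈ maximalIdeal (A ⧸ I) ↔ a ∈ maximalIdeal A := by
  letI := isLocalRing_quotient hI
  rw [IsLocalRing.mem_maximalIdeal, IsLocalRing.mem_maximalIdeal, mem_nonunits_iff,
    mem_nonunits_iff, not_iff_not]
  exact ⟨fun h => (isLocalHom_quotient_mk hI).map_nonunit a h, fun h => h.map _⟩

/-- A proper quotient of a test algebra is a test algebra. -/
theorem isArtinianTestAlgebra_quotient (hA : IsArtinianTestAlgebra 𝒪 A) {I : Ideal A}
    (hI : I ≠ ⊤) :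
    letI := isLocalRing_quotient hI
    IsArtinianTestAlgebra 𝒪 (A ⧸ I) := by
  letI := isLocalRing_quotient hI
  haveI := hA.isLocalHom
  haveI := hA.isArtinian
  refine ⟨⟨fun c hc => ?_⟩, ?_, inferInstance⟩
  · have h1 : IsUnit (Ideal.Quotient.mk I (algebraMap 𝒪 A c)) := hc
    have h2 : IsUnit (algebraMap 𝒪 A c) := (isLocalHom_quotient_mk hI).map_nonunit _ h1
    exact isUnit_of_map_unit (algebraMap 𝒪 A) c h2
  · intro x
    obtain ⟨b, rfl⟩ := IsLocalRing.residue_surjective x
    obtain ⟨a, rfl⟩ := Ideal.Quotient.mk_surjective b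
    obtain ⟨c, hc⟩ := testAlg_exists_sub_mem hA a
    refine ⟨c, ?_⟩
    simp only [Function.comp_apply]
    rw [eq_comm, ← sub_eq_zero, ← map_sub, IsLocalRing.residue_eq_zero_iff]
    have : Ideal.Quotient.mk I a - algebraMap 𝒪 (A ⧸ I) c
        = Ideal.Quotient.mk I (a - algebraMap 𝒪 A c) := by
      rw [map_sub]; rfl
    rw [this, mk_mem_maximalIdeal_quotient_iff hI]
    exact hc

end Quotient

section Examples

variable (𝒪 : Type) [CommRing 𝒪] [IsLocalRing 𝒪]

/-- The residue field `k` of `𝒪` is an Artinian test algebra. -/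
theorem isArtinianTestAlgebra_residueField : IsArtinianTestAlgebra 𝒪 (ResidueField 𝒪) := by
  refine ⟨?_, ?_, inferInstance⟩
  · change IsLocalHom (residue 𝒪)
    infer_instance
  · intro x
    obtain ⟨y, rfl⟩ := IsLocalRing.residue_surjective x
    obtain ⟨c, rfl⟩ := IsLocalRing.residue_surjective y
    exact ⟨c, rfl⟩

/-- `k[ε]` (with the `𝒪`-algebra structure used by `GaloisRep.TangentFinite`) is an Artinian
test algebra. -/
theorem isArtinianTestAlgebra_dualNumber :
    letI := dualNumberAlgebra 𝒪
    IsArtinianTestAlgebra 𝒪 (DualNumber (ResidueField 𝒪)) := by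
  letI := dualNumberAlgebra 𝒪
  have halg : ∀ c : 𝒪, algebraMap 𝒪 (DualNumber (ResidueField 𝒪)) c
      = TrivSqZeroExt.inl (residue 𝒪 c) := fun c => rfl
  refine ⟨⟨fun c hc => ?_⟩, ?_, ?_⟩
  · rw [halg, TrivSqZeroExt.isUnit_iff_isUnit_fst, TrivSqZeroExt.fst_inl] at hc
    by_contra hnu
    have : residue 𝒪 c = 0 := (IsLocalRing.residue_eq_zero_iff c).mpr hnu
    rw [this] at hc
    exact not_isUnit_zero hc
  · intro x
    obtain ⟨y, rfl⟩ := IsLocalRing.residue_surjective x
    obtain ⟨c, hc⟩ := IsLocalRing.residue_surjective y.fst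
    refine ⟨c, ?_⟩
    simp only [Function.comp_apply]
    rw [eq_comm, ← sub_eq_zero, ← map_sub, IsLocalRing.residue_eq_zero_iff,
      IsLocalRing.mem_maximalIdeal, mem_nonunits_iff, TrivSqZeroExt.isUnit_iff_isUnit_fst,
      TrivSqZeroExt.fst_sub, halg, TrivSqZeroExt.fst_inl, hc, sub_self]
    exact not_isUnit_zero
  · haveI : Module.Finite (ResidueField 𝒪) (DualNumber (ResidueField 𝒪)) :=
      inferInstanceAs (Module.Finite (ResidueField 𝒪) (ResidueField 𝒪 × ResidueField 𝒪))
    exact IsArtinianRing.of_finite (ResidueField 𝒪) (DualNumber (ResidueField 𝒪))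

end Examples

section CNL

variable {𝒪 : Type} [CommRing 𝒪] [IsLocalRing 𝒪]
variable {A : Type} [CommRing A] [IsLocalRing A] [Algebra 𝒪 A]

/-- `𝔪_A ^ j` is a proper ideal for `j ≥ 1`. -/
theorem maximalIdeal_pow_ne_top {j : ℕ} (hj : 1 ≤ j) : maximalIdeal A ^ j ≠ ⊤ := by
  intro h
  have hle : maximalIdeal A ^ j ≤ maximalIdeal A := by
    calc maximalIdeal A ^ j ≤ maximalIdeal A ^ 1 := Ideal.pow_le_pow_right hj
      _ = maximalIdeal A := pow_one _
  rw [h, top_le_iff] at hle
  exact (IsLocalRing.maximalIdeal.isMaximal A).ne_top hle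

/-- For a Noetherian local `𝒪`-algebra `A` with `𝒪 → A` local and residue field a quotient of
`𝒪`, the quotient `A ⧸ 𝔪_A ^ j` (`j ≥ 1`) is an Artinian test algebra. -/
theorem isArtinianTestAlgebra_quotient_pow [IsNoetherianRing A]
    (hloc : IsLocalHom (algebraMap 𝒪 A))
    (hres : Function.Surjective (residue A ∘ algebraMap 𝒪 A)) {j : ℕ} (hj : 1 ≤ j) :
    letI := isLocalRing_quotient (maximalIdeal_pow_ne_top (A := A) hj)
    IsArtinianTestAlgebra 𝒪 (A ⧸ maximalIdeal A ^ j) := by
  have hI := maximalIdeal_pow_ne_top (A := A) hj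
  letI := isLocalRing_quotient hI
  refine ⟨⟨fun c hc => ?_⟩, ?_, ?_⟩
  · have h1 : IsUnit (Ideal.Quotient.mk (maximalIdeal A ^ j) (algebraMap 𝒪 A c)) := hc
    have h2 : IsUnit (algebraMap 𝒪 A c) := (isLocalHom_quotient_mk hI).map_nonunit _ h1
    exact hloc.map_nonunit c h2
  · intro x
    obtain ⟨b, rfl⟩ := IsLocalRing.residue_surjective x
    obtain ⟨a, rfl⟩ := Ideal.Quotient.mk_surjective b
    obtain ⟨c, hc⟩ := hres (residue A a)
    refine ⟨c, ?_⟩
    simp only [Function.comp_apply] at hc ⊢
    rw [eq_comm, ← sub_eq_zero, ← map_sub, IsLocalRing.residue_eq_zero_iff]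
    have : Ideal.Quotient.mk (maximalIdeal A ^ j) a - algebraMap 𝒪 (A ⧸ maximalIdeal A ^ j) c
        = Ideal.Quotient.mk (maximalIdeal A ^ j) (a - algebraMap 𝒪 A c) := by
      rw [map_sub]; rfl
    rw [this, mk_mem_maximalIdeal_quotient_iff hI, ← IsLocalRing.residue_eq_zero_iff, map_sub,
      hc, sub_self]
  · rw [isArtinianRing_iff_isNilpotent_maximalIdeal]
    refine ⟨j, ?_⟩
    rw [Ideal.zero_eq_bot, eq_bot_iff]
    have hmax : maximalIdeal (A ⧸ maximalIdeal A ^ j)
        = (maximalIdeal A).map (Ideal.Quotient.mk (maximalIdeal A ^ j)) := by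
      ext x
      obtain ⟨a, rfl⟩ := Ideal.Quotient.mk_surjective x
      rw [mk_mem_maximalIdeal_quotient_iff hI]
      constructor
      · exact fun h => Ideal.mem_map_of_mem _ h
      · intro h
        rw [Ideal.mem_map_iff_of_surjective _ Ideal.Quotient.mk_surjective] at h
        obtain ⟨a', ha', hEq⟩ := h
        rw [Ideal.Quotient.eq] at hEq
        have hle : maximalIdeal A ^ j ≤ maximalIdeal A := IsLocalRing.le_maximalIdeal hI
        have := (maximalIdeal A).sub_mem ha' (hle hEq)
        simpa using this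
    rw [hmax, ← Ideal.map_pow, Ideal.map_le_iff_le_comap]
    intro a ha
    rw [Ideal.mem_comap, Ideal.mem_bot, Ideal.Quotient.eq_zero_iff_mem]
    exact ha

end CNL

end Fermat.Agent.S53
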