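import Fermat.Agent.S53.TestDefs
import Fermat.Agent.S53.MatGlue
import Fermat.Agent.S53.EvalHom
import Fermat.Agent.S53.EvalSurj
import Fermat.Agent.S53.CNLPassage

/-!
# S53, package K7: the universal property

Let `G` be universal entries for `(𝒟, F, κ)`, let `π : Λ → R` be a surjective `𝒪`-algebra
homomorphism with kernel `Jideal 𝒟 F κ`, and let `rR` be the normalized lift over `R` with entries
`π (G g i j)`.  Then `(R, ofMat rR)` has the universal property required by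
`GaloisRep.DeformationRingData.universal`.
-/

set_option autoImplicit false
set_option linter.style.haveILetI false

namespace Fermat.Agent.S53.K7

open IsLocalRing GaloisRep Fermat.Agent.S53 Fermat.Agent.S53.CNL

variable {𝒪 : Type} [CommRing 𝒪] [IsLocalRing 𝒪] {ρbar : ResidualGaloisRep (ResidueField 𝒪)}
  {𝒟 : ∀ ⦃A : Type⦄ [CommRing A] [IsLocalRing A] [Algebra 𝒪 A], GaloisRepAdic A → Prop}

attribute [local instance] isLocalRing_quot_pow

theorem ofMat_isEquiv_of_eq {A : Type} [CommRing A] [IsLocalRing A] {r r' : Gal →* M2 A}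
    (hr : MatCont r) (hr' : MatCont r') (h : r = r') : (ofMat r hr).IsEquiv (ofMat r' hr') := by
  subst h
  exact IsEquiv.refl _

/-- In a Hausdorff local ring, an element lying in all `m^(n+1)` is zero. -/
theorem eq_zero_of_forall_mem_pow_succ {A : Type} [CommRing A] [IsLocalRing A]
    [IsHausdorff (maximalIdeal A) A] (x : A) (h : ∀ n : ℕ, x ∈ maximalIdeal A ^ (n + 1)) :
    x = 0 := by
  apply IsHausdorff.haus (inferInstance : IsHausdorff (maximalIdeal A) A)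
  intro n
  rw [SModEq.zero, smul_eq_mul, Ideal.mul_top]
  exact Ideal.pow_le_pow_right (Nat.le_succ n) (h n)

section TestLiftQuot

variable (h𝒟 : IsDeformationCondition 𝒪 𝒟) (F : Frame 𝒪 ρbar)
  {A : Type} [CommRing A] [IsLocalRing A] [IsNoetherianRing A]
  [IsAdicComplete (maximalIdeal A) A] [Algebra 𝒪 A]

include h𝒟 in
/-- The truncations of a normalized type-`𝒟` lift over a complete noetherian local algebra are
test lifts. -/
theorem isTestLift_quotPow (hloc : IsLocalHom (algebraMap 𝒪 A))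
    (hsurj : Function.Surjective (residue A ∘ algebraMap 𝒪 A))
    {r : Gal →* M2 A} (hr : IsNormLift F r) (hD : 𝒟 (ofMat r hr.cont)) (n : ℕ) :
    IsTestLift 𝒟 F (mapMat (quotPow 𝒪 A n : A →+* A ⧸ maximalIdeal A ^ (n + 1)) r) := by
  have hArt := isArtinianTestAlgebra_quot_pow (𝒪 := 𝒪) A hloc hsurj n
  refine ⟨hArt, isNormLift_mapMat F (quotPow 𝒪 A n) (isLocalHom_quotPow 𝒪 A n) hr, ?_⟩
  have h1 := (h𝒟.iff_forall_surjective hloc hsurj (ofMat r hr.cont)).mp hD hArt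
    (quotPow 𝒪 A n) (isLocalHom_quotPow 𝒪 A n) Ideal.Quotient.mk_surjective
  exact h𝒟.of_isEquiv hArt
    (baseChangeAlong_ofMat (quotPow 𝒪 A n : A →+* A ⧸ maximalIdeal A ^ (n + 1))
      (isLocalHom_quotPow 𝒪 A n) hr.cont) h1

end TestLiftQuot

section Universal

variable (h𝒟 : IsDeformationCondition 𝒪 𝒟) (F : Frame 𝒪 ρbar) {N : ℕ} (κ : Coords N)
  (G : Gal → M2 (Lam 𝒪 N)) (hG : IsUnivEntries 𝒟 F κ G)

include hG in
/-- Modulo `J`, the variable `X_l` is the `l`-th coordinate of the universal entries. -/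
theorem X_sub_coord_mem_jideal (l : Fin N) :
    (MvPowerSeries.X l : Lam 𝒪 N) -
      (G (κ.g l) (κ.i l) (κ.j l) - algebraMap 𝒪 (Lam 𝒪 N) (F.c (κ.g l) (κ.i l) (κ.j l)))
      ∈ Jideal 𝒟 F κ := by
  rw [Jideal, Ideal.mem_sInf]
  rintro 𝔞 ⟨A, _, _, _, r, φ, hr, hφ, rfl⟩
  rw [RingHom.mem_ker]
  simp only [AlgHom.coe_toRingHom, map_sub, AlgHom.commutes]
  rw [hφ l, hG A r φ hr hφ, coord, sub_self]

variable {R : Type} [CommRing R] [IsLocalRing R] [Algebra 𝒪 R]
  (π : Lam 𝒪 N →ₐ[𝒪] R) (hπ : Function.Surjective π)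
  (hker : RingHom.ker (π : Lam 𝒪 N →+* R) = Jideal 𝒟 F κ)
  (rR : Gal →* M2 R) (hrR : ∀ g i j, rR g i j = π (G g i j))

omit [IsLocalRing R] in
include hG hker hrR in
theorem pi_X_eq_coord (l : Fin N) : π (MvPowerSeries.X l) = coord F κ rR l := by
  have h := X_sub_coord_mem_jideal F κ G hG l
  rw [← hker, RingHom.mem_ker] at h
  simp only [AlgHom.coe_toRingHom, map_sub, AlgHom.commutes] at h
  rw [coord, hrR]
  exact sub_eq_zero.mp h

variable {A : Type} [CommRing A] [IsLocalRing A] [IsNoetherianRing A]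
  [IsAdicComplete (maximalIdeal A) A] [Algebra 𝒪 A]

include h𝒟 hG in
/-- The coordinate map of a normalized type-`𝒟` lift over a complete noetherian local algebra
kills `J` and sends the universal entries to the entries of the lift. -/
theorem evalHom_coord_spec (hloc : IsLocalHom (algebraMap 𝒪 A))
    (hsurj : Function.Surjective (residue A ∘ algebraMap 𝒪 A))
    {r : Gal →* M2 A} (hr : IsNormLift F r) (hD : 𝒟 (ofMat r hr.cont))
    (φ : Lam 𝒪 N →ₐ[𝒪] A) (hφ : ∀ l, φ (MvPowerSeries.X l) = coord F κ r l) :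
    (∀ x ∈ Jideal 𝒟 F κ, φ x = 0) ∧ ∀ g i j, φ (G g i j) = r g i j := by
  have hT := fun n => isTestLift_quotPow h𝒟 F hloc hsurj hr hD n
  have hφn : ∀ n l, ((quotPow 𝒪 A n).comp φ) (MvPowerSeries.X l) =
      coord F κ (mapMat (quotPow 𝒪 A n : A →+* A ⧸ maximalIdeal A ^ (n + 1)) r) l := by
    intro n l
    rw [coord_map, AlgHom.comp_apply, hφ]
  constructor
  · intro x hx
    apply eq_zero_of_forall_mem_pow_succ
    intro n
    have hadm : Adm 𝒟 F κ (RingHom.ker (((quotPow 𝒪 A n).comp φ : Lam 𝒪 N →ₐ[𝒪] _) :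
        Lam 𝒪 N →+* A ⧸ maximalIdeal A ^ (n + 1))) :=
      ⟨_, _, _, _, _, (quotPow 𝒪 A n).comp φ, hT n, hφn n, rfl⟩
    have h1 : x ∈ RingHom.ker (((quotPow 𝒪 A n).comp φ : Lam 𝒪 N →ₐ[𝒪] _) :
        Lam 𝒪 N →+* A ⧸ maximalIdeal A ^ (n + 1)) := by
      rw [Jideal, Ideal.mem_sInf] at hx
      exact hx hadm
    rw [RingHom.mem_ker] at h1
    exact Ideal.Quotient.eq_zero_iff_mem.mp h1
  · intro g i j
    rw [← sub_eq_zero]
    apply eq_zero_of_forall_mem_pow_succ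
    intro n
    have h1 := hG _ _ ((quotPow 𝒪 A n).comp φ) (hT n) (hφn n) g i j
    rw [← Ideal.Quotient.eq_zero_iff_mem, map_sub, sub_eq_zero]
    exact h1

end Universal

section Final

variable (h𝒟 : IsDeformationCondition 𝒪 𝒟) (F : Frame 𝒪 ρbar) {N : ℕ} (κ : Coords N)
  (G : Gal → M2 (Lam 𝒪 N)) (hG : IsUnivEntries 𝒟 F κ G)
  {R : Type} [CommRing R] [IsLocalRing R] [Algebra 𝒪 R]
  (π : Lam 𝒪 N →ₐ[𝒪] R) (hπ : Function.Surjective π)
  (hker : RingHom.ker (π : Lam 𝒪 N →+* R) = Jideal 𝒟 F κ)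
  (rR : Gal →* M2 R) (hrR : ∀ g i j, rR g i j = π (G g i j)) (hnorm : IsNormLift F rR)

omit [IsLocalRing R] in
include h𝒟 hG hπ hker hrR in
/-- **K7, matrix form**: every normalized type-`𝒟` lift over a complete noetherian local
`𝒪`-algebra is induced from `rR` by a unique `𝒪`-algebra homomorphism, which is local. -/
theorem existsUnique_algHom_mapMat_eq
    {A : Type} [CommRing A] [IsLocalRing A] [IsNoetherianRing A]
    [IsAdicComplete (maximalIdeal A) A] [Algebra 𝒪 A]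
    (hloc : IsLocalHom (algebraMap 𝒪 A))
    (hsurj : Function.Surjective (residue A ∘ algebraMap 𝒪 A))
    {r : Gal →* M2 A} (hr : IsNormLift F r) (hD : 𝒟 (ofMat r hr.cont)) :
    ∃ φ : R →ₐ[𝒪] A, IsLocalHom (φ : R →+* A) ∧ mapMat (φ : R →+* A) rR = r ∧
      ∀ ψ : R →ₐ[𝒪] A, mapMat (ψ : R →+* A) rR = r → ψ = φ := by
  haveI := hloc
  have ha : ∀ l, coord F κ r l ∈ maximalIdeal A := fun l => hr.lift _ _ _
  set φA : Lam 𝒪 N →ₐ[𝒪] A := evalHom (𝒪 := 𝒪) (maximalIdeal A) (coord F κ r) ha with hφA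
  have hφAX : ∀ l, φA (MvPowerSeries.X l) = coord F κ r l := fun l => evalHom_X _ _ ha l
  obtain ⟨hkill, hent⟩ := evalHom_coord_spec h𝒟 F κ G hG hloc hsurj hr hD φA hφAX
  have hle : RingHom.ker π.toRingHom ≤ RingHom.ker φA.toRingHom := by
    intro x hx
    rw [RingHom.mem_ker]
    apply hkill
    rw [← hker]
    exact hx
  refine ⟨AlgHom.liftOfSurjective π hπ φA hle, ?_, ?_, ?_⟩
  · -- local
    have hlocφ : IsLocalHom (φA : Lam 𝒪 N →+* A) := isLocalHom_evalHom _ ha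
    constructor
    intro x hx
    obtain ⟨y, rfl⟩ := hπ x
    have hx' : IsUnit (φA y) := by
      have := AlgHom.liftOfSurjective_apply π hπ φA hle y
      simp only [AlgHom.coe_toRingHom] at hx
      rwa [this] at hx
    have hy : IsUnit y := hlocφ.map_nonunit y hx'
    exact hy.map π
  · rw [mapMat_eq_iff]
    intro σ i j
    simp only [AlgHom.coe_toRingHom]
    rw [hrR, AlgHom.liftOfSurjective_apply, hent]
  · intro ψ hψ
    have h1 : ψ.comp π = φA := by
      apply eq_evalHom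
      intro l
      rw [AlgHom.comp_apply, pi_X_eq_coord F κ G hG π hker rR hrR l, ← coord_map, hψ]
    ext x
    obtain ⟨y, rfl⟩ := hπ x
    rw [AlgHom.liftOfSurjective_apply, ← h1, AlgHom.comp_apply]

include h𝒟 hG hπ hker hrR in
/-- **K7**: the `universal` field of `GaloisRep.DeformationRingData` for `(R, ofMat rR)`.
The two normalization lemmas of package WP-B enter as the hypotheses `hB1`, `hB2`. -/
theorem universal_of_isUnivEntries
    (A : Type) [CommRing A] [IsLocalRing A] [IsNoetherianRing A]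
    [IsAdicComplete (maximalIdeal A) A] [Algebra 𝒪 A] [hloc : IsLocalHom (algebraMap 𝒪 A)]
    (hsurj : Function.Surjective (residue A ∘ algebraMap 𝒪 A))
    (hB1 : ∀ {r r' : Gal →* M2 A}, IsNormLift F r → IsNormLift F r' → ∀ Q : M2 A, IsUnit Q →
      (∀ σ, Q * r σ = r' σ * Q) → r = r')
    (hB2 : ∀ {r : Gal →* M2 A}, MatCont r →
      (∀ g i j, r g i j - algebraMap 𝒪 A (F.c g i j) ∈ maximalIdeal A) →
      ∃ (P : M2 A) (r' : Gal →* M2 A), IsUnit P ∧ IsNormLift F r' ∧ ∀ σ, P * r' σ = r σ * P)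
    (ρA : GaloisRepAdic A) (hDA : 𝒟 ρA)
    (hres : ρA.residual.IsEquiv
      (ρbar.baseChangeAlong (IsLocalRing.ResidueField.map (algebraMap 𝒪 A)))) :
    ∃! φ : R →ₐ[𝒪] A, ∃ hφ : IsLocalHom (φ : R →+* A),
      ((ofMat rR hnorm.cont).baseChangeAlong (φ : R →+* A) hφ).IsEquiv ρA := by
  obtain ⟨r₀, hr₀c, hl₀, he₀⟩ := exists_ofMat_lift F hloc ρA hres
  obtain ⟨P, r', hP, hr', hPr⟩ := hB2 hr₀c hl₀
  have he1 : (ofMat r' hr'.cont).IsEquiv (ofMat r₀ hr₀c) :=
    isEquiv_ofMat_iff_isUnit.mpr ⟨P, hP, hPr⟩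
  have he' : ρA.IsEquiv (ofMat r' hr'.cont) := IsEquiv.trans he₀ (IsEquiv.symm he1)
  have hD' : 𝒟 (ofMat r' hr'.cont) := of_isEquiv_complete h𝒟 hloc hsurj he' hDA
  obtain ⟨φ, hφloc, hφr, hφu⟩ :=
    existsUnique_algHom_mapMat_eq h𝒟 F κ G hG π hπ hker rR hrR hloc hsurj hr' hD'
  refine ⟨φ, ⟨hφloc, ?_⟩, ?_⟩
  · exact IsEquiv.trans (baseChangeAlong_ofMat (φ : R →+* A) hφloc hnorm.cont)
      (IsEquiv.trans (ofMat_isEquiv_of_eq _ _ hφr) (IsEquiv.symm he'))
  · rintro ψ ⟨hψloc, hψe⟩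
    apply hφu
    have h2 : (ofMat (mapMat (ψ : R →+* A) rR) (matCont_mapMat _ hψloc hnorm.cont)).IsEquiv
        (ofMat r' hr'.cont) :=
      IsEquiv.trans (IsEquiv.symm (baseChangeAlong_ofMat (ψ : R →+* A) hψloc hnorm.cont))
        (IsEquiv.trans hψe he')
    obtain ⟨Q, hQ, hQr⟩ := isEquiv_ofMat_iff_isUnit.mp h2
    exact hB1 (isNormLift_mapMat F ψ hψloc hnorm) hr' Q hQ hQr

end Final

end Fermat.Agent.S53.K7
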