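import Fermat.Agent.S53.TestDefs
import Fermat.Agent.S53.MatGlue
import Fermat.Agent.S53.QuotCNL

/-!
# S53 (K6): the universal matrix representation over `R = Λ/J`
-/

set_option autoImplicit false
set_option linter.unusedSectionVars false
set_option linter.overlappingInstances false
set_option linter.style.haveILetI false
set_option linter.unusedVariables false

noncomputable section

namespace Fermat.Agent.S53

open IsLocalRing GaloisRep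

variable {𝒪 : Type} [CommRing 𝒪] [IsLocalRing 𝒪]
  {ρbar : ResidualGaloisRep (ResidueField 𝒪)}
  {𝒟 : ∀ ⦃A : Type⦄ [CommRing A] [IsLocalRing A] [Algebra 𝒪 A], GaloisRepAdic A → Prop}
  (F : Frame 𝒪 ρbar) {N : ℕ} (κ : Coords N)

theorem mem_jideal_iff (x : Lam 𝒪 N) :
    x ∈ Jideal 𝒟 F κ ↔
      ∀ (A : Type) [CommRing A] [IsLocalRing A] [Algebra 𝒪 A] (r : Gal →* M2 A)
        (φ : Lam 𝒪 N →ₐ[𝒪] A), IsTestLift 𝒟 F r →
        (∀ l, φ (MvPowerSeries.X l) = coord F κ r l) → φ x = 0 := by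
  unfold Jideal
  rw [Submodule.mem_sInf]
  constructor
  · intro h A _ _ _ r φ hr hφ
    have := h (RingHom.ker (φ : Lam 𝒪 N →+* A)) ⟨A, _, _, _, r, φ, hr, hφ, rfl⟩
    exact this
  · rintro h 𝔞 ⟨A, _, _, _, r, φ, hr, hφ, rfl⟩
    exact h A r φ hr hφ

theorem mk_eq_mk_of_forall {x y : Lam 𝒪 N}
    (h : ∀ (A : Type) [CommRing A] [IsLocalRing A] [Algebra 𝒪 A] (r : Gal →* M2 A)
        (φ : Lam 𝒪 N →ₐ[𝒪] A), IsTestLift 𝒟 F r →
        (∀ l, φ (MvPowerSeries.X l) = coord F κ r l) → φ x = φ y) :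
    Ideal.Quotient.mk (Jideal 𝒟 F κ) x = Ideal.Quotient.mk (Jideal 𝒟 F κ) y := by
  rw [Ideal.Quotient.eq, mem_jideal_iff]
  intro A _ _ _ r φ hr hφ
  rw [map_sub, h A r φ hr hφ, sub_self]

variable {F κ}

/-- The universal matrix representation over `R = Λ/J`. -/
def univRep {G : Gal → M2 (Lam 𝒪 N)} (hG : IsUnivEntries 𝒟 F κ G) :
    Gal →* M2 (Lam 𝒪 N ⧸ Jideal 𝒟 F κ) where
  toFun g := (G g).map (Ideal.Quotient.mk (Jideal 𝒟 F κ))
  map_one' := by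
    ext i j
    have h1 : (1 : M2 (Lam 𝒪 N ⧸ Jideal 𝒟 F κ)) i j =
        Ideal.Quotient.mk (Jideal 𝒟 F κ) ((1 : M2 (Lam 𝒪 N)) i j) := by
      by_cases h : i = j <;> simp [h, Matrix.one_apply]
    rw [Matrix.map_apply, h1]
    apply mk_eq_mk_of_forall
    intro A _ _ _ r φ hr hφ
    rw [hG A r φ hr hφ, map_one]
    by_cases h : i = j <;> simp [h, Matrix.one_apply]
  map_mul' g h := by
    ext i j
    rw [Matrix.map_apply, Matrix.mul_apply]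
    simp only [Matrix.map_apply]
    have h1 : ∑ k, Ideal.Quotient.mk (Jideal 𝒟 F κ) (G g i k) *
        Ideal.Quotient.mk (Jideal 𝒟 F κ) (G h k j) =
        Ideal.Quotient.mk (Jideal 𝒟 F κ) (∑ k, G g i k * G h k j) := by
      rw [map_sum]; simp only [map_mul]
    rw [h1]
    apply mk_eq_mk_of_forall
    intro A _ _ _ r φ hr hφ
    rw [hG A r φ hr hφ, map_mul, Matrix.mul_apply, map_sum]
    simp only [map_mul, hG A r φ hr hφ]

@[simp] theorem univRep_apply {G : Gal → M2 (Lam 𝒪 N)} (hG : IsUnivEntries 𝒟 F κ G) (g : Gal)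
    (i j : Fin 2) :
    univRep hG g i j = Ideal.Quotient.mk (Jideal 𝒟 F κ) (G g i j) := rfl

/-- The coordinate map of the universal representation is the quotient map. -/
theorem mk_X_eq_coord_univRep {G : Gal → M2 (Lam 𝒪 N)} (hG : IsUnivEntries 𝒟 F κ G)
    (l : Fin N) :
    Ideal.Quotient.mk (Jideal 𝒟 F κ) (MvPowerSeries.X l) = coord F κ (univRep hG) l := by
  have h2 : coord F κ (univRep hG) l = Ideal.Quotient.mk (Jideal 𝒟 F κ)
      (G (κ.g l) (κ.i l) (κ.j l) - algebraMap 𝒪 (Lam 𝒪 N) (F.c (κ.g l) (κ.i l) (κ.j l))) := by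
    rw [coord, univRep_apply, map_sub]
    rfl
  rw [h2]
  apply mk_eq_mk_of_forall
  intro A _ _ _ r φ hr hφ
  rw [hφ l, map_sub, hG A r φ hr hφ, coord, AlgHom.commutes]

theorem univRep_eq_map {G : Gal → M2 (Lam 𝒪 N)} (hG : IsUnivEntries 𝒟 F κ G) :
    (⇑(univRep hG) : Gal → M2 (Lam 𝒪 N ⧸ Jideal 𝒟 F κ)) =
      fun g => (G g).map (Ideal.Quotient.mkₐ 𝒪 (Jideal 𝒟 F κ)) := rfl

theorem map_eq_of_isUnivEntries {G : Gal → M2 (Lam 𝒪 N)} (hG : IsUnivEntries 𝒟 F κ G)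
    {A : Type} [CommRing A] [IsLocalRing A] [Algebra 𝒪 A] {r : Gal →* M2 A}
    {φ : Lam 𝒪 N →ₐ[𝒪] A} (hr : IsTestLift 𝒟 F r)
    (hφ : ∀ l, φ (MvPowerSeries.X l) = coord F κ r l) :
    (fun g => (G g).map φ) = (⇑r : Gal → M2 A) := by
  funext g
  ext i j
  exact hG A r φ hr hφ g i j

theorem linExt_univRep {G : Gal → M2 (Lam 𝒪 N)} (hG : IsUnivEntries 𝒟 F κ G) (x : Gal →₀ 𝒪)
    (i j : Fin 2) :
    linExt x (univRep hG) i j = Ideal.Quotient.mk (Jideal 𝒟 F κ) (linExt x G i j) := by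
  rw [univRep_eq_map, linExt_map]
  rfl

theorem linExt_univRep_eq {G : Gal → M2 (Lam 𝒪 N)} (hG : IsUnivEntries 𝒟 F κ G) (x : Gal →₀ 𝒪)
    (i j : Fin 2) (c : 𝒪)
    (h : ∀ (A : Type) [CommRing A] [IsLocalRing A] [Algebra 𝒪 A] (r : Gal →* M2 A),
      IsTestLift 𝒟 F r → linExt x r i j = algebraMap 𝒪 A c) :
    linExt x (univRep hG) i j = algebraMap 𝒪 _ c := by
  rw [linExt_univRep]
  have : algebraMap 𝒪 (Lam 𝒪 N ⧸ Jideal 𝒟 F κ) c =
      Ideal.Quotient.mk (Jideal 𝒟 F κ) (algebraMap 𝒪 (Lam 𝒪 N) c) := rfl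
  rw [this]
  apply mk_eq_mk_of_forall
  intro A _ _ _ r φ hr hφ
  rw [← linExt_map, map_eq_of_isUnivEntries hG hr hφ, h A r hr, AlgHom.commutes]

section Local

variable [IsLocalRing (Lam 𝒪 N ⧸ Jideal 𝒟 F κ)]

omit [IsLocalRing (Lam 𝒪 N ⧸ Jideal 𝒟 F κ)] in
/-- If `φ x` is a non-unit for a ring hom `φ` out of a local ring, then `x` is in the maximal
ideal. -/
theorem mem_maximalIdeal_of_map_mem {A : Type} [CommRing A] [IsLocalRing A]
    (φ : Lam 𝒪 N →+* A) {x : Lam 𝒪 N} (hx : φ x ∈ maximalIdeal A) :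
    x ∈ maximalIdeal (Lam 𝒪 N) := by
  rw [mem_maximalIdeal, mem_nonunits_iff] at hx ⊢
  exact fun hu => hx (hu.map φ)

theorem mk_mem_maximalIdeal {x : Lam 𝒪 N} (hx : x ∈ maximalIdeal (Lam 𝒪 N)) :
    Ideal.Quotient.mk (Jideal 𝒟 F κ) x ∈ maximalIdeal (Lam 𝒪 N ⧸ Jideal 𝒟 F κ) := by
  rw [maximalIdeal_quotient_mvPowerSeries]
  exact Ideal.mem_map_of_mem _ hx

theorem mk_mem_maximalIdeal_pow {x : Lam 𝒪 N} {n : ℕ}
    (hx : x ∈ Jideal 𝒟 F κ ⊔ maximalIdeal (Lam 𝒪 N) ^ n) :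
    Ideal.Quotient.mk (Jideal 𝒟 F κ) x ∈ maximalIdeal (Lam 𝒪 N ⧸ Jideal 𝒟 F κ) ^ n := by
  rw [maximalIdeal_quotient_mvPowerSeries, ← Ideal.map_pow]
  obtain ⟨a, ha, b, hb, rfl⟩ := Submodule.mem_sup.mp hx
  rw [map_add, Ideal.Quotient.eq_zero_iff_mem.mpr ha, zero_add]
  exact Ideal.mem_map_of_mem _ hb

end Local

/-- Hypothesis shape: for every `n ≥ 1` the ideal `J ⊔ 𝔪 ^ n` is the kernel of the
(surjective) coordinate map of a test lift. -/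
def SurjData
    (𝒟 : ∀ ⦃A : Type⦄ [CommRing A] [IsLocalRing A] [Algebra 𝒪 A], GaloisRepAdic A → Prop)
    (F : Frame 𝒪 ρbar) {N : ℕ} (κ : Coords N) : Prop :=
  ∀ n : ℕ, 1 ≤ n →
    ∃ (A : Type) (_ : CommRing A) (_ : IsLocalRing A) (_ : Algebra 𝒪 A) (r : Gal →* M2 A)
      (φ : Lam 𝒪 N →ₐ[𝒪] A),
      IsTestLift 𝒟 F r ∧ (∀ l, φ (MvPowerSeries.X l) = coord F κ r l) ∧
        RingHom.ker (φ : Lam 𝒪 N →+* A) = Jideal 𝒟 F κ ⊔ maximalIdeal (Lam 𝒪 N) ^ n ∧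
        Function.Surjective φ

/-- Hypothesis shape: test lifts are stable under local `𝒪`-algebra homomorphisms of Artinian
test algebras. -/
def TestLiftMap
    (𝒟 : ∀ ⦃A : Type⦄ [CommRing A] [IsLocalRing A] [Algebra 𝒪 A], GaloisRepAdic A → Prop)
    (F : Frame 𝒪 ρbar) : Prop :=
  ∀ (A B : Type) [CommRing A] [IsLocalRing A] [Algebra 𝒪 A] [CommRing B] [IsLocalRing B]
    [Algebra 𝒪 B], IsArtinianTestAlgebra 𝒪 B →
    ∀ (φ : A →ₐ[𝒪] B), IsLocalHom (φ : A →+* B) → ∀ {r : Gal →* M2 A},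
      IsTestLift 𝒟 F r → IsTestLift 𝒟 F (mapMat (φ : A →+* B) r)

section Main

variable [IsDomain 𝒪] [IsDiscreteValuationRing 𝒪] [IsAdicComplete (maximalIdeal 𝒪) 𝒪]
  [Finite (ResidueField 𝒪)] [IsLocalRing (Lam 𝒪 N ⧸ Jideal 𝒟 F κ)]

theorem univRep_sub_one_apply {G : Gal → M2 (Lam 𝒪 N)} (hG : IsUnivEntries 𝒟 F κ G) (σ : Gal)
    (i j : Fin 2) :
    (univRep hG σ - 1) i j =
      Ideal.Quotient.mk (Jideal 𝒟 F κ) (G σ i j - (1 : M2 (Lam 𝒪 N)) i j) := by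
  rw [Matrix.sub_apply, univRep_apply, map_sub]
  by_cases h : i = j <;> simp [h, Matrix.one_apply]

theorem univRep_matCont (hS : SurjData 𝒟 F κ)
    {G : Gal → M2 (Lam 𝒪 N)} (hG : IsUnivEntries 𝒟 F κ G) : MatCont (univRep hG) := by
  intro n
  rcases Nat.eq_zero_or_pos n with rfl | hn
  · obtain ⟨A, _, _, _, r, φ, hr, -, -, -⟩ := hS 1 le_rfl
    obtain ⟨L, hL, -⟩ := hr.norm.cont 0
    refine ⟨L, hL, fun σ _ i j => ?_⟩
    rw [pow_zero, Ideal.one_eq_top]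
    exact Submodule.mem_top
  · obtain ⟨A, _, _, _, r, φ, hr, hφ, hker, -⟩ :=
      hS n hn
    haveI : IsArtinianRing A := hr.test.isArtinian
    obtain ⟨M, hM⟩ := (isArtinianRing_iff_isNilpotent_maximalIdeal A).mp inferInstance
    obtain ⟨L, hL, h⟩ := hr.norm.cont M
    refine ⟨L, hL, fun σ hσ i j => ?_⟩
    rw [univRep_sub_one_apply]
    apply mk_mem_maximalIdeal_pow
    rw [← hker, RingHom.mem_ker]
    have h1 := h σ hσ i j
    rw [hM, Ideal.zero_eq_bot, Ideal.mem_bot] at h1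
    rw [AlgHom.coe_toRingHom, map_sub, hG A r φ hr hφ]
    rw [Matrix.sub_apply] at h1
    rw [← h1]
    congr 1
    by_cases hij : i = j <;> simp [hij, Matrix.one_apply]

theorem univRep_isNormLift (hS : SurjData 𝒟 F κ)
    {G : Gal → M2 (Lam 𝒪 N)} (hG : IsUnivEntries 𝒟 F κ G) : IsNormLift F (univRep hG) where
  cont := univRep_matCont hS hG
  lift := by
    intro g i j
    obtain ⟨A, _, _, _, r, φ, hr, hφ, -, -⟩ :=
      hS 1 le_rfl
    have h2 : univRep hG g i j - algebraMap 𝒪 (Lam 𝒪 N ⧸ Jideal 𝒟 F κ) (F.c g i j) =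
        Ideal.Quotient.mk (Jideal 𝒟 F κ)
          (G g i j - algebraMap 𝒪 (Lam 𝒪 N) (F.c g i j)) := by
      rw [univRep_apply, map_sub]; rfl
    rw [h2]
    apply mk_mem_maximalIdeal
    apply mem_maximalIdeal_of_map_mem (φ : Lam 𝒪 N →+* A)
    rw [AlgHom.coe_toRingHom, map_sub, hG A r φ hr hφ, AlgHom.commutes]
    exact hr.norm.lift g i j
  x10 := by
    have := linExt_univRep_eq hG F.x 1 0 0 (fun A _ _ _ r hr => by rw [hr.norm.x10, map_zero])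
    rw [this, map_zero]
  y00 := by
    have := linExt_univRep_eq hG F.y 0 0 0 (fun A _ _ _ r hr => by rw [hr.norm.y00, map_zero])
    rw [this, map_zero]
  y10 := by
    have := linExt_univRep_eq hG F.y 1 0 1 (fun A _ _ _ r hr => by rw [hr.norm.y10, map_one])
    rw [this, map_one]

omit [IsDomain 𝒪] [IsDiscreteValuationRing 𝒪] [IsAdicComplete (maximalIdeal 𝒪) 𝒪]
  [Finite (ResidueField 𝒪)] [IsLocalRing (Lam 𝒪 N ⧸ Jideal 𝒟 F κ)] [IsLocalRing 𝒪] in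
theorem type_congr {A : Type} [CommRing A] [IsLocalRing A] [Algebra 𝒪 A]
    {r r' : Gal →* M2 A} (h : r = r') (hr : MatCont r) (hr' : MatCont r')
    (hD : 𝒟 (ofMat r hr)) : 𝒟 (ofMat r' hr') := by
  subst h
  exact hD

theorem univRep_type (h𝒟 : IsDeformationCondition 𝒪 𝒟) (hS : SurjData 𝒟 F κ)
    (hmap : TestLiftMap 𝒟 F)
    {G : Gal → M2 (Lam 𝒪 N)} (hG : IsUnivEntries 𝒟 F κ G) :
    𝒟 (ofMat (univRep hG) (univRep_matCont hS hG)) := by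
  haveI hcomp : IsAdicComplete (maximalIdeal (Lam 𝒪 N ⧸ Jideal 𝒟 F κ))
      (Lam 𝒪 N ⧸ Jideal 𝒟 F κ) := isAdicComplete_quotient_mvPowerSeries (Jideal 𝒟 F κ)
  have hloc : IsLocalHom (algebraMap 𝒪 (Lam 𝒪 N ⧸ Jideal 𝒟 F κ)) :=
    isLocalHom_algebraMap_quotient_mvPowerSeries _
  have hsurj : Function.Surjective (IsLocalRing.residue (Lam 𝒪 N ⧸ Jideal 𝒟 F κ) ∘
      algebraMap 𝒪 (Lam 𝒪 N ⧸ Jideal 𝒟 F κ)) := residue_surjective_quotient_mvPowerSeries _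
  have key := h𝒟.iff_forall_surjective (A := Lam 𝒪 N ⧸ Jideal 𝒟 F κ) hloc hsurj
    (ofMat (univRep hG) (univRep_matCont hS hG))
  apply key.mpr
  intro B _ _ _ hB q hq hqs
  haveI : IsArtinianRing B := hB.isArtinian
  obtain ⟨n, hn⟩ := (isArtinianRing_iff_isNilpotent_maximalIdeal B).mp inferInstance
  have hn1 : maximalIdeal B ^ (n + 1) = ⊥ := by
    rw [pow_succ, hn, Ideal.zero_eq_bot, Ideal.bot_mul]
  obtain ⟨A, _, _, _, r, φ, hr, hφ, hker, hsurj⟩ :=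
    hS (n + 1) (by omega)
  let qm : Lam 𝒪 N →ₐ[𝒪] B := q.comp (Ideal.Quotient.mkₐ 𝒪 (Jideal 𝒟 F κ))
  have hqmloc : IsLocalHom (qm : Lam 𝒪 N →+* B) :=
    IsLocalHom.of_surjective _ (hqs.comp (Ideal.Quotient.mkₐ_surjective 𝒪 _))
  have hqm : ∀ x ∈ RingHom.ker φ, qm x = 0 := by
    intro x hx
    have hx' : x ∈ RingHom.ker (φ : Lam 𝒪 N →+* A) := hx
    rw [hker] at hx'
    replace hx := hx'
    obtain ⟨a, ha, b, hb, rfl⟩ := Submodule.mem_sup.mp hx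
    have h1 : qm a = 0 := by
      show q (Ideal.Quotient.mk _ a) = 0
      rw [Ideal.Quotient.eq_zero_iff_mem.mpr ha, map_zero]
    have h2 : qm b ∈ maximalIdeal B ^ (n + 1) := by
      have hle : (maximalIdeal (Lam 𝒪 N)).map (qm : Lam 𝒪 N →+* B) ≤ maximalIdeal B :=
        ((local_hom_TFAE (qm : Lam 𝒪 N →+* B)).out 0 2).mp hqmloc
      have := Ideal.pow_right_mono hle (n + 1)
      rw [← Ideal.map_pow] at this
      exact this (Ideal.mem_map_of_mem _ hb)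
    rw [hn1, Ideal.mem_bot] at h2
    rw [map_add, h1, h2, add_zero]
  let e := Ideal.quotientKerAlgEquivOfSurjective hsurj
  let ψ : A →ₐ[𝒪] B :=
    (Ideal.Quotient.liftₐ (RingHom.ker φ) qm hqm).comp
      (e.symm : A →ₐ[𝒪] _)
  have hψ : ∀ x, ψ (φ x) = qm x := by
    intro x
    have : e.symm (φ x) = Ideal.Quotient.mk _ x := by
      rw [AlgEquiv.symm_apply_eq]
      rfl
    show (Ideal.Quotient.liftₐ _ qm hqm) (e.symm (φ x)) = qm x
    rw [this]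
    rfl
  have hψs : Function.Surjective ψ := by
    intro b
    obtain ⟨x, rfl⟩ := hqs b
    obtain ⟨y, rfl⟩ := Ideal.Quotient.mk_surjective x
    exact ⟨φ y, hψ y⟩
  have hψloc : IsLocalHom (ψ : A →+* B) := IsLocalHom.of_surjective _ hψs
  have hrB := hmap A B hB ψ hψloc hr
  have heq : mapMat (ψ : A →+* B) r =
      mapMat (q : (Lam 𝒪 N ⧸ Jideal 𝒟 F κ) →+* B) (univRep hG) := by
    ext σ i j
    rw [mapMat_apply, mapMat_apply, univRep_apply, ← hG A r φ hr hφ σ i j]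
    exact hψ _
  have hc2 : MatCont (mapMat (q : (Lam 𝒪 N ⧸ Jideal 𝒟 F κ) →+* B) (univRep hG)) :=
    matCont_mapMat (q : (Lam 𝒪 N ⧸ Jideal 𝒟 F κ) →+* B) hq (univRep_matCont hS hG)
  have h1 : 𝒟 (ofMat (mapMat (q : (Lam 𝒪 N ⧸ Jideal 𝒟 F κ) →+* B) (univRep hG)) hc2) :=
    type_congr (A := B) heq hrB.norm.cont hc2 hrB.type
  have h2 : ((ofMat (univRep hG) (univRep_matCont hS hG)).baseChangeAlong
      (q : (Lam 𝒪 N ⧸ Jideal 𝒟 F κ) →+* B) hq).IsEquiv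
      (ofMat (mapMat (q : (Lam 𝒪 N ⧸ Jideal 𝒟 F κ) →+* B) (univRep hG)) hc2) :=
    baseChangeAlong_ofMat (q : (Lam 𝒪 N ⧸ Jideal 𝒟 F κ) →+* B) hq (univRep_matCont hS hG)
  exact h𝒟.of_isEquiv hB (IsEquiv.symm h2) h1

theorem univRep_residual (hS : SurjData 𝒟 F κ)
    {G : Gal → M2 (Lam 𝒪 N)} (hG : IsUnivEntries 𝒟 F κ G)
    (hloc : IsLocalHom (algebraMap 𝒪 (Lam 𝒪 N ⧸ Jideal 𝒟 F κ))) :
    (ofMat (univRep hG) (univRep_matCont hS hG)).residual.IsEquiv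
      (ρbar.baseChangeAlong
        (@IsLocalRing.ResidueField.map _ _ _ _ _ _ (algebraMap 𝒪 (Lam 𝒪 N ⧸ Jideal 𝒟 F κ))
          hloc)) :=
  residual_ofMat_isEquiv_frame (A := Lam 𝒪 N ⧸ Jideal 𝒟 F κ) F hloc
    (univRep_matCont hS hG) (univRep_isNormLift hS hG).lift

end Main

end Fermat.Agent.S53
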